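/-
Complex conjugation on the lattice of parabolic homomorphisms: it is minus the involution of
`diag(-1, 1)`, and both of its signs support every eigen-system of a cusp form.
-/
import Fermat.Agent.GalRep.Endgame
import Fermat.Agent.Period.MaxPrinciple
import Fermat.Agent.Period.EichlerShimura

set_option autoImplicit false
set_option linter.style.haveILetI false

noncomputable section

namespace Fermat.Agent.GalRep.Semistable

open UpperHalfPlane CongruenceSubgroup ModularCurve
open Fermat.Agent.Galois (GQ)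
open scoped MatrixGroups ModularForm Manifold ComplexConjugate IsMulCommutative
open MvPolynomial (rename)

local notation "ℚb" => AlgebraicClosure ℚ

/-! ## The element -/

theorem exists_conj_qbar (x : ℚb) : ∃ y : ℚb, qbarToC y = conj (qbarToC x) :=
  exists_qbarToC_eq ((Algebra.IsAlgebraic.isAlgebraic x).algHom
    ((starRingEnd ℂ).comp qbarToC).toRatAlgHom)

/-- Complex conjugation, as a function. -/
def conjFunQ (x : ℚb) : ℚb := (exists_conj_qbar x).choose

theorem qbarToC_conjFunQ (x : ℚb) : qbarToC (conjFunQ x) = conj (qbarToC x) :=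
  (exists_conj_qbar x).choose_spec

/-- Complex conjugation in the absolute Galois group. -/
def conjQ : GQ :=
  AlgEquiv.ofRingEquiv (f :=
    { toFun := conjFunQ
      invFun := conjFunQ
      left_inv := fun x => qbarToC_injective (by
        rw [qbarToC_conjFunQ, qbarToC_conjFunQ, Complex.conj_conj])
      right_inv := fun x => qbarToC_injective (by
        rw [qbarToC_conjFunQ, qbarToC_conjFunQ, Complex.conj_conj])
      map_mul' := fun x y => qbarToC_injective (by
        simp only [qbarToC_conjFunQ, map_mul])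
      map_add' := fun x y => qbarToC_injective (by
        simp only [qbarToC_conjFunQ, map_add]) })
    fun r => qbarToC_injective (by
      show qbarToC (conjFunQ (algebraMap ℚ ℚb r)) = _
      rw [qbarToC_conjFunQ, eq_ratCast, map_ratCast, map_ratCast])

theorem conjQ_spec (x : ℚb) : qbarToC (conjQ x) = conj (qbarToC x) := qbarToC_conjFunQ x

theorem conjQ_mul_self : conjQ * conjQ = 1 :=
  AlgEquiv.ext fun x => qbarToC_injective (by
    rw [AlgEquiv.mul_apply, conjQ_spec, conjQ_spec, Complex.conj_conj]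
    rfl)

theorem conjQ_root_of_unity {n : ℕ} (hn : n ≠ 0) {ζ : ℚb} (hζ : ζ ^ n = 1) : conjQ ζ = ζ⁻¹ := by
  refine qbarToC_injective ?_
  rw [conjQ_spec, map_inv₀, Complex.inv_eq_conj]
  refine Complex.norm_eq_one_of_pow_eq_one (n := n) ?_ hn
  rw [← map_pow, hζ, map_one]

theorem cyc_conjQ (p : ℕ) [hp : Fact p.Prime] : cyc p conjQ = -1 := by
  refine Units.ext (PadicInt.ext_of_toZModPow.mp fun k => ?_)
  rw [Units.val_neg, Units.val_one, map_neg, map_one]
  rcases eq_or_ne k 0 with rfl | hk
  · have : Subsingleton (ZMod (p ^ 0)) := by rw [pow_zero]; infer_instance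
    exact Subsingleton.elim _ _
  haveI : NeZero (p ^ k) := ⟨pow_ne_zero k hp.out.ne_zero⟩
  obtain ⟨ζ, hζ⟩ := HasEnoughRootsOfUnity.exists_primitiveRoot ℚb (p ^ k)
  rw [toZModPow_cyc_eq p conjQ hk hζ (m := p ^ k - 1) ?_,
    Nat.cast_sub (Nat.one_le_iff_ne_zero.2 (NeZero.ne _)), ZMod.natCast_self, zero_sub, Nat.cast_one]
  rw [conjQ_root_of_unity (NeZero.ne (p ^ k)) hζ.pow_eq_one]
  refine inv_eq_of_mul_eq_one_right ?_
  rw [← pow_succ', Nat.sub_add_cancel (Nat.one_le_iff_ne_zero.2 (NeZero.ne _)), hζ.pow_eq_one]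

/-! ## Action on Kummer classes -/

variable {N : ℕ} [NeZero N]

/-- Minus the involution of `diag(-1, 1)`. -/
def negInv (A : Type) [AddCommGroup A] : Module.End ℤ (ParHom N A) :=
  AddMonoidHom.toIntLinearMap
    { toFun := fun χ => -⟨Period.charInvolution N ℤ A (χ : Additive (Gamma0 N) →+ A),
        Period.charInvolution_mem_parabolicHoms N ℤ A χ.2⟩
      map_zero' := by ext; simp
      map_add' := fun a b => by
        refine Subtype.ext (AddMonoidHom.ext fun x => ?_)
        simp [add_comm] }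

omit [NeZero N] in
@[simp] theorem negInv_apply {A : Type} [AddCommGroup A] (χ : ParHom N A) (γ : Gamma0 N) :
    ((negInv A χ : ParHom N A) : Additive (Gamma0 N) →+ A) (Additive.ofMul γ) =
      -(χ : Additive (Gamma0 N) →+ A) (Additive.ofMul (Period.jConjGamma0 N γ)) := rfl

omit [NeZero N] in
theorem negInv_natural {A B : Type} [AddCommGroup A] [AddCommGroup B] (f : A →+ B)
    (χ : ParHom N A) : negInv B (parMap f χ) = parMap f (negInv A χ) := by
  refine Subtype.ext (AddMonoidHom.ext fun x => ?_)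
  obtain ⟨γ, rfl⟩ := Additive.ofMul.surjective x
  simp

theorem conj_exp_term (w : ℕ) (m : ℤ) (c : ℂ) (τ : ℍ) :
    conj (c * Complex.exp (2 * Real.pi * Complex.I * m * ((J • τ : ℍ) : ℂ) / w)) =
      conj c * Complex.exp (2 * Real.pi * Complex.I * m * (τ : ℂ) / w) := by
  rw [map_mul, ← Complex.exp_conj]
  congr 2
  simp [coe_J_smul, map_div₀, map_ofNat]

theorem hasQSeries_conj {w : ℕ} {F : ℍ → ℂ} {f : LaurentSeries ℂ} (hf : HasQSeries w F f) :
    HasQSeries w (fun τ => conj (F (J • τ))) (lmap (starRingEnd ℂ) f) := by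
  unfold HasQSeries at hf ⊢
  filter_upwards [Period.tendsto_J_smul_atImInfty.eventually hf] with τ hτ
  refine (Complex.hasSum_conj'.2 hτ).congr_fun fun m => ?_
  rw [lmap_coeff, conj_exp_term]

theorem mdifferentiable_conj {F : ℍ → ℂ} (hF : MDifferentiable 𝓘(ℂ) 𝓘(ℂ) F) :
    MDifferentiable 𝓘(ℂ) 𝓘(ℂ) (fun τ => conj (F (J • τ))) := by
  have hfun : F ∣[(0 : ℤ)] J = fun z : ℍ => conj (F (J • z)) := by
    funext z
    simp [ModularForm.slash_apply]
  rw [← hfun]
  exact hF.slash _ _

theorem conj_stdAddChar {n : ℕ} [NeZero n] (a : ZMod n) :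
    conj (ZMod.stdAddChar a) = ZMod.stdAddChar (-a) := by
  rw [AddChar.map_neg_eq_inv]
  exact (Complex.inv_eq_conj (AddChar.norm_apply _ _)).symm

omit [NeZero N] in
theorem isKummerRep_conj {n : ℕ} [NeZero n] {χ : ParHom N (ZMod n)} {F : ℍ → ℂ}
    (hF : IsKummerRep N n χ F) :
    IsKummerRep N n (negInv (ZMod n) χ) (fun τ => conj (F (J • τ))) where
  holo := mdifferentiable_conj hF.holo
  ne_zero h := hF.ne_zero (funext fun τ => by
    have := congrFun h (J • τ)
    rwa [← mul_smul, ← sq, J_sq, one_smul, Pi.zero_apply, map_eq_zero] at this)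
  equivariant γ τ := by
    show conj (F _) = _
    rw [Period.J_smul_smul, ← Period.jConjGamma0_coe, hF.equivariant, map_mul, conj_stdAddChar,
      negInv_apply]
  cusps δ := by
    obtain ⟨w, f, hw, hf⟩ := hF.cusps (Period.jConjSL δ)
    refine ⟨w, lmap (starRingEnd ℂ) f, hw, ?_⟩
    simpa only [Period.J_smul_smul] using hasQSeries_conj hf

theorem galois_conjQ {n : ℕ} [NeZero n] (K : KummerGalois N n) (χ : ParHom N (ZMod n)) :
    K.galois conjQ χ = negInv (ZMod n) χ := by
  obtain ⟨F, f, hF, hf⟩ := K.exists_algebraic χ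
  rw [K.galois_eq]
  refine (eq_autChar _ hF hf (isKummerRep_conj hF) ?_).symm
  convert hasQSeries_conj hf using 1
  ext m
  simp only [lmap_coeff]
  show liftAut conjQ (qbarToC (f.coeff m)) = conj (qbarToC (f.coeff m))
  rw [liftAut_spec, conjQ_spec]

/-! ## On the lattice -/

variable {p : ℕ} [Fact p.Prime] [∀ k, NeZero (p ^ k)]

theorem toPar_latGalois_conjQ (K : ∀ k, KummerGalois N (p ^ k)) (hC : KummerCompat N)
    (v : Lat N p) : toPar (latGalois K hC conjQ v) = negInv ℤ_[p] (toPar v) := by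
  let w : Lat N p := ⟨((negInv ℤ_[p] (toPar v) : ParHom N ℤ_[p]) : Additive (Gamma0 N) →+ ℤ_[p]),
    (negInv ℤ_[p] (toPar v)).2⟩
  suffices h : latGalois K hC conjQ v = w by rw [h]; rfl
  refine lat_ext fun k => ?_
  rw [redPow_latGalois, galois_conjQ]
  refine Subtype.ext (AddMonoidHom.ext fun x => ?_)
  obtain ⟨γ, rfl⟩ := Additive.ofMul.surjective x
  rw [negInv_apply, redPow_apply, redPow_apply]
  exact (map_neg _ _).symm

omit [NeZero N] [∀ k, NeZero (p ^ k)] in
theorem exists_int_smul_of_lat {θ : ParHom N ℤ} {m : ℕ}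
    (h : ∃ w : Lat N p, (ofIntHom θ : Lat N p) = (p ^ m : ℤ_[p]) • w) :
    ∃ θ' : ParHom N ℤ, θ = ((p : ℤ) ^ m) • θ' := by
  obtain ⟨w, hw⟩ := h
  have hdvd : ∀ x, (p : ℤ) ^ m ∣ (θ : Additive (Gamma0 N) →+ ℤ) x := fun x => by
    rw [← PadicInt.pow_p_dvd_int_iff]
    exact ⟨_, DFunLike.congr_fun (congrArg Subtype.val hw) x⟩
  choose q hq using hdvd
  have hp : ((p : ℤ) ^ m) ≠ 0 := pow_ne_zero _ (Int.natCast_ne_zero.mpr (Fact.out : p.Prime).ne_zero)
  refine ⟨⟨AddMonoidHom.mk' q fun x y => mul_left_cancel₀ hp (by rw [mul_add, ← hq, ← hq, ← hq, map_add]),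
    fun γ hγ => ?_⟩, Subtype.ext (AddMonoidHom.ext fun x => hq x)⟩
  show q (Additive.ofMul γ) = 0
  refine mul_left_cancel₀ hp ?_
  rw [← hq, θ.2 γ hγ, mul_zero]

/-- On periods, neither sign of the involution vanishes. -/
theorem negInv_periods_ne {g : CuspForm (Gamma0 N) 2} (hg : g ≠ 0) {s : ℤ} (hs : s = 1 ∨ s = -1) :
    negInv ℂ (periodParHom N g) + s • periodParHom N g ≠ 0 := by
  intro h0
  have h1 : ∀ γ : Gamma0 N, -periodMap N g (Additive.ofMul (Period.jConjGamma0 N γ)) +
      (s : ℂ) * periodMap N g (Additive.ofMul γ) = 0 := fun γ => by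
    have := DFunLike.congr_fun (congrArg Subtype.val h0) (Additive.ofMul γ)
    rw [Submodule.coe_add, AddMonoidHom.add_apply, negInv_apply] at this
    simp only [Submodule.coe_smul, ZeroMemClass.coe_zero, AddMonoidHom.zero_apply,
      AddMonoidHom.coe_smul, Pi.smul_apply, zsmul_eq_mul] at this
    exact this
  have h0' : periodMap N (0 : CuspForm (Gamma0 N) 2) = 0 := by
    obtain ⟨pml, hpml, -⟩ := periodHomPair_def N (Period.existsPeriodMapLinear N)
    rw [← hpml, map_zero]
  rcases hs with rfl | rfl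
  · refine hg (congrArg Prod.snd (Period.periodHomPair_injective
      (a₁ := ((0 : CuspForm (Gamma0 N) 2), g)) (a₂ := (0, 0)) ?_))
    refine AddMonoidHom.ext fun x => ?_
    obtain ⟨γ, rfl⟩ := Additive.ofMul.surjective x
    have := h1 γ
    push_cast at this
    rw [Period.periodHomPair_apply, Period.periodHomPair_apply, h0', AddMonoidHom.zero_apply,
      AddMonoidHom.zero_apply]
    linear_combination this
  · refine hg (congrArg Prod.fst (Period.periodHomPair_injective
      (a₁ := (g, (0 : CuspForm (Gamma0 N) 2))) (a₂ := (0, 0)) ?_))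
    refine AddMonoidHom.ext fun x => ?_
    obtain ⟨γ, rfl⟩ := Additive.ofMul.surjective x
    have := h1 γ
    push_cast at this
    rw [Period.periodHomPair_apply, Period.periodHomPair_apply, h0', AddMonoidHom.zero_apply,
      AddMonoidHom.zero_apply]
    linear_combination -this

/-- An integral endomorphism killing the integral homomorphisms kills the complex ones. -/
theorem sign_hecke_eq_zero_complex {s : ℤ} {P : HeckePoly N}
    (h : (negInv ℤ + s • 1) * heckePolyHom N ℤ P = 0) (χ : ParHom N ℂ) :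
    (negInv ℂ + s • 1 : Module.End ℤ (ParHom N ℂ)) (heckePolyHom N ℂ P χ) = 0 := by
  obtain ⟨ι, _, φ, emb, rfl⟩ := exists_int_decomp χ
  rw [map_sum, map_sum]
  refine Finset.sum_eq_zero fun i _ => ?_
  have h' := LinearMap.congr_fun h (φ i)
  rw [Module.End.mul_apply, LinearMap.add_apply, LinearMap.smul_apply, Module.End.one_apply,
    LinearMap.zero_apply] at h'
  rw [heckePolyHom_natural, LinearMap.add_apply, LinearMap.smul_apply, Module.End.one_apply,
    negInv_natural, ← map_zsmul (parMap (emb i)), ← map_add, h', map_zero]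

set_option maxHeartbeats 800000 in
set_option synthInstance.maxHeartbeats 100000 in
/-- Both signs of complex conjugation support the eigen-system of a cusp form. -/
theorem sign_support (K : ∀ k, KummerGalois N (p ^ k)) (hC : KummerCompat N)
    (hT : ∀ k, KummerHeckeComm N (p ^ k)) (hF : KummerFrobenius N) (S : Set ℕ)
    {R : Type} [CommRing R] [Algebra ℤ_[p] R] {I : Ideal R} (hp : (p : R) ∈ I)
    (hI : ∀ r : R, (∀ k, r ∈ I ^ k) → r = 0)
    (χ : CuspForm.heckeAlgebra N 2 S →+* R) (a : CuspForm.heckeAlgebra N 2 S →+* ℂ)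
    (ha : ∀ t, a t = 0 → χ t = 0) {g : CuspForm (Gamma0 N) 2} (hg : g ≠ 0)
    (heig : ∀ t : CuspForm.heckeAlgebra N 2 S,
      (t : Module.End ℂ (CuspForm (Gamma0 N) 2)) g = a t • g)
    (ψ : heckeClosure (eichlerShimuraDatum K hC hT hF) S →ₐ[ℤ_[p]] R)
    (hψ : ∀ i, ψ (heckeGen (eichlerShimuraDatum K hC hT hF) S i) =
      χ (CuspForm.heckeAlgebra.T i.1.1.2 i.1.2 i.2))
    {s : ℤ} (hs : s = 1 ∨ s = -1) {P : heckeClosure (eichlerShimuraDatum K hC hT hF) S}
    (hP : ∀ v : (eichlerShimuraDatum K hC hT hF).L,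
      (eichlerShimuraDatum K hC hT hF).galois conjQ v = (s : ℤ_[p]) • v →
      P.1 v = 0) : ψ P = 0 := by
  obtain ⟨q, rfl⟩ := heckeClosureHom_surjective (eichlerShimuraDatum K hC hT hF) S P
  set c : Module.End ℤ_[p] (eichlerShimuraDatum K hC hT hF).L := (eichlerShimuraDatum K hC hT hF).galois conjQ
  have hcc : ∀ v, c (c v) = v := fun v => by
    show (eichlerShimuraDatum K hC hT hF).galois conjQ ((eichlerShimuraDatum K hC hT hF).galois conjQ v) = v
    rw [← Module.End.mul_apply, ← map_mul, conjQ_mul_self, map_one, Module.End.one_apply]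
  have hs2 : (s : ℤ_[p]) * s = 1 := by rcases hs with rfl | rfl <;> simp
  have hcomm : ∀ v : (eichlerShimuraDatum K hC hT hF).L, c ((heckeClosureHom (eichlerShimuraDatum K hC hT hF) S q).1 v) =
      (heckeClosureHom (eichlerShimuraDatum K hC hT hF) S q).1 (c v) := fun v => by
    have h : ∀ i, Commute ((eichlerShimuraDatum K hC hT hF).galois conjQ) ((eichlerShimuraDatum K hC hT hF).hecke (MvPolynomial.X i)) := fun i =>
      (eichlerShimuraDatum K hC hT hF).galois_hecke _ _
    have h' : Commute ((eichlerShimuraDatum K hC hT hF).galois conjQ) (heckeClosureHom (eichlerShimuraDatum K hC hT hF) S q).1 := by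
      clear hP
      induction q using MvPolynomial.induction_on with
      | C a =>
        rw [show heckeClosureHom (eichlerShimuraDatum K hC hT hF) S (MvPolynomial.C a) = algebraMap ℤ_[p] _ a from
          AlgHom.commutes _ a, Subalgebra.coe_algebraMap]
        exact (Algebra.commutes a ((eichlerShimuraDatum K hC hT hF).galois conjQ)).symm
      | add x y hx hy => rw [map_add, Subalgebra.coe_add]; exact hx.add_right hy
      | mul_X x i hx =>
        rw [map_mul, Subalgebra.coe_mul]
        exact hx.mul_right (by simpa [heckeClosureHom] using h i.1)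
    exact LinearMap.congr_fun h'.eq v
  have hkill : ∀ v : (eichlerShimuraDatum K hC hT hF).L, c ((heckeClosureHom (eichlerShimuraDatum K hC hT hF) S q).1 v) +
      (s : ℤ_[p]) • (heckeClosureHom (eichlerShimuraDatum K hC hT hF) S q).1 v = 0 := fun v => by
    rw [hcomm, ← map_smul, ← map_add]
    refine hP _ ?_
    rw [map_add, map_smul, hcc, smul_add, smul_smul, hs2, one_smul, add_comm]
  refine hI _ fun k => ?_
  -- saturation
  let E := Module.End ℤ (ParHom N ℤ)
  let T : E := negInv ℤ + s • 1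
  let R₀ : Submodule ℤ E := LinearMap.range ((LinearMap.mulLeft ℤ T).comp
    ((heckePolyHom N ℤ).toLinearMap.comp
      (rename (Subtype.val : GoodPrimeOff N S → GoodPrime N)).toLinearMap))
  obtain ⟨k₀, hk₀⟩ := Ideal.exists_pow_inf_eq_pow_smul (Ideal.span {(p : ℤ)}) R₀
  obtain ⟨Q, q', rfl⟩ := exists_int_approx q (k₀ + k)
  have hψev : ∀ F, ψ (heckeClosureHom (eichlerShimuraDatum K hC hT hF) S (MvPolynomial.map (Int.castRingHom ℤ_[p]) F)) =
      χ (evFormsOff S F) := fun F => by
    induction F using MvPolynomial.induction_on with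
    | C a => simp
    | add x y hx hy => simp only [map_add, hx, hy]
    | mul_X x i hx =>
      simp only [map_mul, hx, MvPolynomial.map_X]
      congr 1
      rw [show heckeClosureHom (eichlerShimuraDatum K hC hT hF) S (MvPolynomial.X i) = heckeGen (eichlerShimuraDatum K hC hT hF) S i from MvPolynomial.aeval_X _ _,
        hψ, evFormsOff, MvPolynomial.aeval_X]
  have hdiv : ∀ φ : ParHom N ℤ, ∃ θ : ParHom N ℤ,
      T (heckePolyHom N ℤ (rename Subtype.val Q) φ) = ((p : ℤ) ^ (k₀ + k)) • θ := by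
    intro φ
    refine exists_int_smul_of_lat (p := p) ?_
    let w₀ : (eichlerShimuraDatum K hC hT hF).L := ofIntHom φ
    have h0 := hkill w₀
    set F₁ : Module.End ℤ_[p] (eichlerShimuraDatum K hC hT hF).L := (heckeClosureHom (eichlerShimuraDatum K hC hT hF) S q').1
    refine ⟨-(c (F₁ w₀) + (s : ℤ_[p]) • F₁ w₀), ?_⟩
    erw [smul_neg]
    rw [← sub_eq_zero, sub_neg_eq_add]
    refine Eq.trans ?_ h0
    let W : (eichlerShimuraDatum K hC hT hF).L :=
      latHeckePoly N p (rename Subtype.val Q) (ofIntHom φ)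
    have e1 : (heckeClosureHom (eichlerShimuraDatum K hC hT hF) S (MvPolynomial.map (Int.castRingHom ℤ_[p]) Q +
        MvPolynomial.C ((p : ℤ_[p]) ^ (k₀ + k)) * q')).1 w₀ =
        W + (p : ℤ_[p]) ^ (k₀ + k) • F₁ w₀ := by
      rw [map_add, map_mul, Subalgebra.coe_add, Subalgebra.coe_mul, LinearMap.add_apply,
        Module.End.mul_apply, coe_heckeClosureHom_map,
        show heckeClosureHom (eichlerShimuraDatum K hC hT hF) S (MvPolynomial.C ((p : ℤ_[p]) ^ (k₀ + k))) =
          algebraMap ℤ_[p] _ ((p : ℤ_[p]) ^ (k₀ + k)) from AlgHom.commutes _ _,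
        Subalgebra.coe_algebraMap, Module.algebraMap_end_apply]
      rfl
    rw [e1, map_add c, map_smul c, smul_add, smul_comm (s : ℤ_[p])]
    erw [smul_add]
    have e2 : (ofIntHom (T (heckePolyHom N ℤ (rename Subtype.val Q) φ)) : Lat N p) =
        c W + (s : ℤ_[p]) • W := by
      refine Subtype.ext (AddMonoidHom.ext fun x => ?_)
      obtain ⟨γ, rfl⟩ := Additive.ofMul.surjective x
      have hL : toPar (latHeckePoly N p (rename Subtype.val Q) (ofIntHom φ)) =
          parMap (Int.castAddHom ℤ_[p]) (heckePolyHom N ℤ (rename Subtype.val Q) φ) := by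
        rw [toPar_latHeckePoly, ← heckePolyHom_natural]
        rfl
      set θ := heckePolyHom N ℤ (rename Subtype.val Q) φ
      set v := latHeckePoly N p (rename Subtype.val Q) (ofIntHom φ)
      have hcv := DFunLike.congr_fun (congrArg Subtype.val (toPar_latGalois_conjQ K hC v))
        (Additive.ofMul γ)
      rw [negInv_apply, hL, parMap_apply] at hcv
      have hLv := DFunLike.congr_fun (congrArg Subtype.val hL) (Additive.ofMul γ)
      rw [parMap_apply] at hLv
      show ((T θ : ParHom N ℤ) : Additive (Gamma0 N) →+ ℤ) (Additive.ofMul γ) = (_ : ℤ_[p])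
      show (((T θ : ParHom N ℤ) : Additive (Gamma0 N) →+ ℤ) (Additive.ofMul γ) : ℤ_[p]) =
        ((toPar (latGalois K hC conjQ v) : ParHom N ℤ_[p]) : Additive (Gamma0 N) →+ ℤ_[p])
            (Additive.ofMul γ) +
          (s : ℤ_[p]) • ((toPar v : ParHom N ℤ_[p]) : Additive (Gamma0 N) →+ ℤ_[p])
            (Additive.ofMul γ)
      rw [hcv, hLv, show T θ = negInv ℤ θ + s • θ from rfl]
      simp
    erw [e2]
    abel
  choose θ hθ using hdiv
  have hpk : ((p : ℤ) ^ (k₀ + k)) ≠ 0 :=
    pow_ne_zero _ (Int.natCast_ne_zero.mpr (Fact.out : p.Prime).ne_zero)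
  have hinj : Function.Injective fun χ : ParHom N ℤ => ((p : ℤ) ^ (k₀ + k)) • χ := fun a b hab =>
    Subtype.ext (AddMonoidHom.ext fun x =>
      mul_left_cancel₀ hpk (DFunLike.congr_fun (congrArg Subtype.val hab) x))
  let Θ : E :=
    { toFun := θ
      map_add' := fun a b => hinj (by simp only [smul_add, ← hθ, map_add])
      map_smul' := fun z a => hinj (by simp only [RingHom.id_apply]; rw [smul_comm, ← hθ, ← hθ, map_smul, map_smul]) }
  have hmem : T * heckePolyHom N ℤ (rename Subtype.val Q) ∈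
      Ideal.span {(p : ℤ)} ^ (k₀ + k) • (⊤ : Submodule ℤ E) ⊓ R₀ := by
    refine ⟨?_, ⟨Q, rfl⟩⟩
    rw [show T * heckePolyHom N ℤ (rename Subtype.val Q) = ((p : ℤ) ^ (k₀ + k)) • Θ from
      LinearMap.ext hθ, Ideal.span_singleton_pow]
    exact Submodule.smul_mem_smul (Ideal.mem_span_singleton_self _) Submodule.mem_top
  rw [hk₀ _ (Nat.le_add_right k₀ k), Nat.add_sub_cancel_left, Ideal.span_singleton_pow,
    Submodule.ideal_span_singleton_smul] at hmem
  obtain ⟨_, ⟨-, Q', rfl⟩, hQ⟩ := hmem
  change ((p : ℤ) ^ k) • (T * heckePolyHom N ℤ (rename Subtype.val Q')) =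
    T * heckePolyHom N ℤ (rename Subtype.val Q) at hQ
  -- evaluate at the periods of `g`
  have hzero : T * heckePolyHom N ℤ (rename Subtype.val (Q - ((p : ℤ) ^ k) • Q')) = 0 := by
    rw [map_sub, map_sub, mul_sub, map_smul, map_smul, mul_smul_comm, hQ, sub_self]
  have h1 := sign_hecke_eq_zero_complex hzero (periodParHom N g)
  rw [periodPar_heckePoly, ← coe_evFormsOff, heig] at h1
  have h2 : a (evFormsOff S (Q - ((p : ℤ) ^ k) • Q')) = 0 := by
    by_contra hne
    refine negInv_periods_ne (smul_ne_zero hne hg) hs ?_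
    simpa using h1
  have h3 := ha _ h2
  rw [map_sub, map_zsmul, map_sub, map_zsmul, sub_eq_zero] at h3
  rw [map_add, map_mul, map_add, map_mul, hψev, h3]
  refine Ideal.add_mem _ ?_ (Ideal.mul_mem_right _ _ ?_)
  · rw [zsmul_eq_mul, Int.cast_pow, Int.cast_natCast]
    exact Ideal.mul_mem_right _ _ (Ideal.pow_mem_pow hp k)
  · rw [show heckeClosureHom (eichlerShimuraDatum K hC hT hF) S (MvPolynomial.C ((p : ℤ_[p]) ^ (k₀ + k))) =
        algebraMap ℤ_[p] _ ((p : ℤ_[p]) ^ (k₀ + k)) from AlgHom.commutes _ _, AlgHom.commutes,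
      map_pow, map_natCast]
    exact Ideal.pow_le_pow_right (Nat.le_add_left k k₀) (Ideal.pow_mem_pow hp _)

end Fermat.Agent.GalRep.Semistable
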