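/-
Reductions of the series of functions at cusps, at a place of `ℚ̄`.
-/
import Fermat.Agent.GalRep.Level.Congr
import Fermat.Agent.Models.Field.Conj

set_option autoImplicit false

noncomputable section

namespace Fermat.Agent.GalRep.Semistable

open UpperHalfPlane CongruenceSubgroup
open Fermat.Agent.Galois (GQ)
open Fermat.Agent.GalRep.Level
open Fermat.Agent.ModField (conjM conjM_spec conjM_eq)
open scoped MatrixGroups Manifold

local notation "ℚb" => AlgebraicClosure ℚ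
local notation "κ" A:max => IsLocalRing.ResidueField A

variable {A : ValuationSubring (AlgebraicClosure ℚ)}

/-! ## Complements on `HasRed` -/

theorem hasRed_unique {f : LaurentSeries ℚb} {F G : LaurentSeries (κ A)} (hF : HasRed A f F)
    (hG : HasRed A f G) : F = G := by
  ext m
  obtain ⟨h1, e1⟩ := hF m
  obtain ⟨h2, e2⟩ := hG m
  rw [← e1, ← e2]

theorem hasRed_C {x : ℚb} (hx : x ∈ A) :
    HasRed A (HahnSeries.C x) (HahnSeries.C (IsLocalRing.residue A ⟨x, hx⟩)) :=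
  HasRed.iff_exists.mpr ⟨HahnSeries.C ⟨x, hx⟩, lmap_C _ _, lmap_C _ _⟩

/-- A series whose expansion has a reduction has one. -/
theorem exists_hasRed_of_expand {q : ℕ} (hq : q ≠ 0) {f : LaurentSeries ℚb}
    {Φ : LaurentSeries (κ A)} (h : HasRed A (expand q hq f) Φ) :
    ∃ F, HasRed A f F ∧ Φ = expand q hq F := by
  have hm : ∀ j, f.coeff j ∈ A := fun j => by
    obtain ⟨h1, -⟩ := h ((q : ℤ) * j)
    rwa [expand_coeff_mul] at h1
  let a : LaurentSeries A :=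
    ⟨fun j => ⟨f.coeff j, hm j⟩, f.isPWO_support.mono fun j h0 h1 => h0 (Subtype.ext h1)⟩
  have hf : HasRed A f (lmap (IsLocalRing.residue A) a) :=
    HasRed.iff_exists.mpr ⟨a, by ext j; rfl, rfl⟩
  exact ⟨_, hf, hasRed_unique h (hf.expand q hq)⟩

theorem expand_inj {K : Type*} [Field K] {a : ℕ} (ha : a ≠ 0) {f g : LaurentSeries K}
    (h : expand a ha f = expand a ha g) : f = g := (expand a ha).injective h

/-- A root of unity of `ℚ̄` as a unit of the residue field twisting reductions. -/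
theorem exists_twist_red {z : ℚbˣ} {k : ℕ} (hk : k ≠ 0) (hz : z ^ k = 1) :
    ∃ u : (κ A)ˣ, ∀ (f : LaurentSeries ℚb) (F : LaurentSeries (κ A)),
      HasRed A f F → HasRed A (twist z f) (twist u F) := by
  have hmem : ∀ w : ℚbˣ, w ^ k = 1 → (w : ℚb) ∈ A := fun w hw => by
    refine (A.valuation_le_one_iff _).mp ((pow_le_one_iff_of_nonneg zero_le hk).mp ?_)
    rw [← map_pow, ← Units.val_pow_eq_pow_val, hw, Units.val_one, map_one]
  let zA : Aˣ := ⟨⟨(z : ℚb), hmem z hz⟩, ⟨((z⁻¹ : ℚbˣ) : ℚb), hmem z⁻¹ (by rw [inv_pow, hz, inv_one])⟩,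
    Subtype.ext z.mul_inv, Subtype.ext z.inv_mul⟩
  refine ⟨Units.map (IsLocalRing.residue A).toMonoidHom zA, fun f F hf m => ?_⟩
  obtain ⟨h1, e1⟩ := hf m
  have hu : ((z ^ m : ℚbˣ) : ℚb) = (((zA ^ m : Aˣ) : A) : ℚb) := by
    rw [show z = Units.map (A.subtype : A →* ℚb) zA from Units.ext rfl, ← map_zpow]
    rfl
  have hc : (twist z f).coeff m = ((⟨f.coeff m, h1⟩ * ((zA ^ m : Aˣ) : A) : A) : ℚb) := by
    rw [twist_coeff, hu]; rfl
  refine ⟨hc ▸ SetLike.coe_mem _, ?_⟩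
  rw [show (⟨(twist z f).coeff m, hc ▸ SetLike.coe_mem _⟩ : A) =
    ⟨f.coeff m, h1⟩ * ((zA ^ m : Aˣ) : A) from Subtype.ext hc, map_mul, e1, twist_coeff, ← map_zpow]
  rfl

/-! ## Reductions at cusps -/

variable {M : ℕ}

/-- The series of `F` at `δ` has the reduction `Φ`. -/
def RedAt (A : ValuationSubring (AlgebraicClosure ℚ)) (M : ℕ) (F : ℍ → ℂ) (δ : SL(2, ℤ))
    (Φ : LaurentSeries (κ A)) : Prop :=
  ∃ a, HasQSeries M (fun τ => F (δ • τ)) (seriesToC a) ∧ HasRed A a Φ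

namespace RedAt

variable {F G : ℍ → ℂ} {δ : SL(2, ℤ)} {Φ Ψ : LaurentSeries (κ A)}

theorem mul (hF : RedAt A M F δ Φ) (hG : RedAt A M G δ Ψ) : RedAt A M (F * G) δ (Φ * Ψ) := by
  obtain ⟨a, ha, ra⟩ := hF
  obtain ⟨b, hb, rb⟩ := hG
  exact ⟨a * b, by rw [seriesToC_eq_lmap, map_mul]; exact ha.mul hb, ra.mul rb⟩

theorem pow (hF : RedAt A M F δ Φ) (k : ℕ) : RedAt A M (F ^ k) δ (Φ ^ k) := by
  obtain ⟨a, ha, ra⟩ := hF
  exact ⟨a ^ k, by rw [seriesToC_eq_lmap, map_pow]; exact ha.pow k, ra.pow k⟩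

theorem congr (hF : RedAt A M F δ Φ) (h : F = G) : RedAt A M G δ Φ := h ▸ hF

theorem unique (hM : 0 < M) (hF : RedAt A M F δ Φ) (hG : RedAt A M F δ Ψ) : Φ = Ψ := by
  obtain ⟨a, ha, ra⟩ := hF
  obtain ⟨b, hb, rb⟩ := hG
  obtain rfl := seriesToC_injective (ha.unique hM hb)
  exact hasRed_unique ra rb

end RedAt

variable [NeZero M]

/-- The series at infinity of `φ` has algebraic coefficients. -/
def AlgMF (φ : MF M) : Prop := ∃ g, seriesToC g = serAlg M φ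

theorem cycC_eq_one {σ : ℂ ≃+* ℂ} (hσ : ∀ y, σ (qbarToC y) = qbarToC y) : cycC M σ = 1 := by
  rw [← map_one (cycM M), ← cycC_liftAut]
  obtain ⟨z, hz⟩ := HasEnoughRootsOfUnity.exists_primitiveRoot ℚb M
  refine cycC_eq_of_root _ (hz.map_of_injective qbarToC_injective) ?_
  rw [hσ, cycC_liftAut, map_one, Units.val_one]
  rcases eq_or_ne M 1 with rfl | hM1
  · rw [show (qbarToC z) = 1 by
      rw [show z = 1 from by simpa using hz.pow_eq_one, map_one], one_pow]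
  · haveI : Fact (1 < M) := ⟨lt_of_le_of_ne (NeZero.pos M) (Ne.symm hM1)⟩
    rw [ZMod.val_one, pow_one]

/-- An algebraic function has algebraic series at every cusp. -/
theorem AlgMF.exists_series {φ : MF M} (h : AlgMF φ) (δ : SL(2, ℤ)) :
    ∃ a, seriesToC a = serAlg M (shift M δ φ) := by
  obtain ⟨g, hg⟩ := h
  refine exists_seriesToC_eq fun m => isAlgebraic_of_fixed fun σ hσ => ?_
  obtain ⟨φ', hφ'⟩ := exists_conjF σ φ
  have e : φ' = φ := by
    refine serAlg_injective M ?_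
    have h1 := hφ' 1 1 (ConjEq.one_one _)
    rw [shift_one, shift_one] at h1
    rw [h1, ← hg]
    ext k; exact hσ _
  have h1 := hφ' δ δ (by rw [cycC_eq_one hσ]; exact ConjEq.refl_one δ)
  rw [e] at h1
  exact (congrArg (fun s : LaurentSeries ℂ => s.coeff m) h1).symm

theorem AlgMF.hasQSeries {φ : MF M} (h : AlgMF φ) (δ : SL(2, ℤ)) :
    ∃ a, HasQSeries M (fun τ => (φ : ℍ → ℂ) (δ • τ)) (seriesToC a) := by
  obtain ⟨a, ha⟩ := h.exists_series δ
  exact ⟨a, ha ▸ hasQSeries_shift φ δ⟩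

theorem AlgMF.mul {φ ψ : MF M} (h : AlgMF φ) (h' : AlgMF ψ) : AlgMF (φ * ψ) := by
  obtain ⟨a, ha⟩ := h
  obtain ⟨b, hb⟩ := h'
  exact ⟨a * b, by rw [seriesToC_eq_lmap, map_mul, map_mul, ← ha, ← hb]; rfl⟩

theorem AlgMF.pow {φ : MF M} (h : AlgMF φ) (k : ℕ) : AlgMF (φ ^ k) := by
  obtain ⟨a, ha⟩ := h
  exact ⟨a ^ k, by rw [seriesToC_eq_lmap, map_pow, map_pow, ← ha]; rfl⟩

theorem serAlg_conjM (s : GQ) (φ : MF M) {δ δ' : SL(2, ℤ)} (hδ : ConjEq M (cycM M s) δ δ')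
    {a : LaurentSeries ℚb} (ha : seriesToC a = serAlg M (shift M δ φ)) :
    seriesToC (seriesConj s a) = serAlg M (shift M δ' (conjM (liftAut s) φ)) := by
  rw [conjM_spec (liftAut s) φ δ δ' (by rwa [cycC_liftAut]), ← ha,
    lmap_seriesToC (liftAut_spec s)]

theorem AlgMF.conj {φ : MF M} (h : AlgMF φ) (s : GQ) : AlgMF (conjM (liftAut s) φ) := by
  obtain ⟨a, ha⟩ := h.exists_series 1
  refine ⟨seriesConj s a, ?_⟩
  rw [serAlg_conjM s φ (ConjEq.one_one _) ha, shift_one]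

/-- Reduction of a conjugate, for a Frobenius at the place. -/
theorem RedAt.conj {q : ℕ} [Fact q.Prime] [CharP (κ A) q] {σ : GQ}
    (hσ : A.IsFrobeniusAt σ q) (φ : MF M) {δ δ' : SL(2, ℤ)} (hδ : ConjEq M (cycM M σ) δ δ')
    {Φ : LaurentSeries (κ A)} (h : RedAt A M φ δ Φ) :
    RedAt A M (conjM (liftAut σ) φ : MF M) δ' (lmap (frobenius (κ A) q) Φ) := by
  obtain ⟨hdec, hfrob⟩ := hσ
  obtain ⟨a, ha, ra⟩ := h
  refine ⟨seriesConj σ a, ?_, ra.conj hdec fun x => by rw [hfrob, frobenius_def]⟩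
  rw [serAlg_conjM σ φ hδ (ha.unique (NeZero.pos M) (hasQSeries_shift φ δ))]
  exact hasQSeries_shift _ _

/-- An algebraic function whose power has a nonzero reduction has one. -/
theorem RedAt.root {ℓ : ℕ} (hℓ : ℓ.Prime) (hA : A.LiesOverPrime ℓ) {φ : MF M} (halg : AlgMF φ)
    {n : ℕ} (hn : n ≠ 0) {δ : SL(2, ℤ)} {Φ : LaurentSeries (κ A)}
    (h : RedAt A M ((φ : ℍ → ℂ) ^ n) δ Φ) (hΦ : Φ ≠ 0) :
    ∃ Ψ, Ψ ≠ 0 ∧ Ψ ^ n = Φ ∧ RedAt A M φ δ Ψ := by
  obtain ⟨a, ha⟩ := halg.exists_series δ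
  have ha' : HasQSeries M (fun τ => (φ : ℍ → ℂ) (δ • τ)) (seriesToC a) :=
    ha ▸ hasQSeries_shift φ δ
  obtain ⟨b, hb, rb⟩ := h
  obtain rfl : b = a ^ n := seriesToC_injective (hb.unique (NeZero.pos M) (seriesToC_pow ha' n))
  have ha0 : a ≠ 0 := fun h0 => hΦ (by
    rw [h0, zero_pow hn] at rb
    exact hasRed_unique rb (fun m => ⟨A.zero_mem, map_zero _⟩))
  obtain ⟨c, hc0, hint, m, hm⟩ := exists_mf_normalisation hℓ hA (shift M δ φ) ha ha0
  obtain ⟨X, hX⟩ := exists_hasRed hint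
  have hX0 : X ≠ 0 := ne_zero_of_hasRed hX hm
  have hcu : A.valuation c = 1 := by
    rcases A.mem_or_inv_mem c with hcA | hcA
    · by_contra hne
      have hlt : c ∈ A.nonunits :=
        A.mem_nonunits_iff.mpr (lt_of_le_of_ne ((A.valuation_le_one_iff _).mpr hcA) hne)
      refine pow_ne_zero n hX0 ?_
      rw [hasRed_unique (hX.pow n) (by rw [mul_pow]; exact ((hasRed_C hcA).pow n).mul rb),
        (IsLocalRing.residue_eq_zero_iff (⟨c, hcA⟩ : A)).mpr
          (A.coe_mem_nonunits_iff.mp hlt), map_zero, zero_pow hn, zero_mul]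
    · by_contra hne
      have hlt : c⁻¹ ∈ A.nonunits := by
        refine A.mem_nonunits_iff.mpr (lt_of_le_of_ne ((A.valuation_le_one_iff _).mpr hcA) fun h1 => ?_)
        rw [map_inv₀, inv_eq_one] at h1
        exact hne h1
      refine hΦ ?_
      rw [hasRed_unique rb (show HasRed A (a ^ n)
          ((HahnSeries.C (IsLocalRing.residue A ⟨c⁻¹, hcA⟩)) ^ n * X ^ n) by
        have := ((hasRed_C hcA).pow n).mul (hX.pow n)
        rwa [← mul_pow, ← mul_assoc, ← map_mul, inv_mul_cancel₀ hc0, map_one, one_mul] at this),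
        (IsLocalRing.residue_eq_zero_iff (⟨c⁻¹, hcA⟩ : A)).mpr
          (A.coe_mem_nonunits_iff.mp hlt), map_zero, zero_pow hn, zero_mul]
  have hcA : c⁻¹ ∈ A := (A.valuation_le_one_iff _).mp (by rw [map_inv₀, hcu, inv_one])
  have hra := (hasRed_C hcA).mul hX
  rw [← mul_assoc, ← map_mul, inv_mul_cancel₀ hc0, map_one, one_mul] at hra
  have hpow := hasRed_unique (hra.pow n) rb
  exact ⟨_, fun h0 => hΦ (by rw [← hpow, h0, zero_pow hn]), hpow, a, ha', hra⟩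

/-- Translation by powers of `T` twists reductions. -/
theorem exists_redAt_T (A : ValuationSubring (AlgebraicClosure ℚ)) (M : ℕ) [NeZero M] (k : ℤ) :
    ∃ u : (κ A)ˣ, ∀ (F : ℍ → ℂ) (δ : SL(2, ℤ)) (Φ : LaurentSeries (κ A)),
      RedAt A M F δ Φ → RedAt A M F (δ * ModularGroup.T ^ k) (twist u Φ) := by
  obtain ⟨z, hz⟩ := exists_qbarToC_eq (x := Complex.exp (2 * Real.pi * Complex.I * k / M))
    ⟨Polynomial.X ^ M - 1, (Polynomial.monic_X_pow_sub_C 1 (NeZero.ne M)).ne_zero, by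
      simp only [Polynomial.aeval_sub, Polynomial.aeval_X_pow, map_one]
      rw [exp_eq_zetaC_zpow, ← zpow_natCast, ← zpow_mul, mul_comm, zpow_mul, zpow_natCast,
        zetaC_pow, one_zpow, sub_self]⟩
  have hz0 : z ≠ 0 := fun h => by
    rw [h, map_zero] at hz; exact Complex.exp_ne_zero _ hz.symm
  have hzM : Units.mk0 z hz0 ^ M = 1 := by
    refine Units.ext (qbarToC_injective ?_)
    rw [Units.val_pow_eq_pow_val, Units.val_mk0, map_pow, hz, Units.val_one, map_one,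
      ← Complex.exp_nat_mul, Complex.exp_eq_one_iff]
    refine ⟨k, ?_⟩
    have : (M : ℂ) ≠ 0 := Nat.cast_ne_zero.mpr (NeZero.ne M)
    field_simp
  obtain ⟨u, hu⟩ := exists_twist_red (A := A) (NeZero.ne M) hzM
  refine ⟨u, fun F δ Φ h => ?_⟩
  obtain ⟨a, ha, ra⟩ := h
  refine ⟨twist (Units.mk0 z hz0) a, ?_, hu a Φ ra⟩
  rw [seriesToC_eq_lmap, lmap_twist]
  refine ((ha.comp_vadd (NeZero.pos M) k (Units.map ((qbarToC : ℚb →+* ℂ) : ℚb →* ℂ)
    (Units.mk0 z hz0)) (by simp [hz]))).congr (.of_forall fun τ => ?_)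
  show F (δ • ((k : ℝ) +ᵥ τ)) = _
  rw [mul_smul, modular_T_zpow_smul]

end Fermat.Agent.GalRep.Semistable
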