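/-
`U_q` and the Atkin-Lehner involution on functions of level `Γ₀(qm)`, and the congruence
`σ φ ≡ U_q φ` on the component of `∞`.
-/
import Fermat.Agent.GalRep.Semistable.BadRed

set_option autoImplicit false

noncomputable section

namespace Fermat.Agent.GalRep.Semistable

open UpperHalfPlane CongruenceSubgroup
open Fermat.Agent.Galois (GQ)
open Fermat.Agent.GalRep.Level
open Fermat.Agent.ModField (conjM conjM_spec conjM_eq)
open scoped MatrixGroups Manifold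

local notation "ℚb" => AlgebraicClosure ℚ
local notation "κ" A:max => IsLocalRing.ResidueField A

variable (q m : ℕ) [NeZero q]

/-- `τ ↦ qτ`. -/
def dq (τ : ℍ) : ℍ := posMat _ (det_upper_pos (a := q) (d := 1) 0 (NeZero.pos q) one_pos) • τ

/-- `τ ↦ (τ + bm)/q`. -/
def uq (b : ℕ) (τ : ℍ) : ℍ :=
  posMat _ (det_upper_pos (a := 1) (d := q) ((b : ℤ) * m) one_pos (NeZero.pos q)) • τ

theorem coe_dq (τ : ℍ) : (dq q τ : ℂ) = (q : ℂ) * τ := by
  rw [dq, coe_posMat_upper]; simp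

theorem coe_uq (b : ℕ) (τ : ℍ) : (uq q m b τ : ℂ) = ((τ : ℂ) + b * m) / q := by
  rw [uq, coe_posMat_upper]; simp

theorem dq_uq (b : ℕ) (τ : ℍ) :
    dq q (uq q m b τ) = ModularGroup.T ^ ((b : ℤ) * m) • τ := by
  rw [modular_T_zpow_smul]
  ext
  rw [coe_dq, coe_uq, coe_vadd]
  have : (q : ℂ) ≠ 0 := Nat.cast_ne_zero.mpr (NeZero.ne q)
  push_cast
  field_simp
  ring

/-- The product of the translates defining `U_q`. -/
def Uf (F : ℍ → ℂ) : ℍ → ℂ := ∏ b : Fin q, fun τ => F (uq q m b τ)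

/-- The Atkin-Lehner translate of a function, `g` having lower row `(m, q)`. -/
def Wf (g : SL(2, ℤ)) (F : ℍ → ℂ) : ℍ → ℂ := fun τ => F (g • dq q τ)

theorem Wf_mul (g : SL(2, ℤ)) (F G : ℍ → ℂ) : Wf q g (F * G) = Wf q g F * Wf q g G := rfl

theorem Wf_pow (g : SL(2, ℤ)) (F : ℍ → ℂ) (k : ℕ) : Wf q g (F ^ k) = Wf q g F ^ k := rfl

/-- `U_q ∘ W` is a product over cosets of `Γ₀(qm)` in `Γ₀(m)`. -/
theorem Uf_Wf (g : SL(2, ℤ)) (F : ℍ → ℂ) :
    Uf q m (Wf q g F) = ∏ b : Fin q, fun τ => F ((g * ModularGroup.T ^ (((b : ℕ) : ℤ) * m)) • τ) := by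
  refine Finset.prod_congr rfl fun b _ => funext fun τ => ?_
  show F (g • dq q (uq q m b τ)) = _
  rw [dq_uq, mul_smul]

variable {q m}

/-- `q τ` after `η` is `e` after `q τ`. -/
theorem dq_smul {η e : SL(2, ℤ)} (h00 : η 0 0 = e 0 0) (h01 : (q : ℤ) * η 0 1 = e 0 1)
    (h10 : η 1 0 = (q : ℤ) * e 1 0) (h11 : η 1 1 = e 1 1) (τ : ℍ) :
    dq q (η • τ) = e • dq q τ := by
  refine posMat_smul_eq _ _ η e ?_ τ
  ext i j
  fin_cases i <;> fin_cases j <;>
    simp [Matrix.mul_apply, Fin.sum_univ_two, h00, h10, h11, ← h01, mul_comm]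

/-- Translates at cusps of the Atkin-Lehner translate. -/
theorem exists_pull {g δ : SL(2, ℤ)} (hg : g 1 1 = q) (hδ : (q : ℤ) ∣ δ 1 1) :
    ∃ η : SL(2, ℤ), (q : ℤ) ∣ η 1 0 ∧ ∀ τ, g • dq q (η • τ) = δ • dq q τ := by
  obtain ⟨d', hd'⟩ := hδ
  set e : SL(2, ℤ) := g⁻¹ * δ with he
  have h01 : e 0 1 = (q : ℤ) * (δ 0 1 - g 0 1 * d') := by
    simp only [he, Matrix.SpecialLinearGroup.coe_mul, Matrix.SpecialLinearGroup.coe_inv,
      Matrix.adjugate_fin_two, Matrix.mul_apply, Fin.sum_univ_two, Matrix.of_apply,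
      Matrix.cons_val', Matrix.cons_val_zero, Matrix.cons_val_one, Matrix.cons_val_fin_one,
      Matrix.empty_val', hg, hd']
    ring
  have hdet := det_entries e
  rw [h01] at hdet
  let η : SL(2, ℤ) := ⟨!![e 0 0, δ 0 1 - g 0 1 * d'; (q : ℤ) * e 1 0, e 1 1], by
    rw [Matrix.det_fin_two_of]; linear_combination hdet⟩
  refine ⟨η, dvd_mul_right _ _, fun τ => ?_⟩
  rw [dq_smul (η := η) (e := e) rfl h01.symm rfl rfl, ← mul_smul, he, mul_inv_cancel_left]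

section Level

variable [NeZero m] {g : SL(2, ℤ)}

instance instNeZeroMulBad : NeZero (q * m) := ⟨mul_ne_zero (NeZero.ne q) (NeZero.ne m)⟩

/-- Invariance under `Γ₀(qm)`. -/
def Inv0 (N : ℕ) (F : ℍ → ℂ) : Prop := ∀ γ ∈ Gamma0 N, ∀ τ, F (γ • τ) = F τ

theorem Inv0.mul {N : ℕ} {F G : ℍ → ℂ} (hF : Inv0 N F) (hG : Inv0 N G) : Inv0 N (F * G) :=
  fun γ hγ τ => by rw [Pi.mul_apply, Pi.mul_apply, hF γ hγ τ, hG γ hγ τ]

theorem Inv0.pow {N : ℕ} {F : ℍ → ℂ} (hF : Inv0 N F) (k : ℕ) : Inv0 N (F ^ k) :=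
  fun γ hγ τ => by rw [Pi.pow_apply, Pi.pow_apply, hF γ hγ τ]

theorem inv0_conjM {N : ℕ} [NeZero N] {φ : MF N} (h : Inv0 N (φ : ℍ → ℂ)) (s : GQ) :
    Inv0 N (conjM (liftAut s) φ : MF N) := fun γ hγ τ => by
  have := (conjM_spec (liftAut s) φ).invariant (isLevel_gamma0 N)
    (fun γ hγ => shift_eq_self_of_invariant h hγ) γ hγ
  exact congrFun (congrArg Subtype.val this) τ

theorem mem_gamma0_of_conj {N : ℕ} (g₁ g₂ : SL(2, ℤ))
    (h : (N : ℤ) ∣ g₁ 1 0 * g₂ 1 1 - g₁ 1 1 * g₂ 1 0) : g₁ * g₂⁻¹ ∈ Gamma0 N := by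
  rw [Gamma0_mem, ZMod.intCast_zmod_eq_zero_iff_dvd]
  convert h using 1
  simp only [Matrix.SpecialLinearGroup.coe_mul, Matrix.SpecialLinearGroup.coe_inv,
    Matrix.adjugate_fin_two, Matrix.mul_apply, Fin.sum_univ_two, Matrix.of_apply,
    Matrix.cons_val', Matrix.cons_val_zero, Matrix.cons_val_one, Matrix.cons_val_fin_one,
    Matrix.empty_val']
  ring

theorem dvd_of_mem {γ : SL(2, ℤ)} (hγ : γ ∈ Gamma0 (q * m)) :
    ((q : ℤ) * m) ∣ γ 1 0 := by
  have := (ZMod.intCast_zmod_eq_zero_iff_dvd _ _).mp (Gamma0_mem.mp hγ)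
  push_cast at this; exact this

theorem Wf_Wf (hg : g 1 0 = m ∧ g 1 1 = q) {F : ℍ → ℂ} (hF : Inv0 (q * m) F) :
    Wf q g (Wf q g F) = F := by
  funext τ
  let h : SL(2, ℤ) := ⟨!![(q : ℤ) * g 0 0, g 0 1; (m : ℤ), 1], by
    rw [Matrix.det_fin_two_of]
    have := det_entries g
    rw [hg.1, hg.2] at this
    linear_combination this⟩
  have hd : 0 < (!![(1 : ℕ), (0 : ℤ); 0, (q : ℤ)] : Matrix (Fin 2) (Fin 2) ℤ).det :=
    det_upper_pos (a := 1) (d := q) 0 one_pos (NeZero.pos q)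
  have e : ∀ z, dq q (g • z) = h • (posMat _ hd • z) := fun z => by
    refine posMat_smul_eq _ hd g h ?_ z
    ext i j
    fin_cases i <;> fin_cases j <;>
      simp [h, Matrix.mul_apply, Fin.sum_univ_two, hg.1, hg.2, mul_comm]
  show F (g • dq q (g • dq q τ)) = F τ
  rw [e, show posMat _ hd • dq q τ = τ from by
    ext
    rw [coe_posMat_upper, coe_dq]
    have : (q : ℂ) ≠ 0 := Nat.cast_ne_zero.mpr (NeZero.ne q)
    push_cast; field_simp; ring, ← mul_smul]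
  refine hF _ ?_ τ
  rw [Gamma0_mem, ZMod.intCast_zmod_eq_zero_iff_dvd]
  refine ⟨g 0 0 + 1, ?_⟩
  rw [Matrix.SpecialLinearGroup.coe_mul]
  simp [h, Matrix.mul_apply, Fin.sum_univ_two, hg.1, hg.2]
  ring

theorem inv0_Wf (hg : g 1 0 = m ∧ g 1 1 = q) {F : ℍ → ℂ} (hF : Inv0 (q * m) F) :
    Inv0 (q * m) (Wf q g F) := by
  intro γ hγ τ
  obtain ⟨t, ht⟩ := dvd_of_mem hγ
  let D : SL(2, ℤ) := ⟨!![γ 0 0, (q : ℤ) * γ 0 1; (m : ℤ) * t, γ 1 1], by
    rw [Matrix.det_fin_two_of]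
    linear_combination det_entries γ + γ 0 1 * ht⟩
  have e : dq q (γ • τ) = D • dq q τ :=
    dq_smul (η := γ) (e := D) rfl rfl (show γ 1 0 = (q : ℤ) * ((m : ℤ) * t) by rw [ht, mul_assoc])
      rfl τ
  show F (g • dq q (γ • τ)) = F (g • dq q τ)
  rw [e, ← mul_smul, show g * D = (g * D * g⁻¹) * g by group, mul_smul]
  refine hF _ (mem_gamma0_of_conj (g * D) g ?_) _
  refine ⟨γ 0 0 + (q : ℤ) * t - (m : ℤ) * γ 0 1 - γ 1 1, ?_⟩
  rw [Matrix.SpecialLinearGroup.coe_mul]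
  simp [D, Matrix.mul_apply, Fin.sum_univ_two, hg.1, hg.2]
  ring

theorem hasSeriesAtCusps_smul {F : ℍ → ℂ} (hF : HasSeriesAtCusps F) (g : SL(2, ℤ)) :
    HasSeriesAtCusps fun τ => F (g • τ) := fun δ => by
  obtain ⟨w, f, hw, hf⟩ := hF (g * δ)
  exact ⟨w, f, hw, by simpa [mul_smul] using hf⟩

/-- The Atkin-Lehner translate as a function of level `Γ(qm)`. -/
def WMF (hg : g 1 0 = m ∧ g 1 1 = q) (φ : MF (q * m)) (h : Inv0 (q * m) (φ : ℍ → ℂ)) :
    MF (q * m) :=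
  ⟨Wf q g φ, ⟨mdifferentiable_comp_posMat (mdifferentiable_comp_smul φ.2.holo g) _ _,
    fun γ hγ τ => inv0_Wf hg h γ (Gamma_le_Gamma0 _ hγ) τ,
    hasSeriesAtCusps_comp_posMat (hasSeriesAtCusps_smul φ.2.cusps g) _ _⟩⟩

theorem coe_WMF (hg : g 1 0 = m ∧ g 1 1 = q) (φ : MF (q * m)) (h : Inv0 (q * m) (φ : ℍ → ℂ)) :
    (WMF hg φ h : ℍ → ℂ) = Wf q g φ := rfl

/-- Series of `F (δ (qτ))`. -/
theorem hasQSeries_dq {M : ℕ} (hM : 0 < M) {F : ℍ → ℂ} {δ : SL(2, ℤ)} {s : LaurentSeries ℂ}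
    (h : HasQSeries M (fun τ => F (δ • τ)) s) :
    HasQSeries M (fun τ => F (δ • dq q τ)) (expand q (NeZero.ne q) s) := by
  have := h.comp_affine hM q 1 (NeZero.ne q) one_pos 0 (dq q) (fun τ => by rw [coe_dq]; simp) 1
    (by simp)
  rwa [mul_one, twist_one] at this

theorem serAlg_WMF (hg : g 1 0 = m ∧ g 1 1 = q) (φ : MF (q * m))
    (h : Inv0 (q * m) (φ : ℍ → ℂ)) :
    serAlg (q * m) (WMF hg φ h) = expand q (NeZero.ne q) (serAlg (q * m) (shift (q * m) g φ)) :=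
  (hasQSeries_serHom _).unique (NeZero.pos _)
    (hasQSeries_dq (NeZero.pos _) (hasQSeries_shift φ g))

theorem algMF_WMF (hg : g 1 0 = m ∧ g 1 1 = q) {φ : MF (q * m)}
    (h : Inv0 (q * m) (φ : ℍ → ℂ)) (ha : AlgMF φ) : AlgMF (WMF hg φ h) := by
  obtain ⟨a, ha⟩ := ha.exists_series g
  exact ⟨expand q (NeZero.ne q) a, by rw [serAlg_WMF, ← ha, seriesToC_eq_lmap, lmap_expand]; rfl⟩

/-- Conjugation commutes with the Atkin-Lehner translate. -/
theorem conjM_WMF (hg : g 1 0 = m ∧ g 1 1 = q) (s : GQ) (φ : MF (q * m))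
    (h : Inv0 (q * m) (φ : ℍ → ℂ)) :
    conjM (liftAut s) (WMF hg φ h) = WMF hg (conjM (liftAut s) φ) (inv0_conjM h s) := by
  refine serAlg_injective (q * m) ?_
  have h1 := conjM_spec (liftAut s) (WMF hg φ h) 1 1 (ConjEq.one_one _)
  rw [shift_one, shift_one] at h1
  rw [h1, serAlg_WMF, serAlg_WMF, lmap_expand]
  obtain ⟨g', hg'⟩ := exists_conjEq (cycC (q * m) (liftAut s)) g
  rw [← conjM_spec (liftAut s) φ g g' hg']
  congr 2
  obtain ⟨-, -, h10, h11⟩ := conjEq_iff.mp hg'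
  refine (Subtype.ext (funext fun τ => ?_)).symm
  rw [shift_apply, shift_apply, show g' • τ = (g' * g⁻¹) • (g • τ) by
    rw [← mul_smul, inv_mul_cancel_right]]
  refine (inv0_conjM h s _ (mem_gamma0_of_conj _ _ ?_) _).symm
  rw [hg.1] at h10
  rw [hg.2] at h11
  rw [hg.1, hg.2, ← ZMod.intCast_zmod_eq_zero_iff_dvd]
  push_cast
  rw [h10, h11]
  push_cast
  have hz : ((q : ℕ) : ZMod (q * m)) * (m : ℕ) = 0 := by rw [← Nat.cast_mul, ZMod.natCast_self]
  linear_combination ((((cycC (q * m) (liftAut s))⁻¹ : (ZMod (q * m))ˣ) : ZMod (q * m)) - 1) * hz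

end Level

/-! ## The congruence -/

variable {A : ValuationSubring (AlgebraicClosure ℚ)} [NeZero m]

theorem exists_width_m {φ : MF (q * m)} (h : Inv0 (q * m) (φ : ℍ → ℂ)) (halg : AlgMF φ)
    {δ : SL(2, ℤ)} (hδ : (q : ℤ) ∣ δ 1 0) :
    ∃ a : LaurentSeries ℚb, HasQSeries m (fun τ => (φ : ℍ → ℂ) (δ • τ)) (seriesToC a) := by
  obtain ⟨b, hb⟩ := halg.hasQSeries δ
  obtain ⟨s, hs⟩ := exists_hasQSeries_of_periodic (N := m) (mdifferentiable_comp_smul φ.2.holo δ)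
    (fun τ => by
      rw [show (m : ℝ) = (((m : ℕ) : ℤ) : ℝ) by simp, smul_vadd_eq]
      refine h _ (mem_gamma0_of_conj (δ * ModularGroup.T ^ (m : ℤ)) δ ?_) _
      obtain ⟨c, hc⟩ := hδ
      refine ⟨-((q : ℤ) * c * c), ?_⟩
      rw [Matrix.SpecialLinearGroup.coe_mul, ModularGroup.coe_T_zpow]
      simp [Matrix.mul_apply, Fin.sum_univ_two, hc]
      ring) (NeZero.pos (q * m)) hb
  have hexp : expand q (NeZero.ne q) s = seriesToC b :=
    (mul_comm m q ▸ hs.refine_width (NeZero.pos m) q (NeZero.ne q)).unique (NeZero.pos _) hb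
  obtain ⟨a, ha⟩ := exists_seriesToC_eq (f := s) fun j => by
    rw [← expand_coeff_mul q (NeZero.ne q) s j, hexp]
    exact (Algebra.IsAlgebraic.isAlgebraic _).algHom qbarToC.toRatAlgHom
  exact ⟨a, ha ▸ hs⟩

/-- On the component of `∞`, the conjugate by Frobenius is congruent to `U_q`. -/
theorem exists_redAt_conj_Uf [Fact q.Prime] [CharP (κ A) q] (hqm : ¬ q ∣ m) {σ : GQ}
    (hσ : A.IsFrobeniusAt σ q)
    (hqa : ZMod.castHom (dvd_mul_left m q) (ZMod m) (cycM (q * m) σ : ZMod (q * m)) = (q : ZMod m))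
    {φ : MF (q * m)} (h : Inv0 (q * m) (φ : ℍ → ℂ)) (halg : AlgMF φ) {δ δ' : SL(2, ℤ)}
    (hδ : (q : ℤ) ∣ δ 1 0) (hconj : ConjEq (q * m) (cycM (q * m) σ) δ δ')
    {Φ : LaurentSeries (κ A)} (hΦ : RedAt A (q * m) φ δ Φ) :
    RedAt A (q * m) (conjM (liftAut σ) φ : MF (q * m)) δ' (lmap (frobenius (κ A) q) Φ) ∧
      RedAt A (q * m) (Uf q m φ) δ' (lmap (frobenius (κ A) q) Φ) := by
  have hq : q.Prime := Fact.out
  refine ⟨hΦ.conj hσ φ hconj, ?_⟩
  obtain ⟨a, ha⟩ := exists_width_m h halg hδ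
  obtain ⟨b, hb, rb⟩ := hΦ
  obtain rfl : b = expand q (NeZero.ne q) a := seriesToC_injective (by
    rw [seriesToC_eq_lmap (expand _ _ _), lmap_expand]
    have h1 := ha.refine_width (NeZero.pos m) q (NeZero.ne q)
    rw [mul_comm m q] at h1
    exact hb.unique (NeZero.pos _) h1)
  obtain ⟨G, hG, rfl⟩ := exists_hasRed_of_expand (NeZero.ne q) rb
  rw [lmap_expand, ← pow_char_eq_expand]
  -- congruences for the lower rows
  obtain ⟨-, -, h10, h11⟩ := conjEq_iff.mp hconj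
  obtain ⟨c, hc⟩ : (q : ℤ) ∣ δ' 1 0 := by
    rw [← ZMod.intCast_zmod_eq_zero_iff_dvd] at hδ ⊢
    have := congrArg (ZMod.castHom (dvd_mul_right q m) (ZMod q)) h10
    rw [map_intCast, map_mul, map_intCast, hδ, mul_zero] at this
    exact this
  have hcm : (δ 1 0 : ZMod m) = (q : ZMod m) * (δ' 1 0 : ZMod m) := by
    have h1 : ((cycM (q * m) σ : (ZMod (q * m))ˣ) : ZMod (q * m)) * (δ' 1 0 : ZMod (q * m)) =
        δ 1 0 := by rw [h10, ← mul_assoc, Units.mul_inv, one_mul]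
    have := congrArg (ZMod.castHom (dvd_mul_left m q) (ZMod m)) h1
    rw [map_mul, map_intCast, map_intCast, hqa] at this
    exact this.symm
  have hdm : (δ' 1 1 : ZMod m) = δ 1 1 := by
    simpa only [map_intCast] using congrArg (ZMod.castHom (dvd_mul_left m q) (ZMod m)) h11
  -- the permutation
  have hm0 : (m : ZMod q) ≠ 0 := fun h0 => hqm ((ZMod.natCast_eq_zero_iff _ _).mp h0)
  have hc0 : (δ' 1 0 : ZMod q) = 0 := by rw [hc]; simp
  have had : (δ' 0 0 : ZMod q) * δ' 1 1 = 1 := by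
    have := congrArg (Int.cast : ℤ → ZMod q) (det_entries δ')
    push_cast at this
    rwa [hc0, mul_zero, sub_zero] at this
  have ha0 : (δ' 0 0 : ZMod q) ≠ 0 := left_ne_zero_of_mul_eq_one had
  have hd0 : (δ' 1 1 : ZMod q) ≠ 0 := right_ne_zero_of_mul_eq_one had
  let num : Fin q → ZMod q := fun b =>
    (δ' 0 1 + (b : ℕ) * (m : ℕ) * δ' 1 1 : ZMod q) / ((δ' 0 0 : ZMod q) * (m : ℕ))
  let π : Fin q → Fin q := fun b => ⟨(num b).val, ZMod.val_lt _⟩
  have hπ : Function.Bijective π := by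
    rw [← Finite.injective_iff_bijective]
    intro b b' hbb
    have h1 : num b = num b' := ZMod.val_injective q (congrArg Fin.val hbb)
    simp only [num, div_left_inj' (mul_ne_zero ha0 hm0), add_right_inj] at h1
    have h2 := mul_right_cancel₀ hm0 (mul_right_cancel₀ hd0 h1)
    have h3 := congrArg ZMod.val h2
    rw [ZMod.val_natCast_of_lt b.isLt, ZMod.val_natCast_of_lt b'.isLt] at h3
    exact Fin.ext h3
  obtain ⟨z, hz⟩ := exists_qbarToC_eq (x := Complex.exp (2 * Real.pi * Complex.I / q))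
    ⟨Polynomial.X ^ q - 1, (Polynomial.monic_X_pow_sub_C 1 hq.ne_zero).ne_zero, by
      simp [(Complex.isPrimitiveRoot_exp q hq.ne_zero).pow_eq_one]⟩
  have hzq : z ^ q = 1 := qbarToC_injective (by
    rw [map_pow, hz, (Complex.isPrimitiveRoot_exp q hq.ne_zero).pow_eq_one, map_one])
  set zu : ℚbˣ := Units.mk0 z fun h => by simp [h, zero_pow hq.ne_zero] at hzq
  have hzu : zu ^ q = 1 := Units.ext (by simpa [zu] using hzq)
  -- each factor
  have hfac : ∀ b : Fin q, HasQSeries (q * m) (fun τ => (φ : ℍ → ℂ) (uq q m b (δ' • τ)))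
      (seriesToC (twist (zu ^ (π b : ℕ)) a)) := by
    intro b
    obtain ⟨B, hB⟩ : (q : ℤ) ∣ δ' 0 1 + (b : ℕ) * m * δ' 1 1 -
        (δ' 0 0 + (b : ℕ) * m * δ' 1 0) * (π b : ℕ) * m := by
      rw [← ZMod.intCast_zmod_eq_zero_iff_dvd]
      push_cast
      rw [hc0, show ((π b : ℕ) : ZMod q) = num b from ZMod.natCast_zmod_val _]
      simp only [num, mul_zero, add_zero]
      field_simp
      ring
    let hb' : SL(2, ℤ) := ⟨!![δ' 0 0 + (b : ℕ) * m * δ' 1 0, B;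
        (q : ℤ) * δ' 1 0, δ' 1 1 - δ' 1 0 * (π b : ℕ) * m], by
      rw [Matrix.det_fin_two_of]
      linear_combination det_entries δ' + δ' 1 0 * hB⟩
    have e : ∀ τ, uq q m b (δ' • τ) = hb' • uq q m (π b) τ := fun τ => by
      refine posMat_smul_eq _ _ δ' hb' ?_ τ
      ext i j
      fin_cases i <;> fin_cases j <;> simp [hb', Matrix.mul_apply, Fin.sum_univ_two]
      all_goals first | ring1 | linear_combination hB | linear_combination -hB
    have hmem : hb' * δ⁻¹ ∈ Gamma0 (q * m) := by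
      refine mem_gamma0_of_conj _ _ ?_
      obtain ⟨c', hc'⟩ := hδ
      have hm' : (m : ℤ) ∣ hb' 1 0 * δ 1 1 - hb' 1 1 * δ 1 0 := by
        rw [← ZMod.intCast_zmod_eq_zero_iff_dvd]
        simp [hb', hcm, hdm]
        ring
      have hq' : (q : ℤ) ∣ hb' 1 0 * δ 1 1 - hb' 1 1 * δ 1 0 :=
        ⟨δ' 1 0 * δ 1 1 - hb' 1 1 * c', by simp [hb', hc']; ring⟩
      rw [Nat.cast_mul]
      exact IsCoprime.mul_dvd
        (Nat.isCoprime_iff_coprime.mpr (hq.coprime_iff_not_dvd.mpr hqm)) hq' hm'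
    have hinvb : ∀ τ, (φ : ℍ → ℂ) (uq q m b (δ' • τ)) = (φ : ℍ → ℂ) (δ • uq q m (π b) τ) :=
      fun τ => by
      rw [e, show hb' • uq q m (π b) τ = (hb' * δ⁻¹) • (δ • uq q m (π b) τ) by
        rw [← mul_smul, inv_mul_cancel_right]]
      exact h _ hmem _
    have hs := ha.comp_affine (NeZero.pos m) 1 q one_ne_zero (NeZero.pos q)
      (((π b : ℕ) : ℤ) * m) (uq q m (π b)) (fun τ => by rw [coe_uq]; simp)
      (Units.map ((qbarToC : ℚb →+* ℂ) : ℚb →* ℂ) (zu ^ (π b : ℕ))) (by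
        simp only [Units.coe_map, MonoidHom.coe_coe, Units.val_pow_eq_pow_val, zu, Units.val_mk0,
          map_pow, hz]
        rw [← Complex.exp_nat_mul]
        congr 1
        have h1 : (m : ℂ) ≠ 0 := Nat.cast_ne_zero.mpr (NeZero.ne m)
        have h2 : (q : ℂ) ≠ 0 := Nat.cast_ne_zero.mpr (NeZero.ne q)
        push_cast
        field_simp)
    rw [expand_one, mul_comm m q] at hs
    rw [seriesToC_eq_lmap (twist _ _), lmap_twist]
    exact hs.congr (.of_forall fun τ => (hinvb τ).symm)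
  refine ⟨∏ b : Fin q, twist (zu ^ (π b : ℕ)) a, ?_, ?_⟩
  · rw [seriesToC_eq_lmap, map_prod]
    refine (HasQSeries.prod Finset.univ fun b _ => hfac b).congr (.of_forall fun τ => ?_)
    simp [Uf, Finset.prod_apply]
  · have hp := HasRed.prod (Finset.univ : Finset (Fin q)) (b := fun _ => G) fun b _ =>
      hG.twist_root (ℓ := q) (ω := zu ^ (π b : ℕ))
        (by rw [← pow_mul, mul_comm, pow_mul, hzu, one_pow])
    rwa [Finset.prod_const, Finset.card_univ, Fintype.card_fin] at hp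

end Fermat.Agent.GalRep.Semistable
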