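/-
Corestriction from level `qm` to level `m` and the Atkin-Lehner translate on classes modulo `n`;
both commute with the Hecke operators.
-/
import Fermat.Agent.GalRep.Semistable.BadOps
import Fermat.Agent.GalRep.Lattice
import Fermat.Agent.GalRep.Level.Hecke

set_option autoImplicit false
set_option linter.style.haveILetI false

noncomputable section

namespace Fermat.Agent.GalRep.Semistable

open UpperHalfPlane CongruenceSubgroup
open Fermat.Agent.GalRep.Level
open scoped MatrixGroups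

local notation "IMat" => Matrix (Fin 2) (Fin 2) ℤ

variable {n : ℕ} [NeZero n]

/-! ## Two composites with the same cosets -/

theorem posMat_mul {M M' : IMat} (h : 0 < M.det) (h' : 0 < M'.det) (hh : 0 < (M * M').det) :
    posMat (M * M') hh = posMat M h * posMat M' h' := by
  refine Units.ext ?_
  rw [Units.val_mul, coe_posMat, coe_posMat, coe_posMat, Matrix.map_mul]

/-- Translating twice along families of matrices whose products differ by elements of `G` and a
permutation gives proportional functions. -/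
theorem exists_smul_transferProd {G : Subgroup SL(2, ℤ)} {χ : ParG G (ZMod n)} {F : ℍ → ℂ}
    (hF : IsRepG G n χ F) {ι ι' : Type} [Fintype ι] [Fintype ι'] {β : ι → IMat} {γ : ι' → IMat}
    (hβ : ∀ i, 0 < (β i).det) (hγ : ∀ j, 0 < (γ j).det) {κ κ' : Type} [Fintype κ] [Fintype κ']
    {β' : κ → IMat} {γ' : κ' → IMat}
    (hβ' : ∀ i, 0 < (β' i).det) (hγ' : ∀ j, 0 < (γ' j).det) (π : ι × ι' ≃ κ × κ')
    (g : ι × ι' → G)
    (h : ∀ x : ι × ι', γ x.2 * β x.1 = ((g x : SL(2, ℤ)) : IMat) * (γ' (π x).2 * β' (π x).1)) :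
    ∃ c : ℂ, c ≠ 0 ∧ transferProd β hβ (transferProd γ hγ F) =
      fun τ => c * transferProd β' hβ' (transferProd γ' hγ' F) τ := by
  refine ⟨ZMod.stdAddChar (∑ x, (χ : Additive G →+ ZMod n) (Additive.ofMul (g x))), fun h0 => ?_,
    funext fun τ => ?_⟩
  · have := AddChar.map_add_eq_mul (ZMod.stdAddChar (N := n))
      (∑ x, (χ : Additive G →+ ZMod n) (Additive.ofMul (g x)))
      (-∑ x, (χ : Additive G →+ ZMod n) (Additive.ofMul (g x)))
    rw [add_neg_cancel, AddChar.map_zero_eq_one, h0, zero_mul] at this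
    exact one_ne_zero this
  simp only [transferProd, Finset.prod_apply]
  rw [← Fintype.prod_prod_type', ← Fintype.prod_prod_type', addChar_sum,
    ← Equiv.prod_comp π (fun y => F (posMat (γ' y.2) (hγ' y.2) • posMat (β' y.1) (hβ' y.1) • τ)),
    ← Finset.prod_mul_distrib]
  refine Finset.prod_congr rfl fun x _ => ?_
  have hd : 0 < (γ x.2 * β x.1).det := by rw [Matrix.det_mul]; exact mul_pos (hγ _) (hβ _)
  have hd' : 0 < (γ' (π x).2 * β' (π x).1).det := by
    rw [Matrix.det_mul]; exact mul_pos (hγ' _) (hβ' _)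
  rw [← mul_smul, ← mul_smul, ← posMat_mul _ _ hd, ← posMat_mul _ _ hd', ← hF.equivariant (g x)]
  congr 1
  have := posMat_smul_eq hd hd' 1 (g x : SL(2, ℤ))
    (by rw [Matrix.SpecialLinearGroup.coe_one, mul_one, h x]) τ
  rwa [one_smul] at this

/-- Classes of proportional representatives are equal. -/
theorem char_eq_of_smul {G : Subgroup SL(2, ℤ)} {χ χ' : ParG G (ZMod n)} {F F' : ℍ → ℂ} {c : ℂ}
    (hc : c ≠ 0) (hF : IsRepG G n χ F) (hF' : IsRepG G n χ' F') (h : F = fun τ => c * F' τ) :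
    χ = χ' :=
  hF.char_unique (h ▸ hF'.const_mul hc)

/-! ## Corestriction -/

section Cores

variable {q m : ℕ}

/-- Representatives of `Γ₀(qm)` in `Γ₀(m)`, from `g` with lower row `(m, q)`. -/
def cosR (q m : ℕ) (g : SL(2, ℤ)) : Option (Fin q) → SL(2, ℤ)
  | none => 1
  | some b => g * ModularGroup.T ^ (((b : ℕ) : ℤ) * m)

theorem mem_gamma0_mul_iff [Fact q.Prime] (hqm : ¬ q ∣ m) {x : ℤ} :
    ((q * m : ℕ) : ℤ) ∣ x ↔ (q : ℤ) ∣ x ∧ (m : ℤ) ∣ x := by
  rw [Nat.cast_mul]
  exact ⟨fun h => ⟨(dvd_mul_right _ _).trans h, (dvd_mul_left _ _).trans h⟩, fun h =>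
    IsCoprime.mul_dvd (Nat.isCoprime_iff_coprime.mpr
      ((Fact.out : q.Prime).coprime_iff_not_dvd.mpr hqm)) h.1 h.2⟩

variable {g : SL(2, ℤ)} (hg : g 1 0 = m ∧ g 1 1 = q)

include hg

theorem cosR_mem (i : Option (Fin q)) : cosR q m g i ∈ Gamma0 m := by
  cases i with
  | none => exact one_mem _
  | some b =>
    rw [Gamma0_mem, cosR, Matrix.SpecialLinearGroup.coe_mul, ModularGroup.coe_T_zpow]
    simp [Matrix.mul_apply, Fin.sum_univ_two, hg.1]

theorem exists_cosR [Fact q.Prime] (hqm : ¬ q ∣ m) {δ : SL(2, ℤ)} (hδ : δ ∈ Gamma0 m) :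
    ∃ j, δ * (cosR q m g j)⁻¹ ∈ Gamma0 (q * m) := by
  have hm : (m : ℤ) ∣ δ 1 0 := (ZMod.intCast_zmod_eq_zero_iff_dvd _ _).mp (Gamma0_mem.mp hδ)
  by_cases hq : (q : ℤ) ∣ δ 1 0
  · refine ⟨none, ?_⟩
    rw [cosR, inv_one, mul_one, Gamma0_mem, ZMod.intCast_zmod_eq_zero_iff_dvd]
    exact (mem_gamma0_mul_iff hqm).mpr ⟨hq, hm⟩
  have hc : (δ 1 0 : ZMod q) ≠ 0 := fun h => hq ((ZMod.intCast_zmod_eq_zero_iff_dvd _ _).mp h)
  have hm0 : (m : ZMod q) ≠ 0 := fun h => hqm ((ZMod.natCast_eq_zero_iff _ _).mp h)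
  set b : ZMod q := (δ 1 1 : ZMod q) / ((δ 1 0 : ZMod q) * m)
  refine ⟨some ⟨b.val, ZMod.val_lt b⟩, mem_gamma0_of_conj _ _ ?_⟩
  refine (mem_gamma0_mul_iff hqm).mpr ⟨?_, ?_⟩
  · rw [← ZMod.intCast_zmod_eq_zero_iff_dvd, cosR, Matrix.SpecialLinearGroup.coe_mul,
      ModularGroup.coe_T_zpow]
    simp [Matrix.mul_apply, Fin.sum_univ_two, hg.1, hg.2, b]
    field_simp
    ring
  · refine dvd_sub (hm.mul_right _) (dvd_mul_of_dvd_right ?_ _)
    exact (ZMod.intCast_zmod_eq_zero_iff_dvd _ _).mp (Gamma0_mem.mp (cosR_mem hg _))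

theorem cosR_inj [Fact q.Prime] (hqm : ¬ q ∣ m) {i j : Option (Fin q)}
    (h : cosR q m g i * (cosR q m g j)⁻¹ ∈ Gamma0 (q * m)) : i = j := by
  have hm0 : (m : ZMod q) ≠ 0 := fun h => hqm ((ZMod.natCast_eq_zero_iff _ _).mp h)
  have hd := ((mem_gamma0_mul_iff hqm).mp
    ((ZMod.intCast_zmod_eq_zero_iff_dvd _ _).mp (Gamma0_mem.mp h))).1
  rw [← ZMod.intCast_zmod_eq_zero_iff_dvd, Matrix.SpecialLinearGroup.coe_mul,
    Matrix.SpecialLinearGroup.coe_inv] at hd
  cases i with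
  | none =>
    cases j with
    | none => rfl
    | some b =>
      simp [cosR, ModularGroup.coe_T_zpow, Matrix.mul_apply, Fin.sum_univ_two,
        Matrix.adjugate_fin_two, hg.1, hg.2, hm0] at hd
  | some a =>
    cases j with
    | none =>
      simp [cosR, ModularGroup.coe_T_zpow, Matrix.mul_apply, Fin.sum_univ_two,
        Matrix.adjugate_fin_two, hg.1, hg.2, hm0] at hd
    | some b =>
      simp [cosR, ModularGroup.coe_T_zpow, Matrix.mul_apply, Fin.sum_univ_two,
        Matrix.adjugate_fin_two, hg.1, hg.2] at hd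
      have key : ((a : ℕ) : ZMod q) = ((b : ℕ) : ZMod q) := by
        refine mul_left_cancel₀ (mul_ne_zero (mul_ne_zero hm0 hm0) hm0) ?_
        linear_combination -hd
      have := congrArg ZMod.val key
      rw [ZMod.val_cast_of_lt a.2, ZMod.val_cast_of_lt b.2] at this
      rw [Fin.ext this]

variable [Fact q.Prime] [NeZero m] (hqm : ¬ q ∣ m)

include hqm

theorem exists_cor (χ : ParHom (q * m) (ZMod n)) :
    ∃ χ' : ParHom m (ZMod n), IsTransfer (Gamma0 (q * m)) (Gamma0 m)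
      (fun i => (cosR q m g i : IMat)) (χ : Additive (Gamma0 (q * m)) →+ ZMod n)
      (χ' : Additive (Gamma0 m) →+ ZMod n) := by
  classical
  let H : Subgroup (Gamma0 m) := (Gamma0 (q * m)).subgroupOf (Gamma0 m)
  let c : Option (Fin q) → Gamma0 m := fun i => ⟨cosR q m g i, cosR_mem hg i⟩
  have hmk : ∀ i j, (((c i)⁻¹ : Gamma0 m) : Gamma0 m ⧸ H) = ((c j)⁻¹ : Gamma0 m) ↔ i = j := by
    refine fun i j => ⟨fun h => cosR_inj hg hqm ?_, fun h => h ▸ rfl⟩
    rw [QuotientGroup.eq, inv_inv, Subgroup.mem_subgroupOf] at h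
    simpa [c] using h
  let e : Option (Fin q) ≃ Gamma0 m ⧸ H := Equiv.ofBijective (fun i => ((c i)⁻¹ : Gamma0 m))
    ⟨fun i j => (hmk i j).mp, fun x => by
      induction x using QuotientGroup.induction_on with
      | _ γ =>
        obtain ⟨j, hj⟩ := exists_cosR hg hqm (inv_mem γ.2)
        refine ⟨j, QuotientGroup.eq.mpr (Subgroup.mem_subgroupOf.mpr ?_)⟩
        have := inv_mem hj
        simpa [c, mul_inv_rev] using this⟩
  haveI : Finite (Gamma0 m ⧸ H) := Finite.of_equiv _ e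
  haveI : H.FiniteIndex := Subgroup.finiteIndex_of_finite_quotient
  letI := H.fintypeQuotientOfFiniteIndex
  let φ : H →* Multiplicative (ZMod n) :=
    (AddMonoidHom.toMultiplicativeRight (χ : Additive (Gamma0 (q * m)) →+ ZMod n)).comp
      (MonoidHom.mk' (fun h => ⟨((h : Gamma0 m) : SL(2, ℤ)), h.2⟩) fun _ _ => rfl)
  have hsec : ∀ x, (((c (e.symm x))⁻¹ : Gamma0 m) : Gamma0 m ⧸ H) = x := fun x =>
    e.apply_symm_apply x
  let T : H.LeftTransversal :=
    ⟨Set.range fun x => (c (e.symm x))⁻¹, Subgroup.isComplement_range_left hsec⟩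
  refine ⟨⟨AddMonoidHom.toMultiplicativeRight.symm (MonoidHom.transfer φ), fun γ hγ => ?_⟩,
    fun γ => ?_⟩
  · haveI : Fintype (Quotient (MulAction.orbitRel (Subgroup.zpowers γ) (Gamma0 m ⧸ H))) :=
      Fintype.ofFinite _
    show Multiplicative.toAdd (MonoidHom.transfer φ γ) = 0
    rw [MonoidHom.transfer_eq_prod_quotient_orbitRel_zpowers_quot, toAdd_prod]
    refine Finset.sum_eq_zero fun o _ => χ.2 _ ?_
    simp only [MonoidHom.mk'_apply, Subgroup.coe_mul, Subgroup.coe_inv, SubmonoidClass.coe_pow,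
      Matrix.SpecialLinearGroup.coe_mul]
    rw [Matrix.trace_mul_comm, ← mul_assoc, ← Matrix.SpecialLinearGroup.coe_mul, mul_inv_cancel,
      Matrix.SpecialLinearGroup.coe_one, one_mul, Matrix.SpecialLinearGroup.coe_pow]
    exact trace_pow_sq_eq_four _ (γ : SL(2, ℤ)).2 hγ _
  · let p : Equiv.Perm (Option (Fin q)) := e.trans ((MulAction.toPerm γ⁻¹).trans e.symm)
    have hp : ∀ i, cosR q m g i * (γ : SL(2, ℤ)) * (cosR q m g (p i))⁻¹ ∈ Gamma0 (q * m) := by
      intro i
      have h : (((c (p i))⁻¹ : Gamma0 m) : Gamma0 m ⧸ H) = ((γ⁻¹ * (c i)⁻¹ : Gamma0 m) :) :=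
        (hsec _).trans (MulAction.Quotient.smul_coe _ _ _)
      rw [QuotientGroup.eq, inv_inv, Subgroup.mem_subgroupOf] at h
      have := inv_mem h
      simpa [c, mul_inv_rev, mul_assoc] using this
    refine ⟨p, fun i => ⟨_, hp i⟩, fun i => ?_, ?_⟩
    · rw [← Matrix.SpecialLinearGroup.coe_mul, ← Matrix.SpecialLinearGroup.coe_mul,
        inv_mul_cancel_right]
    show Multiplicative.toAdd (MonoidHom.transfer φ γ) = _
    rw [MonoidHom.transfer_def φ T, Subgroup.leftTransversals.diff, toAdd_prod]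
    refine (Fintype.sum_equiv e _ _ fun i => ?_).symm
    have hT : ∀ x, (T.2.leftQuotientEquiv x : Gamma0 m) = (c (e.symm x))⁻¹ :=
      Subgroup.IsComplement.leftQuotientEquiv_apply hsec
    refine congrArg (fun z => (χ : Additive (Gamma0 (q * m)) →+ ZMod n) (Additive.ofMul z))
      (Subtype.ext ?_)
    simp only [MonoidHom.mk'_apply, Subgroup.smul_apply_eq_smul_apply_inv_smul, hT,
      Equiv.symm_apply_apply, inv_inv, smul_eq_mul]
    rw [show e.symm (γ⁻¹ • e i) = p i from rfl]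
    simp [c, mul_assoc]

/-- Corestriction of classes. -/
def corR (χ : ParHom (q * m) (ZMod n)) : ParHom m (ZMod n) := (exists_cor hg hqm χ).choose

/-- A representative of the corestriction. -/
theorem corR_rep {χ : ParHom (q * m) (ZMod n)} {F : ℍ → ℂ}
    (hF : IsRepG (Gamma0 (q * m)) n χ F) :
    IsRepG (Gamma0 m) n (corR hg hqm χ)
      (transferProd (fun i => (cosR q m g i : IMat))
        (fun i => by rw [(cosR q m g i).det_coe]; exact one_pos) F) :=
  transferProd_rep _ hF (exists_cor hg hqm χ).choose_spec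

end Cores

/-! ## The Atkin-Lehner translate -/

section AL

variable {q m : ℕ} [NeZero q] [NeZero m] {g : SL(2, ℤ)} (hg : g 1 0 = m ∧ g 1 1 = q)

/-- The matrix of the Atkin-Lehner translate. -/
def alMat (q : ℕ) (g : SL(2, ℤ)) : IMat := (g : IMat) * !![(q : ℤ), 0; 0, 1]

omit [NeZero m] in
theorem det_alMat_pos (g : SL(2, ℤ)) : 0 < (alMat q g).det := by
  rw [alMat, Matrix.det_mul, g.det_coe, one_mul, Matrix.det_fin_two_of]
  simp [NeZero.pos q]

omit [NeZero m] in
theorem transferProd_alMat (F : ℍ → ℂ) :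
    transferProd (fun _ : Unit => alMat q g) (fun _ => det_alMat_pos g) F = Wf q g F := by
  funext τ
  simp only [transferProd, Finset.univ_unique, Finset.prod_singleton]
  show F _ = F (g • dq q τ)
  congr 1
  have := posMat_smul_eq (det_alMat_pos (q := q) g)
    (det_upper_pos (a := q) (d := 1) 0 (NeZero.pos q) one_pos) 1 g
    (by rw [Matrix.SpecialLinearGroup.coe_one, mul_one, alMat, Nat.cast_one]) τ
  rwa [one_smul] at this

include hg

theorem exists_alStep (γ : Gamma0 (q * m)) :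
    ∃ g' : Gamma0 (q * m), alMat q g * ((γ : SL(2, ℤ)) : IMat) =
      ((g' : SL(2, ℤ)) : IMat) * alMat q g := by
  obtain ⟨t, ht⟩ := dvd_of_mem γ.2
  let D : SL(2, ℤ) := ⟨!![(γ : SL(2, ℤ)) 0 0, (q : ℤ) * (γ : SL(2, ℤ)) 0 1; (m : ℤ) * t,
    (γ : SL(2, ℤ)) 1 1], by
      rw [Matrix.det_fin_two_of]
      linear_combination det_entries (γ : SL(2, ℤ)) + (γ : SL(2, ℤ)) 0 1 * ht⟩
  refine ⟨⟨g * D * g⁻¹, mem_gamma0_of_conj (g * D) g
    ⟨(γ : SL(2, ℤ)) 0 0 + (q : ℤ) * t - (m : ℤ) * (γ : SL(2, ℤ)) 0 1 - (γ : SL(2, ℤ)) 1 1, by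
      rw [Matrix.SpecialLinearGroup.coe_mul]
      simp [D, Matrix.mul_apply, Fin.sum_univ_two, hg.1, hg.2]
      ring⟩⟩, ?_⟩
  have hD : !![(q : ℤ), 0; 0, 1] * ((γ : SL(2, ℤ)) : IMat) = (D : IMat) * !![(q : ℤ), 0; 0, 1] := by
    ext i j
    fin_cases i <;> fin_cases j <;> simp [D, Matrix.mul_apply, Fin.sum_univ_two, mul_comm]
    rw [ht]; ring
  rw [alMat, ← Matrix.mul_assoc ((g * D * g⁻¹ : SL(2, ℤ)) : IMat),
    ← Matrix.SpecialLinearGroup.coe_mul (g * D * g⁻¹) g, inv_mul_cancel_right,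
    Matrix.SpecialLinearGroup.coe_mul, Matrix.mul_assoc, hD, ← Matrix.mul_assoc]

omit [NeZero m] hg in
theorem alMat_cancel {X Y : IMat} (h : X * alMat q g = Y * alMat q g) : X = Y := by
  have := congrArg (fun Z => Z * (alMat q g).adjugate) h
  simp only [Matrix.mul_assoc, Matrix.mul_adjugate, Matrix.mul_smul, Matrix.mul_one] at this
  exact smul_right_injective IMat (det_alMat_pos (q := q) g).ne' this

theorem exists_al {A : Type} [AddCommGroup A] (χ : ParHom (q * m) A) :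
    ∃ χ' : ParHom (q * m) A, IsTransfer (Gamma0 (q * m)) (Gamma0 (q * m))
      (fun _ : Unit => alMat q g) (χ : Additive (Gamma0 (q * m)) →+ A)
      (χ' : Additive (Gamma0 (q * m)) →+ A) := by
  choose w hw using exists_alStep hg
  have hmul : ∀ γ δ, w (γ * δ) = w γ * w δ := fun γ δ => Subtype.ext (Subtype.ext (alMat_cancel (g := g)
    (q := q) (by
      rw [← hw, Subgroup.coe_mul, Matrix.SpecialLinearGroup.coe_mul, ← Matrix.mul_assoc, hw,
        Matrix.mul_assoc, hw, ← Matrix.mul_assoc, Subgroup.coe_mul,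
        Matrix.SpecialLinearGroup.coe_mul])))
  refine ⟨⟨(χ : Additive (Gamma0 (q * m)) →+ A).comp (MonoidHom.mk' w hmul).toAdditive,
    fun γ hγ => χ.2 _ ?_⟩, fun γ => ⟨1, fun _ => w γ, fun i => hw γ, by simp⟩⟩
  have h1 := congrArg (fun Z => Matrix.trace ((alMat q g).adjugate * Z)) (hw γ)
  simp only [← Matrix.mul_assoc, Matrix.adjugate_mul] at h1
  rw [Matrix.trace_mul_comm ((alMat q g).adjugate * _), ← Matrix.mul_assoc, Matrix.mul_adjugate,
    Matrix.smul_mul, Matrix.one_mul, Matrix.smul_mul, Matrix.one_mul, Matrix.trace_smul,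
    Matrix.trace_smul] at h1
  show (((w γ : SL(2, ℤ)) : IMat)).trace ^ 2 = 4
  rw [← smul_right_injective ℤ (det_alMat_pos (q := q) g).ne' h1]
  exact hγ

/-- The Atkin-Lehner translate of classes. -/
def alR (χ : ParHom (q * m) (ZMod n)) : ParHom (q * m) (ZMod n) := (exists_al hg χ).choose

theorem alR_rep {χ : ParHom (q * m) (ZMod n)} {F : ℍ → ℂ}
    (hF : IsRepG (Gamma0 (q * m)) n χ F) :
    IsRepG (Gamma0 (q * m)) n (alR hg χ) (Wf q g F) :=
  transferProd_alMat (q := q) (g := g) F ▸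
    transferProd_rep (fun _ => det_alMat_pos g) hF (exists_al hg χ).choose_spec

end AL

end Fermat.Agent.GalRep.Semistable
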