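/-
A Hecke operator, nonzero on the eigensystem of a newform, killing the corestrictions to the
lower level up to a constant independent of `n`.
-/
import Fermat.Agent.GalRep.Semistable.Cores
import Fermat.Agent.GalRep.Universal
import Fermat.Agent.NewVec.Hecke
import Fermat.Agent.Newform.Independence
import Fermat.Agent.ConductorMatch.Rational
import Fermat.Agent.Hecke.ComplexAut

set_option autoImplicit false
set_option linter.style.haveILetI false

noncomputable section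

namespace Fermat.Agent.GalRep.Semistable

open UpperHalfPlane CongruenceSubgroup
open Fermat.Agent.GalRep.Level
open scoped MatrixGroups

local notation "IMat" => Matrix (Fin 2) (Fin 2) ℤ

/-! ## Commutation with the Hecke operators -/

section Commute

variable {n : ℕ} [NeZero n]

theorem exists_gamma0_hecke_factor {N ℓ : ℕ} (hg : GoodIndex N ℓ) {Z : IMat}
    (hdet : Z.det = (ℓ : ℤ)) (hN : (N : ℤ) ∣ Z 1 0) :
    ∃ (j : Option (Fin ℓ)) (h : Gamma0 N), Z = ((h : SL(2, ℤ)) : IMat) * heckeRep ℓ j := by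
  obtain ⟨j, X, hX⟩ := exists_eq_mul_heckeRep hg.prime Z ⟨1, by rw [hdet, mul_one]⟩
  have hXd : X.det = 1 := by
    have := congrArg Matrix.det hX
    rw [hdet, Matrix.det_mul, det_heckeRep] at this
    exact mul_right_cancel₀ (Int.natCast_ne_zero.mpr hg.prime.ne_zero)
      (this.symm.trans (one_mul _).symm)
  have hN' : (N : ℤ) ∣ X 1 0 := by
    rw [hX] at hN
    cases j with
    | none =>
      rw [mul_heckeRep_none] at hN
      refine (Int.isCoprime_iff_gcd_eq_one.mpr ?_).dvd_of_dvd_mul_right (by simpa using hN)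
      exact ((Nat.Prime.coprime_iff_not_dvd hg.prime).mpr hg.not_dvd).symm
    | some b =>
      rw [mul_heckeRep_some] at hN
      simpa using hN
  exact ⟨j, ⟨⟨X, hXd⟩, Gamma0_mem.mpr ((ZMod.intCast_zmod_eq_zero_iff_dvd _ _).mpr hN')⟩, hX⟩

theorem rep_heckeHom {N ℓ : ℕ} [NeZero N] (hg : GoodIndex N ℓ) {χ : ParHom N (ZMod n)}
    {F : ℍ → ℂ} (hF : IsRepG (Gamma0 N) n χ F) :
    IsRepG (Gamma0 N) n (heckeHom hg χ)
      (transferProd (heckeRep ℓ) (det_heckeRep_pos hg) F) :=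
  transferProd_rep _ hF (isHeckeTransfer_heckeHom hg χ)

variable {q m : ℕ} [Fact q.Prime] [NeZero q] [NeZero m] (hqm : ¬ q ∣ m) {g : SL(2, ℤ)}
  (hg : g 1 0 = m ∧ g 1 1 = q) {ℓ : ℕ}

theorem corR_heckeHom (hℓm : GoodIndex m ℓ) (hℓ : GoodIndex (q * m) ℓ)
    (χ : ParHom (q * m) (ZMod n)) :
    corR hg hqm (heckeHom hℓ χ) = heckeHom hℓm (corR hg hqm χ) := by
  obtain ⟨F, hF, -⟩ := exists_repG (n := n) χ (isLevel_gamma0 (q * m))
  have hL := corR_rep hg hqm (rep_heckeHom hℓ hF)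
  have hR := rep_heckeHom hℓm (corR_rep hg hqm hF)
  have hq : q.Prime := Fact.out
  have hℓq : ¬ (q : ℤ) ∣ (ℓ : ℤ) := fun h => hℓ.not_dvd
    (((Nat.prime_dvd_prime_iff_eq hq hℓ.prime).mp (Int.natCast_dvd_natCast.mp h)) ▸ dvd_mul_right q m)
  have step : ∀ x : Option (Fin q) × Option (Fin ℓ), ∃ (y : Option (Fin ℓ) × Option (Fin q))
      (h : Gamma0 (q * m)), heckeRep ℓ x.2 * (cosR q m g x.1 : IMat) =
        ((h : SL(2, ℤ)) : IMat) * ((cosR q m g y.2 : IMat) * heckeRep ℓ y.1) := by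
    intro x
    obtain ⟨j, g', hg'⟩ := exists_transfer_step hℓm.prime hℓm.not_dvd
      ⟨_, cosR_mem hg x.1⟩ x.2
    obtain ⟨i, hi⟩ := exists_cosR hg hqm g'.2
    refine ⟨(j, i), ⟨_, hi⟩, ?_⟩
    rw [← Matrix.mul_assoc, ← Matrix.SpecialLinearGroup.coe_mul, inv_mul_cancel_right]
    exact hg'
  choose π h hπ using step
  have hinj : Function.Injective π := by
    intro x y hxy
    set γ : SL(2, ℤ) := cosR q m g x.1 * (cosR q m g y.1)⁻¹ with hγ
    set H : SL(2, ℤ) := (h x : SL(2, ℤ)) * (h y : SL(2, ℤ))⁻¹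
    have he : heckeRep ℓ x.2 * (γ : IMat) = (H : IMat) * heckeRep ℓ y.2 := by
      have e1 := hπ x
      have e2 := hπ y
      rw [hxy] at e1
      have e3 : heckeRep ℓ x.2 * (cosR q m g x.1 : IMat) =
          (H : IMat) * (heckeRep ℓ y.2 * (cosR q m g y.1 : IMat)) := by
        rw [e2, ← Matrix.mul_assoc (H : IMat), ← Matrix.SpecialLinearGroup.coe_mul,
          inv_mul_cancel_right]
        exact e1
      rw [hγ, Matrix.SpecialLinearGroup.coe_mul, ← Matrix.mul_assoc, e3, Matrix.mul_assoc,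
        Matrix.mul_assoc (heckeRep ℓ y.2), ← Matrix.SpecialLinearGroup.coe_mul, mul_inv_cancel,
        Matrix.SpecialLinearGroup.coe_one, Matrix.mul_one]
    have hH : (H : SL(2, ℤ)) ∈ Gamma0 (q * m) := mul_mem (h x).2 (inv_mem (h y).2)
    have hHq : (q : ℤ) ∣ H 1 0 := ((mem_gamma0_mul_iff hqm).mp
      ((ZMod.intCast_zmod_eq_zero_iff_dvd _ _).mp (Gamma0_mem.mp hH))).1
    have hγq : (q : ℤ) ∣ γ 1 0 := by
      have e10 := congrArg (fun X : IMat => X 1 0) he
      simp only [Matrix.mul_apply, Fin.sum_univ_two, heckeRep_one_zero, zero_mul, zero_add,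
        mul_zero, add_zero] at e10
      have hdvd : (q : ℤ) ∣ heckeRep ℓ x.2 1 1 * γ 1 0 := e10 ▸ hHq.mul_right _
      refine ((Nat.prime_iff_prime_int.mp hq).dvd_or_dvd hdvd).resolve_left ?_
      cases x.2 with
      | none => simpa [heckeRep] using fun h1 : (q : ℤ) ∣ 1 => hq.not_dvd_one (by exact_mod_cast h1)
      | some b => simpa [heckeRep] using hℓq
    have hxy1 : x.1 = y.1 := by
      refine cosR_inj hg hqm (Gamma0_mem.mpr ((ZMod.intCast_zmod_eq_zero_iff_dvd _ _).mpr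
        ((mem_gamma0_mul_iff hqm).mpr ⟨hγq, ?_⟩)))
      exact (ZMod.intCast_zmod_eq_zero_iff_dvd _ _).mp
        (Gamma0_mem.mp (mul_mem (cosR_mem hg x.1) (inv_mem (cosR_mem hg y.1))))
    refine Prod.ext hxy1 ?_
    rw [hγ, hxy1, mul_inv_cancel, Matrix.SpecialLinearGroup.coe_one] at he
    refine heckeRep_unique hℓ.prime (M := 1) (M' := (H : IMat)) ?_ (by rw [one_mul]; simpa using he)
    rw [Matrix.det_one]
    exact fun h1 => hℓ.prime.not_dvd_one (by exact_mod_cast h1)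
  have hbij : Function.Bijective π :=
    (Fintype.bijective_iff_injective_and_card π).mpr ⟨hinj, by simp [mul_comm]⟩
  obtain ⟨c, hc, he⟩ := exists_smul_transferProd hF
    (β := fun i => (cosR q m g i : IMat)) (γ := heckeRep ℓ)
    (fun i => by rw [(cosR q m g i).det_coe]; exact one_pos) (det_heckeRep_pos hℓ)
    (β' := heckeRep ℓ) (γ' := fun i => (cosR q m g i : IMat))
    (det_heckeRep_pos hℓm) (fun i => by rw [(cosR q m g i).det_coe]; exact one_pos)
    (Equiv.ofBijective π hbij) h hπ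
  exact char_eq_of_smul hc hL hR he

theorem alR_heckeHom (hℓ : GoodIndex (q * m) ℓ) (χ : ParHom (q * m) (ZMod n)) :
    alR hg (heckeHom hℓ χ) = heckeHom hℓ (alR hg χ) := by
  obtain ⟨F, hF, -⟩ := exists_repG (n := n) χ (isLevel_gamma0 (q * m))
  have hL : IsRepG (Gamma0 (q * m)) n (alR hg (heckeHom hℓ χ))
      (transferProd (fun _ : Unit => alMat q g) (fun _ => det_alMat_pos g)
        (transferProd (heckeRep ℓ) (det_heckeRep_pos hℓ) F)) := by
    rw [transferProd_alMat]; exact alR_rep hg (rep_heckeHom hℓ hF)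
  have hR : IsRepG (Gamma0 (q * m)) n (heckeHom hℓ (alR hg χ))
      (transferProd (heckeRep ℓ) (det_heckeRep_pos hℓ)
        (transferProd (fun _ : Unit => alMat q g) (fun _ => det_alMat_pos g) F)) := by
    rw [transferProd_alMat]; exact rep_heckeHom hℓ (alR_rep hg hF)
  have step : ∀ x : Unit × Option (Fin ℓ), ∃ (y : Option (Fin ℓ) × Unit) (h : Gamma0 (q * m)),
      heckeRep ℓ x.2 * alMat q g = ((h : SL(2, ℤ)) : IMat) * (alMat q g * heckeRep ℓ y.1) := by
    rintro ⟨-, i⟩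
    set a := heckeRep ℓ i 0 0
    set b := heckeRep ℓ i 0 1
    set d := heckeRep ℓ i 1 1
    have hb10 : heckeRep ℓ i 1 0 = 0 := heckeRep_one_zero ℓ i
    have hdet : g 0 0 * (q : ℤ) - g 0 1 * (m : ℤ) = 1 := by
      have := det_entries g
      rwa [hg.1, hg.2] at this
    let Z : IMat := !![a * g 0 0 * q + b * m * q - g 0 1 * d * m, a * g 0 1 + b * q - g 0 1 * d;
      (q : ℤ) * m * (d * g 0 0 - a * g 0 0 - b * m), d * g 0 0 * q - m * a * g 0 1 - m * b * q]
    have hZ : heckeRep ℓ i * alMat q g = alMat q g * Z := by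
      ext r s
      fin_cases r <;> fin_cases s <;>
        simp [Z, alMat, Matrix.mul_apply, Fin.sum_univ_two, hg.1, hg.2, hb10, a, b, d]
      · linear_combination -((heckeRep ℓ i 0 0) * g 0 0 * q + (heckeRep ℓ i 0 1) * m * q) * hdet
      · linear_combination -((heckeRep ℓ i 0 0) * g 0 1 + (heckeRep ℓ i 0 1) * q) * hdet
      · linear_combination -((heckeRep ℓ i 1 1) * m * q) * hdet
      · linear_combination -((heckeRep ℓ i 1 1) * q) * hdet
    have hZd : Z.det = (ℓ : ℤ) := by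
      have := congrArg Matrix.det hZ
      rw [Matrix.det_mul, Matrix.det_mul, det_heckeRep, mul_comm] at this
      exact (mul_left_cancel₀ (det_alMat_pos (q := q) g).ne' this).symm
    obtain ⟨j, h', hh'⟩ := exists_gamma0_hecke_factor hℓ hZd ⟨d * g 0 0 - a * g 0 0 - b * m, by
      simp [Z]⟩
    obtain ⟨w, hw⟩ := exists_alStep hg h'
    exact ⟨(j, ()), w, by rw [hZ, hh', ← Matrix.mul_assoc, hw, Matrix.mul_assoc]⟩
  choose π h hπ using step
  have hinj : Function.Injective π := by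
    intro x y hxy
    obtain ⟨⟨⟩, i⟩ := x
    obtain ⟨⟨⟩, j⟩ := y
    have e1 := hπ ((), i)
    rw [hxy] at e1
    set H : SL(2, ℤ) := (h ((), i) : SL(2, ℤ)) * (h ((), j) : SL(2, ℤ))⁻¹
    have he : heckeRep ℓ i = (H : IMat) * heckeRep ℓ j := alMat_cancel (q := q) (g := g) (by
      rw [Matrix.mul_assoc (H : IMat), hπ ((), j), ← Matrix.mul_assoc (H : IMat),
        ← Matrix.SpecialLinearGroup.coe_mul, inv_mul_cancel_right]
      exact e1)
    exact Prod.ext rfl (heckeRep_unique hℓ.prime (M := 1) (M' := (H : IMat))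
      (by rw [Matrix.det_one]; exact fun h1 => hℓ.prime.not_dvd_one (by exact_mod_cast h1))
      (by rw [one_mul]; exact he))
  have hbij : Function.Bijective π :=
    (Fintype.bijective_iff_injective_and_card π).mpr ⟨hinj, by simp⟩
  obtain ⟨c, hc, he⟩ := exists_smul_transferProd hF (β := fun _ : Unit => alMat q g)
    (γ := heckeRep ℓ) (fun _ => det_alMat_pos g) (det_heckeRep_pos hℓ)
    (β' := heckeRep ℓ) (γ' := fun _ : Unit => alMat q g)
    (det_heckeRep_pos hℓ) (fun _ => det_alMat_pos g) (Equiv.ofBijective π hbij) h hπ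
  exact char_eq_of_smul hc hL hR he

theorem corR_zero : corR hg hqm (0 : ParHom (q * m) (ZMod n)) = 0 := by
  refine (corR_rep hg hqm (IsRepG.one (n := n))).char_unique ?_
  rw [show transferProd (fun i => (cosR q m g i : IMat)) _ (1 : ℍ → ℂ) = 1 from
    funext fun τ => by simp [transferProd]]
  exact IsRepG.one

theorem corR_add (χ χ' : ParHom (q * m) (ZMod n)) :
    corR hg hqm (χ + χ') = corR hg hqm χ + corR hg hqm χ' := by
  obtain ⟨F, hF, -⟩ := exists_repG (n := n) χ (isLevel_gamma0 (q * m))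
  obtain ⟨F', hF', -⟩ := exists_repG (n := n) χ' (isLevel_gamma0 (q * m))
  refine (corR_rep hg hqm (hF.mul hF')).char_unique ?_
  have e : ∀ (β : Option (Fin q) → IMat) (hβ : ∀ i, 0 < (β i).det),
      transferProd β hβ (F * F') = transferProd β hβ F * transferProd β hβ F' := fun β hβ =>
    funext fun τ => by simp [transferProd, Finset.prod_mul_distrib]
  rw [e]
  exact (corR_rep hg hqm hF).mul (corR_rep hg hqm hF')

theorem alR_add (χ χ' : ParHom (q * m) (ZMod n)) : alR hg (χ + χ') = alR hg χ + alR hg χ' := by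
  obtain ⟨F, hF, -⟩ := exists_repG (n := n) χ (isLevel_gamma0 (q * m))
  obtain ⟨F', hF', -⟩ := exists_repG (n := n) χ' (isLevel_gamma0 (q * m))
  exact (alR_rep hg (hF.mul hF')).char_unique (by
    rw [Wf_mul]; exact (alR_rep hg hF).mul (alR_rep hg hF'))

/-- Corestriction as a linear map. -/
def corL : ParHom (q * m) (ZMod n) →ₗ[ℤ] ParHom m (ZMod n) :=
  AddMonoidHom.toIntLinearMap
    (AddMonoidHom.mk' (fun χ : ParHom (q * m) (ZMod n) => corR hg hqm χ) fun χ χ' => corR_add hqm hg χ χ')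

/-- The Atkin-Lehner translate as a linear map. -/
def alL : ParHom (q * m) (ZMod n) →ₗ[ℤ] ParHom (q * m) (ZMod n) :=
  AddMonoidHom.toIntLinearMap
    (AddMonoidHom.mk' (fun χ : ParHom (q * m) (ZMod n) => alR hg χ) fun χ χ' => alR_add hg χ χ')

theorem corL_apply (χ : ParHom (q * m) (ZMod n)) : corL hqm hg χ = corR hg hqm χ := rfl

theorem alL_apply (χ : ParHom (q * m) (ZMod n)) : alL hg χ = alR hg χ := rfl

variable {ι : Type} (e : ι → GoodPrime (q * m)) (e' : ι → GoodPrime m)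
  (he : ∀ i, ((e' i : Nat.Primes) : ℕ) = ((e i : Nat.Primes) : ℕ))

include he in
theorem corL_heckePoly (P : MvPolynomial ι ℤ) (χ : ParHom (q * m) (ZMod n)) :
    corL hqm hg (heckePolyHom (q * m) (ZMod n) (MvPolynomial.rename e P) χ) =
      heckePolyHom m (ZMod n) (MvPolynomial.rename e' P) (corL hqm hg χ) := by
  induction P using MvPolynomial.induction_on generalizing χ with
  | C a => simp
  | add P Q hP hQ => simp only [map_add, LinearMap.add_apply, hP, hQ]
  | mul_X P i hP =>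
    rw [map_mul, map_mul, map_mul, map_mul, Module.End.mul_apply, Module.End.mul_apply, hP,
      MvPolynomial.rename_X (R := ℤ) e i]
    simp only [MvPolynomial.rename_X, heckePolyHom_X]
    have key : ∀ z : GoodPrime m, ((z : Nat.Primes) : ℕ) = ((e i : Nat.Primes) : ℕ) →
        corR hg hqm (heckeHom (goodIndex (e i)) χ) = heckeHom (goodIndex z) (corR hg hqm χ) := by
      rintro ⟨z, hz⟩ hℓ
      obtain rfl : z = (e i : Nat.Primes) := Subtype.ext hℓ
      exact corR_heckeHom hqm hg (goodIndex ⟨(e i : Nat.Primes), hz⟩) (goodIndex (e i)) χ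
    exact congrArg (fun x => heckePolyHom m (ZMod n) (MvPolynomial.rename e' P) x)
      ((corL_apply hqm hg _).trans (key (e' i) (he i)))

theorem alL_heckePoly (P : HeckePoly (q * m)) (χ : ParHom (q * m) (ZMod n)) :
    alL hg (heckePolyHom (q * m) (ZMod n) P χ) =
      heckePolyHom (q * m) (ZMod n) P (alL hg χ) := by
  induction P using MvPolynomial.induction_on generalizing χ with
  | C a => simp
  | add P Q hP hQ => simp only [map_add, LinearMap.add_apply, hP, hQ]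
  | mul_X P i hP =>
    rw [map_mul, Module.End.mul_apply, Module.End.mul_apply, hP, heckePolyHom_X]
    exact congrArg (fun x => heckePolyHom (q * m) (ZMod n) P x) (alR_heckeHom hg (goodIndex i) χ)

end Commute

/-! ## Classes modulo `n` are nearly reductions -/

theorem exists_lift_const (N : ℕ) [NeZero N] : ∃ C : ℕ, 0 < C ∧
    ∀ (n : ℕ) (χ : ParHom N (ZMod n)),
      ∃ φ : ParHom N ℤ, parMap (Int.castAddHom (ZMod n)) φ = C • χ := by
  classical
  let Q₀ := Additive (Abelianization (Gamma0 N))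
  let ab : Additive (Gamma0 N) →+ Q₀ := (Abelianization.of (G := Gamma0 N)).toAdditive
  let S₀ : Submodule ℤ Q₀ := Submodule.span ℤ ((fun γ => ab (Additive.ofMul γ)) ''
    {γ : Gamma0 N | ((γ : SL(2, ℤ)) : IMat).trace ^ 2 = 4})
  let Q := Q₀ ⧸ S₀
  have hab : Function.Surjective ab := fun x => by
    obtain ⟨γ, rfl⟩ := Additive.ofMul.surjective x
    induction γ using QuotientGroup.induction_on with
    | _ z => exact ⟨Additive.ofMul z, rfl⟩
  haveI : Module.Finite ℤ Q := by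
    obtain ⟨s, hs⟩ := exists_generators N
    haveI : Group.FG (Gamma0 N) := Group.fg_def.mpr ⟨s, hs⟩
    haveI : Module.Finite ℤ Q₀ := Module.Finite.iff_addGroup_fg.mpr
      (AddGroup.fg_of_surjective (hG := inferInstance) hab)
    infer_instance
  let T := Submodule.torsion ℤ Q
  haveI : Module.Finite ℤ T := Module.Finite.iff_fg.mpr (IsNoetherian.noetherian T)
  haveI : Finite T := Module.finite_of_fg_torsion T (Submodule.torsion_isTorsion)
  haveI : Module.IsTorsionFree ℤ (Q ⧸ T) := inferInstance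
  haveI : Module.Free ℤ (Q ⧸ T) := Module.free_of_finite_type_torsion_free'
  refine ⟨Nat.card T, Nat.card_pos, fun n χ => ?_⟩
  let χ₀ : Q₀ →ₗ[ℤ] ZMod n := (MonoidHom.toAdditive (Abelianization.lift
    (AddMonoidHom.toMultiplicativeRight (χ : Additive (Gamma0 N) →+ ZMod n)))).toIntLinearMap
  let χQ : Q →ₗ[ℤ] ZMod n := S₀.liftQ χ₀ (Submodule.span_le.mpr (by
    rintro _ ⟨γ, hγ, rfl⟩
    exact χ.2 γ hγ))
  let ψ : Q ⧸ T →ₗ[ℤ] ZMod n := T.liftQ (Nat.card T • χQ) fun x hx => by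
    rw [LinearMap.mem_ker, LinearMap.smul_apply, ← map_nsmul,
      show Nat.card T • x = 0 from congrArg Subtype.val (card_nsmul_eq_zero' (x := (⟨x, hx⟩ : T))),
      map_zero]
  let b := Module.Free.chooseBasis ℤ (Q ⧸ T)
  choose c hc using fun i => ZMod.intCast_surjective (ψ (b i))
  let φ₁ : Q ⧸ T →ₗ[ℤ] ℤ := b.constr ℤ c
  have hφ : (Int.castAddHom (ZMod n)).toIntLinearMap ∘ₗ φ₁ = ψ := b.ext fun i => by
    simp [φ₁, hc i]
  refine ⟨⟨(φ₁ ∘ₗ T.mkQ ∘ₗ S₀.mkQ).toAddMonoidHom.comp ab, fun γ hγ => ?_⟩, ?_⟩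
  · show φ₁ (T.mkQ (S₀.mkQ (ab (Additive.ofMul γ)))) = 0
    rw [show S₀.mkQ (ab (Additive.ofMul γ)) = 0 from
      (Submodule.Quotient.mk_eq_zero _).mpr (Submodule.subset_span ⟨γ, hγ, rfl⟩), map_zero, map_zero]
  · refine Subtype.ext (AddMonoidHom.ext fun x => ?_)
    rw [parMap_apply]
    show ((Int.castAddHom (ZMod n)).toIntLinearMap ∘ₗ φ₁) (T.mkQ (S₀.mkQ (ab x))) = _
    rw [hφ]
    rfl

/-! ## The eigensystem is not at the lower level -/

theorem exists_aut_comp {R : Type} [CommRing R] {α β : R →+* ℂ}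
    (hβ : ∀ x, IsIntegral ℤ (β x))
    (h : ∀ x, β x = 0 → α x = 0) : ∃ σ : ℂ →+* ℂ, ∀ x, σ (β x) = α x := by
  classical
  let ℚbar := algebraicClosure ℚ ℂ
  haveI : Algebra.IsAlgebraic ℚ ℚbar := algebraicClosure.isAlgebraic ℚ ℂ
  haveI : IsAlgClosure ℚ ℚbar := algebraicClosure.isAlgClosure ℚ ℂ
  haveI : RingHom.ker β |>.IsPrime := RingHom.ker_isPrime β
  let D := R ⧸ RingHom.ker β
  let β' : D →+* ℂ := Ideal.Quotient.lift _ β fun x hx => hx
  let α' : D →+* ℂ := Ideal.Quotient.lift _ α fun x hx => h x (RingHom.mem_ker.mp hx)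
  have hβ' : Function.Injective β' := RingHom.kerLift_injective β
  haveI : CharZero D := ⟨fun a b hab => by
    have := congrArg β' hab
    simpa using this⟩
  haveI : Algebra.IsIntegral ℤ D := ⟨fun x => by
    obtain ⟨r, rfl⟩ := Ideal.Quotient.mk_surjective x
    exact (isIntegral_algHom_iff β'.toIntAlgHom hβ').mp (hβ r)⟩
  have hα' : Function.Injective α' := by
    rw [RingHom.injective_iff_ker_eq_bot]
    refine Ideal.eq_bot_of_comap_eq_bot (R := ℤ) ?_
    rw [RingHom.comap_ker, ← RingHom.injective_iff_ker_eq_bot]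
    exact (α'.comp (algebraMap ℤ D)).injective_int
  let K := FractionRing D
  haveI : CharZero K := charZero_of_injective_algebraMap (IsFractionRing.injective D K)
  have hint : ∀ (f : D →+* ℂ) (hf : Function.Injective f) (x : K),
      IsFractionRing.lift hf x ∈ ℚbar := by
    intro f hf x
    obtain ⟨a, b, -, rfl⟩ := IsFractionRing.div_surjective (A := D) (K := K) x
    rw [map_div₀, IsFractionRing.lift_algebraMap, IsFractionRing.lift_algebraMap]
    refine div_mem ?_ ?_ <;>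
      exact mem_algebraicClosure_iff'.mpr
        (((Algebra.IsIntegral.isIntegral (R := ℤ) _).map f.toIntAlgHom).tower_top)
  let ιβ : K →+* ℚbar := (IsFractionRing.lift hβ').codRestrict _ (hint β' hβ')
  let ια : K →+* ℚbar := (IsFractionRing.lift hα').codRestrict _ (hint α' hα')
  letI : Algebra K ℚbar := ιβ.toAlgebra
  haveI : IsScalarTower ℚ K ℚbar := IsScalarTower.of_algebraMap_eq' (Subsingleton.elim _ _)
  haveI : Algebra.IsAlgebraic ℚ K := Algebra.IsAlgebraic.of_injective ιβ.toRatAlgHom ιβ.injective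
  haveI : Algebra.IsAlgebraic K ℚbar := Algebra.IsAlgebraic.tower_top (K := ℚ) K
  haveI : IsAlgClosed ℚbar := IsAlgClosure.isAlgClosed ℚ
  let φ : ℚbar →ₐ[ℚ] ℚbar := by
    letI : Algebra K ℚbar := ιβ.toAlgebra
    exact (IsAlgClosed.surjective_domRestrict_of_isAlgebraic (K := ℚ) (L := K) (E := ℚbar)
      (M := ℚbar) ια.toRatAlgHom).choose
  have hφ : ∀ k, φ (ιβ k) = ια k := fun k => DFunLike.congr_fun
    (IsAlgClosed.surjective_domRestrict_of_isAlgebraic (K := ℚ) (L := K) (E := ℚbar)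
      (M := ℚbar) ια.toRatAlgHom).choose_spec k
  obtain ⟨s, hs⟩ := exists_isTranscendenceBasis ℚbar ℂ
  obtain ⟨σ, hσ⟩ := Hecke.exists_complexAut_of_polyAut _ hs
    (MvPolynomial.mapEquiv (↥s) (AlgEquiv.ofBijective φ (Algebra.IsAlgebraic.algHom_bijective φ)).toRingEquiv)
  refine ⟨σ.toRingHom, fun x => ?_⟩
  have h1 := hσ (MvPolynomial.C (ιβ (algebraMap D K (Ideal.Quotient.mk _ x))))
  rw [MvPolynomial.aeval_C, show MvPolynomial.mapEquiv (↥s)
    (AlgEquiv.ofBijective φ (Algebra.IsAlgebraic.algHom_bijective φ)).toRingEquiv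
      (MvPolynomial.C (ιβ (algebraMap D K (Ideal.Quotient.mk _ x)))) =
      MvPolynomial.C (φ (ιβ (algebraMap D K (Ideal.Quotient.mk _ x)))) from MvPolynomial.map_C _ _,
    MvPolynomial.aeval_C, hφ] at h1
  simp only [ιβ, ια] at h1
  have eb : IsFractionRing.lift hβ' (algebraMap D K (Ideal.Quotient.mk _ x)) = β x := by
    rw [IsFractionRing.lift_algebraMap]; rfl
  have ea : IsFractionRing.lift hα' (algebraMap D K (Ideal.Quotient.mk _ x)) = α x := by
    rw [IsFractionRing.lift_algebraMap]; rfl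
  rw [← eb, ← ea]
  exact h1

set_option maxHeartbeats 1000000 in
open CuspForm Fermat.Agent.Newform in
/-- A polynomial in the good Hecke operators vanishing at level `m` but not on a newform. -/
theorem exists_poly_lower {M m : ℕ} [NeZero M] [NeZero m] (hmM : m ∣ M) (hne : m ≠ M)
    {g : CuspForm (Gamma0 M) 2} (hg : g.IsNewform) (S : Finset ℕ)
    (a : CuspForm.heckeAlgebra M 2 (↑S : Set ℕ) →+* ℂ)
    (ha : ∀ (ℓ : ℕ) (hℓ : ℓ.Prime) (hℓM : ¬ ℓ ∣ M) (hℓS : ℓ ∉ (↑S : Set ℕ)),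
      a (CuspForm.heckeAlgebra.T hℓ hℓM hℓS) = ModularFormClass.qCoeff g ℓ)
    (e : GoodPrimeOff M (↑S : Set ℕ) → GoodPrime m)
    (he : ∀ i, ((e i : Nat.Primes) : ℕ) = ((i.1 : Nat.Primes) : ℕ)) :
    ∃ P : MvPolynomial (GoodPrimeOff M (↑S : Set ℕ)) ℤ,
      evForms m (MvPolynomial.rename e P) = 0 ∧ a (evFormsOff (↑S : Set ℕ) P) ≠ 0 := by
  by_contra hno
  push Not at hno
  let θ : MvPolynomial (GoodPrimeOff M (↑S : Set ℕ)) ℤ →+*
      CuspForm.heckeAlgebra m 2 (∅ : Set ℕ) :=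
    (evForms m).toRingHom.comp (MvPolynomial.rename e).toRingHom
  let α : MvPolynomial (GoodPrimeOff M (↑S : Set ℕ)) ℤ →+* ℂ :=
    a.comp (evFormsOff (↑S : Set ℕ)).toRingHom
  have hker : RingHom.ker θ.rangeRestrict ≤ RingHom.ker α := fun P hP =>
    RingHom.mem_ker.mpr (hno P (congrArg Subtype.val (RingHom.mem_ker.mp hP)))
  haveI : (RingHom.ker α).IsPrime := RingHom.ker_isPrime α
  haveI : ((RingHom.ker α).map θ.rangeRestrict).IsPrime :=
    Ideal.map_isPrime_of_surjective θ.rangeRestrict_surjective hker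
  obtain ⟨v, hv, χ, hχ, hχker⟩ := Hecke.exists_eigenvector_ker_le
    ((CuspForm.heckeAlgebra m 2 (∅ : Set ℕ)).val.toRingHom.comp θ.range.subtype)
    (fun x y h => Subtype.ext (Subtype.ext h)) ((RingHom.ker α).map θ.rangeRestrict)
  let β := χ.comp θ.rangeRestrict
  have hβα : ∀ P, β P = 0 → α P = 0 := fun P hP => by
    have h1 := hχker (RingHom.mem_ker.mpr hP)
    rw [Ideal.mem_map_iff_of_surjective _ θ.rangeRestrict_surjective] at h1
    obtain ⟨Q, hQ, hQP⟩ := h1
    have h2 : P - Q ∈ RingHom.ker α := hker (by rw [RingHom.mem_ker, map_sub, hQP, sub_self])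
    rw [RingHom.mem_ker, map_sub, RingHom.mem_ker.mp hQ, sub_zero] at h2
    exact h2
  haveI := Hecke.moduleFinite_heckeAlgebra m 2 (∅ : Set ℕ)
  haveI : IsNoetherian ℤ (CuspForm.heckeAlgebra m 2 (∅ : Set ℕ)) := inferInstance
  have hβint : ∀ P, IsIntegral ℤ (β P) := fun P =>
    ((isIntegral_algHom_iff θ.range.subtype.toIntAlgHom Subtype.val_injective).mp
      (show IsIntegral ℤ (θ.range.subtype.toIntAlgHom (θ.rangeRestrict P)) from
        IsIntegral.of_finite ℤ _)).map χ.toIntAlgHom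
  obtain ⟨σ, hσ⟩ := exists_aut_comp hβint hβα
  -- an eigenform at the lower level
  let X : Finset ℕ := S
  let av : ℕ → ℂ := fun ℓ =>
    if h : ℓ.Prime ∧ ¬ ℓ ∣ M ∧ ℓ ∉ (↑S : Set ℕ) then
      β (MvPolynomial.X ⟨⟨⟨ℓ, h.1⟩, h.2.1⟩, h.2.2⟩) else 0
  have hmem : v ∈ goodSpace m {ℓ | ℓ ∈ X ∨ ℓ ∣ M} av := by
    intro ℓ hℓ hℓm hℓX
    simp only [Set.mem_ofPred_eq, not_or] at hℓX
    have h : ℓ.Prime ∧ ¬ ℓ ∣ M ∧ ℓ ∉ (↑S : Set ℕ) := ⟨hℓ, hℓX.2, by simpa using hℓX.1⟩
    simp only [av, dif_pos h]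
    have h1 := hχ (θ.rangeRestrict (MvPolynomial.X ⟨⟨⟨ℓ, h.1⟩, h.2.1⟩, h.2.2⟩))
    refine Eq.trans ?_ h1
    show _ = ((evForms m (MvPolynomial.rename e (MvPolynomial.X _)) :
      CuspForm.heckeAlgebra m 2 (∅ : Set ℕ)) : Module.End ℂ (CuspForm (Gamma0 m) 2)) v
    rw [MvPolynomial.rename_X, evForms, MvPolynomial.aeval_X, CuspForm.heckeAlgebra.coe_T]
    have hei := he ⟨⟨⟨ℓ, h.1⟩, h.2.1⟩, h.2.2⟩
    generalize e ⟨⟨⟨ℓ, h.1⟩, h.2.1⟩, h.2.2⟩ = z at hei ⊢
    obtain ⟨⟨z, hz⟩, hzm⟩ := z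
    obtain rfl : z = ℓ := hei
    rfl
  have hgs : goodSpace m {ℓ | ℓ ∈ X ∨ ℓ ∣ M} av ≠ ⊥ := fun h0 => hv (by
    rw [h0, Submodule.mem_bot] at hmem; exact hmem)
  obtain ⟨f, hf, hfℓ⟩ := exists_eigenform_of_goodSpace hgs
  obtain ⟨f', hf'⟩ := Hecke.exists_cuspForm_conjugate (k := 2) even_two σ f
  refine IsNewform.not_agree_outside hg (ConductorMatch.isNormalizedEigenform_conjugate hf σ hf')
    hmM hne X fun ℓ hℓ hℓM hℓX => ?_
  rw [hf', hfℓ ℓ hℓ (fun hd => hℓM (hd.trans hmM)) (by simp [hℓM, hℓX]), ← ha ℓ hℓ hℓM (by simpa using hℓX)]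
  simp only [av, dif_pos (show ℓ.Prime ∧ ¬ ℓ ∣ M ∧ ℓ ∉ (↑S : Set ℕ) from ⟨hℓ, hℓM, by simpa using hℓX⟩)]
  rw [hσ]
  simp [α, evFormsOff]

/-! ## The killer -/

/-- A Hecke operator, nonzero on the newform, killing both corestrictions up to a constant. -/
theorem exists_cores_killer {q m : ℕ} [Fact q.Prime] [NeZero q] [NeZero m] (hqm : ¬ q ∣ m)
    {g : SL(2, ℤ)} (hg : g 1 0 = m ∧ g 1 1 = q) {f : CuspForm (Gamma0 (q * m)) 2}
    (hf : f.IsNewform) (S : Finset ℕ)
    (a : CuspForm.heckeAlgebra (q * m) 2 (↑S : Set ℕ) →+* ℂ)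
    (ha : ∀ (ℓ : ℕ) (hℓ : ℓ.Prime) (hℓM : ¬ ℓ ∣ q * m) (hℓS : ℓ ∉ (↑S : Set ℕ)),
      a (CuspForm.heckeAlgebra.T hℓ hℓM hℓS) = ModularFormClass.qCoeff f ℓ) :
    ∃ (P : MvPolynomial (GoodPrimeOff (q * m) (↑S : Set ℕ)) ℤ) (C : ℕ),
      a (evFormsOff (↑S : Set ℕ) P) ≠ 0 ∧ 0 < C ∧
      ∀ (n : ℕ) [NeZero n] (χ : ParHom (q * m) (ZMod n)),
        corR hg hqm (C • heckePolyHom (q * m) (ZMod n) (MvPolynomial.rename Subtype.val P) χ) = 0 ∧
        corR hg hqm (alR hg
          (C • heckePolyHom (q * m) (ZMod n) (MvPolynomial.rename Subtype.val P) χ)) = 0 := by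
  have hq : q.Prime := Fact.out
  let e : GoodPrimeOff (q * m) (↑S : Set ℕ) → GoodPrime m := fun i =>
    ⟨(i.1 : Nat.Primes), fun h => i.1.2 (h.trans (dvd_mul_left m q))⟩
  obtain ⟨P, hP, haP⟩ := exists_poly_lower (dvd_mul_left m q)
    (fun h => hq.one_lt.ne' (Nat.eq_of_mul_eq_mul_right (NeZero.pos m) (by rw [one_mul]; exact h.symm)))
    hf S a ha e fun i => rfl
  obtain ⟨C, hC, hlift⟩ := exists_lift_const m
  refine ⟨P, C, haP, hC, fun n _ χ => ?_⟩
  have kill : ∀ ψ : ParHom m (ZMod n),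
      C • heckePolyHom m (ZMod n) (MvPolynomial.rename e P) ψ = 0 := fun ψ => by
    obtain ⟨φ, hφ⟩ := hlift n ψ
    rw [← map_nsmul, ← hφ, heckePolyHom_natural, NewVec.heckePoly_eq_zero_of_forms hP,
      LinearMap.zero_apply, map_zero]
  have key : ∀ ψ : ParHom (q * m) (ZMod n),
      corL hqm hg (C • heckePolyHom (q * m) (ZMod n) (MvPolynomial.rename Subtype.val P) ψ) = 0 :=
    fun ψ => by rw [map_nsmul, corL_heckePoly hqm hg _ e (fun i => rfl) P ψ, kill]
  refine ⟨key χ, ?_⟩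
  rw [← alL_apply, map_nsmul, alL_heckePoly]
  exact key _

end Fermat.Agent.GalRep.Semistable
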