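/-
Functions of level `Γ(M)` fixed by inertia at a place: coefficients at the cusps, normalisations by
fixed constants, roots.
-/
import Fermat.Agent.GalRep.Semistable.BadOps
import Fermat.Agent.GalRep.Cyclo

set_option autoImplicit false
set_option linter.style.haveILetI false

noncomputable section

namespace Fermat.Agent.GalRep.Semistable

open UpperHalfPlane CongruenceSubgroup
open Fermat.Agent.Galois (GQ)
open Fermat.Agent.GalRep.Level
open Fermat.Agent.ModField (conjM conjM_spec conjM_eq)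
open scoped MatrixGroups Manifold

local notation "ℚb" => AlgebraicClosure ℚ
local notation "κ" A:max => IsLocalRing.ResidueField A

variable {A : ValuationSubring (AlgebraicClosure ℚ)}

/-! ## Inertia and roots of unity -/

theorem inertia_conj_mem {σ t : GQ} (hσ : σ ∈ A.decompositionSubgroup ℚ)
    (ht : t ∈ A.inertiaSubgroupIn ℚ) : σ⁻¹ * t * σ ∈ A.inertiaSubgroupIn ℚ := by
  obtain ⟨t, ht, rfl⟩ := ht
  refine ⟨(⟨σ, hσ⟩ : A.decompositionSubgroup ℚ)⁻¹ * t * ⟨σ, hσ⟩, ?_, rfl⟩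
  have h := (show (A.inertiaSubgroup ℚ).Normal from MonoidHom.normal_ker _).conj_mem t ht
    ((⟨σ, hσ⟩ : A.decompositionSubgroup ℚ)⁻¹)
  rwa [inv_inv] at h

/-- A constant of the strict henselisation. -/
def FixedConst (A : ValuationSubring (AlgebraicClosure ℚ)) (c : ℚb) : Prop :=
  ∀ t ∈ A.inertiaSubgroupIn ℚ, t c = c

theorem FixedConst.apply {σ : GQ} (hσ : σ ∈ A.decompositionSubgroup ℚ) {c : ℚb}
    (hc : FixedConst A c) : FixedConst A (σ c) := fun t ht => by
  have h := hc _ (inertia_conj_mem hσ ht)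
  rw [AlgEquiv.mul_apply, AlgEquiv.mul_apply] at h
  have h' := congrArg σ h
  rwa [show σ (σ⁻¹ (t (σ c))) = t (σ c) from σ.apply_symm_apply _] at h'

theorem FixedConst.mul {c d : ℚb} (hc : FixedConst A c) (hd : FixedConst A d) :
    FixedConst A (c * d) := fun t ht => by rw [map_mul, hc t ht, hd t ht]

theorem FixedConst.pow {c : ℚb} (hc : FixedConst A c) (k : ℕ) : FixedConst A (c ^ k) :=
  fun t ht => by rw [map_pow, hc t ht]

theorem FixedConst.inv {c : ℚb} (hc : FixedConst A c) : FixedConst A c⁻¹ :=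
  fun t ht => by rw [map_inv₀, hc t ht]

/-- The cyclotomic exponent modulo `m`, prime to the residue characteristic. -/
theorem castHom_cycM_of_residue {q M m : ℕ} [NeZero M] [NeZero m] (hq : q.Prime) (hm : ¬ q ∣ m)
    (hdvd : m ∣ M) (hA : A.LiesOverPrime q) {σ : GQ} (hσ : σ ∈ A.decompositionSubgroup ℚ) (k : ℕ)
    (h : ∀ x : κ A, (⟨σ, hσ⟩ : A.decompositionSubgroup ℚ) • x = x ^ k) :
    ZMod.castHom hdvd (ZMod m) (cycM M σ : ZMod M) = (k : ZMod m) := by
  obtain ⟨z, hz⟩ := HasEnoughRootsOfUnity.exists_primitiveRoot ℚb m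
  have hzM : z ^ M = 1 := by
    obtain ⟨d, rfl⟩ := hdvd
    rw [pow_mul, hz.pow_eq_one, one_pow]
  have h1 : σ z = z ^ (ZMod.castHom hdvd (ZMod m) (cycM M σ : ZMod M)).val := by
    rw [cycM_spec σ hzM, pow_val_cast hdvd hz.pow_eq_one]
  have hzA : z ∈ A := Galois.integralClosure_le A ⟨z, hz.isIntegral (NeZero.pos m)⟩
  let x : A := ⟨z, hzA⟩
  have hx : x ^ m = 1 := Subtype.ext (by simpa [x] using hz.pow_eq_one)
  have hσx : ((⟨σ, hσ⟩ : A.decompositionSubgroup ℚ) • x) ^ m = 1 := by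
    rw [← smul_pow', hx, smul_one]
  have hxk : (x ^ k) ^ m = 1 := by rw [← pow_mul, mul_comm, pow_mul, hx, one_pow]
  have e := congrArg Subtype.val (pow_eq_of_residue_eq hq hA hm hσx hxk
    (by rw [IsLocalRing.ResidueField.residue_smul, h, map_pow]))
  have e2 : z ^ (ZMod.castHom hdvd (ZMod m) (cycM M σ : ZMod M)).val = z ^ (k : ZMod m).val := by
    rw [← h1]
    refine e.trans ?_
    show z ^ k = _
    rw [ZMod.val_natCast, ← pow_eq_pow_mod k hz.pow_eq_one]
  exact ZMod.val_injective m (hz.pow_inj (ZMod.val_lt _) (ZMod.val_lt _) e2)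

theorem castHom_cycM_frobenius {q M m : ℕ} [NeZero M] [NeZero m] (hq : q.Prime) (hm : ¬ q ∣ m)
    (hdvd : m ∣ M) (hA : A.LiesOverPrime q) {σ : GQ} (hσ : A.IsFrobeniusAt σ q) :
    ZMod.castHom hdvd (ZMod m) (cycM M σ : ZMod M) = (q : ZMod m) :=
  castHom_cycM_of_residue hq hm hdvd hA hσ.mem_decompositionSubgroup q hσ.smul_residue_eq

theorem castHom_cycM_inertia {q M m : ℕ} [NeZero M] [NeZero m] (hq : q.Prime) (hm : ¬ q ∣ m)
    (hdvd : m ∣ M) (hA : A.LiesOverPrime q) {t : GQ} (ht : t ∈ A.inertiaSubgroupIn ℚ) :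
    ZMod.castHom hdvd (ZMod m) (cycM M t : ZMod M) = 1 := by
  obtain ⟨s, hs, rfl⟩ := ht
  have := castHom_cycM_of_residue hq hm hdvd hA s.2 1 fun x => by
    rw [pow_one]; exact RingEquiv.congr_fun (MonoidHom.mem_ker.mp hs) x
  simpa using this

theorem hasRed_add {f g : LaurentSeries ℚb} {F G : LaurentSeries (κ A)} (hf : HasRed A f F)
    (hg : HasRed A g G) : HasRed A (f + g) (F + G) := fun k => by
  obtain ⟨h1, e1⟩ := hf k
  obtain ⟨h2, e2⟩ := hg k
  refine ⟨by simpa using A.add_mem _ _ h1 h2, ?_⟩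
  simp only [HahnSeries.coeff_add, ← e1, ← e2, ← map_add]
  rfl

theorem hasRed_sum {ι : Type*} (s : Finset ι) {f : ι → LaurentSeries ℚb}
    {F : ι → LaurentSeries (κ A)} (h : ∀ i ∈ s, HasRed A (f i) (F i)) :
    HasRed A (∑ i ∈ s, f i) (∑ i ∈ s, F i) := by
  classical
  induction s using Finset.induction with
  | empty =>
    rw [Finset.sum_empty, Finset.sum_empty]
    exact fun k => ⟨A.zero_mem, map_zero _⟩
  | insert a s ha ih =>
    rw [Finset.sum_insert ha, Finset.sum_insert ha]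
    exact hasRed_add (h a (Finset.mem_insert_self a s))
      (ih fun i hi => h i (Finset.mem_insert_of_mem hi))

theorem hasRed_conj_inertia {t : GQ} (ht : t ∈ A.inertiaSubgroupIn ℚ) {f : LaurentSeries ℚb}
    {F : LaurentSeries (κ A)} (h : HasRed A f F) : HasRed A (seriesConj t f) F := by
  obtain ⟨s, hs, rfl⟩ := ht
  have h' := h.conj s.2 (ρ := RingHom.id _) fun x =>
    RingEquiv.congr_fun (MonoidHom.mem_ker.mp hs) x
  rwa [show lmap (RingHom.id (κ A)) F = F by ext; rfl] at h'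

/-! ## Fixed functions -/

variable {M : ℕ} [NeZero M]

/-- The function is fixed by inertia at `A`. -/
def InertiaFix (A : ValuationSubring (AlgebraicClosure ℚ)) (φ : MF M) : Prop :=
  ∀ t ∈ A.inertiaSubgroupIn ℚ, conjM (liftAut t) φ = φ

theorem serAlg_conjM_one (σ : ℂ ≃+* ℂ) (φ : MF M) :
    serAlg M (conjM σ φ) = lmap σ.toRingHom (serAlg M φ) := by
  have h := conjM_spec σ φ 1 1 (ConjEq.one_one _)
  rwa [shift_one, shift_one] at h

theorem inertiaFix_iff {φ : MF M} : InertiaFix A φ ↔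
    ∀ t ∈ A.inertiaSubgroupIn ℚ, lmap (liftAut t).toRingHom (serAlg M φ) = serAlg M φ :=
  forall₂_congr fun t _ => by
    rw [← serAlg_conjM_one, (serAlg_injective M).eq_iff]

theorem InertiaFix.mul {φ ψ : MF M} (h : InertiaFix A φ) (h' : InertiaFix A ψ) :
    InertiaFix A (φ * ψ) :=
  inertiaFix_iff.mpr fun t ht => by
    rw [map_mul, map_mul, inertiaFix_iff.mp h t ht, inertiaFix_iff.mp h' t ht]

theorem InertiaFix.pow {φ : MF M} (h : InertiaFix A φ) (k : ℕ) : InertiaFix A (φ ^ k) :=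
  inertiaFix_iff.mpr fun t ht => by rw [map_pow, map_pow, inertiaFix_iff.mp h t ht]

theorem InertiaFix.conj {σ : GQ} (hσ : σ ∈ A.decompositionSubgroup ℚ) {φ : MF M}
    (hφa : AlgMF φ) (h : InertiaFix A φ) : InertiaFix A (conjM (liftAut σ) φ) := by
  obtain ⟨a, ha⟩ := hφa
  refine inertiaFix_iff.mpr fun t ht => ?_
  rw [serAlg_conjM_one, ← ha, lmap_seriesToC (liftAut_spec σ), lmap_seriesToC (liftAut_spec t)]
  have h' := inertiaFix_iff.mp h _ (inertia_conj_mem hσ ht)
  rw [← ha, lmap_seriesToC (liftAut_spec _)] at h'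
  refine congrArg _ ?_
  ext k
  have hk := congrArg (fun f : LaurentSeries ℚb => σ (f.coeff k)) (seriesToC_injective h')
  simp only [seriesConj_eq_lmap, lmap_coeff] at hk ⊢
  simpa [AlgEquiv.mul_apply] using hk

theorem InertiaFix.wmf {q m : ℕ} [NeZero q] [NeZero m] {g : SL(2, ℤ)}
    (hg : g 1 0 = m ∧ g 1 1 = q) {φ : MF (q * m)} (hφi : Inv0 (q * m) (φ : ℍ → ℂ))
    (h : InertiaFix A φ) : InertiaFix A (WMF hg φ hφi) := fun t ht => by
  rw [conjM_WMF hg t φ hφi]
  exact Subtype.ext (by rw [coe_WMF, coe_WMF, h t ht])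

/-! ## Coefficients at the cusps -/

variable {q m : ℕ} [Fact q.Prime] [NeZero q] [NeZero m] (hA : A.LiesOverPrime q) (hqm : ¬ q ∣ m)

include hA hqm

/-- At a cusp `δ` with `q` dividing the product of the lower row, a fixed function has fixed
coefficients. -/
theorem fixed_series_at {φ : MF (q * m)} (hφi : Inv0 (q * m) (φ : ℍ → ℂ)) (hfix : InertiaFix A φ)
    {δ : SL(2, ℤ)} (hδ : (q : ℤ) ∣ δ 1 0 * δ 1 1) {a : LaurentSeries ℚb}
    (ha : seriesToC a = serAlg (q * m) (shift (q * m) δ φ)) :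
    ∀ t ∈ A.inertiaSubgroupIn ℚ, seriesConj t a = a := by
  intro t ht
  obtain ⟨δ', hδ'⟩ := exists_conjEq (cycM (q * m) t) δ
  refine seriesToC_injective ?_
  rw [serAlg_conjM t φ hδ' ha, hfix t ht, ha]
  congr 1
  refine Subtype.ext (funext fun τ => ?_)
  rw [shift_apply, shift_apply, show δ' • τ = (δ' * δ⁻¹) • (δ • τ) by
    rw [← mul_smul, inv_mul_cancel_right]]
  refine hφi _ (mem_gamma0_of_conj _ _ ?_) _
  obtain ⟨-, -, h10, h11⟩ := conjEq_iff.mp hδ'
  have h1 := castHom_cycM_inertia (M := q * m) (m := m) Fact.out hqm (dvd_mul_left m q) hA ht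
  rw [Nat.cast_mul]
  refine IsCoprime.mul_dvd (Nat.isCoprime_iff_coprime.mpr
    ((Fact.out : q.Prime).coprime_iff_not_dvd.mpr hqm)) ?_ ?_ <;>
    rw [← ZMod.intCast_zmod_eq_zero_iff_dvd]
  · have e10 := congrArg (ZMod.castHom (dvd_mul_right q m) (ZMod q)) h10
    have e11 := congrArg (ZMod.castHom (dvd_mul_right q m) (ZMod q)) h11
    rw [map_mul, map_intCast, map_intCast] at e10
    rw [map_intCast, map_intCast] at e11
    have h0 : (δ 1 0 : ZMod q) * (δ 1 1 : ZMod q) = 0 := by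
      rw [← Int.cast_mul, ZMod.intCast_zmod_eq_zero_iff_dvd]; exact hδ
    push_cast
    rw [e10, e11]
    linear_combination (ZMod.castHom (dvd_mul_right q m) (ZMod q)
      (((cycM (q * m) t)⁻¹ : (ZMod (q * m))ˣ) : ZMod (q * m)) - 1) * h0
  · have e10 := congrArg (ZMod.castHom (dvd_mul_left m q) (ZMod m)) h10
    have e11 := congrArg (ZMod.castHom (dvd_mul_left m q) (ZMod m)) h11
    have hinv : ZMod.castHom (dvd_mul_left m q) (ZMod m)
        (((cycM (q * m) t)⁻¹ : (ZMod (q * m))ˣ) : ZMod (q * m)) = 1 := by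
      have := congrArg (ZMod.castHom (dvd_mul_left m q) (ZMod m))
        (Units.inv_mul (cycM (q * m) t))
      rwa [map_mul, h1, mul_one, map_one] at this
    rw [map_mul, map_intCast, map_intCast, hinv, one_mul] at e10
    rw [map_intCast, map_intCast] at e11
    push_cast
    rw [e10, e11]
    ring

/-- Every nonzero fixed function has a normalisation at every cusp by a fixed constant. -/
theorem exists_fixed_scalar {φ : MF (q * m)} (hφi : Inv0 (q * m) (φ : ℍ → ℂ)) (hφa : AlgMF φ)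
    (hfix : InertiaFix A φ) (hφ0 : φ ≠ 0) (δ : SL(2, ℤ)) :
    ∃ (c : ℚb) (Φ : LaurentSeries (κ A)), c ≠ 0 ∧ FixedConst A c ∧ Φ ≠ 0 ∧
      RedAt A (q * m) (qbarToC c • (φ : ℍ → ℂ)) δ Φ := by
  obtain ⟨j, hj⟩ : ∃ j : ℤ, (q : ℤ) ∣ (δ * ModularGroup.T ^ j) 1 0 * (δ * ModularGroup.T ^ j) 1 1 := by
    by_cases hc : (δ 1 0 : ZMod q) = 0
    · refine ⟨0, dvd_mul_of_dvd_left ?_ _⟩
      rw [zpow_zero, mul_one]
      exact (ZMod.intCast_zmod_eq_zero_iff_dvd _ _).mp hc
    · obtain ⟨j, hj⟩ := ZMod.intCast_surjective (-(δ 1 1 : ZMod q) / (δ 1 0 : ZMod q))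
      refine ⟨j, dvd_mul_of_dvd_right ?_ _⟩
      rw [← ZMod.intCast_zmod_eq_zero_iff_dvd, Matrix.SpecialLinearGroup.coe_mul,
        ModularGroup.coe_T_zpow]
      simp [Matrix.mul_apply, Fin.sum_univ_two, hj]
      field_simp
      ring
  set δ₁ := δ * ModularGroup.T ^ j with hδ₁
  obtain ⟨a, ha⟩ := hφa.exists_series δ₁
  have ha0 : a ≠ 0 := fun h => hφ0 (by
    have h1 : shift (q * m) δ₁ φ = 0 := serAlg_injective _ (by
      rw [← ha, h, map_zero, seriesToC_eq_lmap, map_zero])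
    refine Subtype.ext (funext fun τ => ?_)
    have := congrFun (congrArg Subtype.val h1) (δ₁⁻¹ • τ)
    rwa [shift_apply, smul_inv_smul] at this)
  obtain ⟨c, hc0, hint, k, hk⟩ := exists_mf_normalisation Fact.out hA (shift (q * m) δ₁ φ) ha ha0
  rw [HahnSeries.C_mul_eq_smul, HahnSeries.coeff_smul, smul_eq_mul] at hk
  have hak : a.coeff k ≠ 0 := fun h0 => hk (by
    rw [h0, mul_zero]; exact A.mem_nonunits_iff.mpr (by simp))
  set c' := (a.coeff k)⁻¹
  obtain ⟨X, hX⟩ := exists_hasRed hint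
  have hkA : c * a.coeff k ∈ A := by
    have := (hX k).1
    rwa [HahnSeries.C_mul_eq_smul, HahnSeries.coeff_smul, smul_eq_mul] at this
  have hu : (c * a.coeff k)⁻¹ ∈ A := by
    rcases A.mem_or_inv_mem (c * a.coeff k) with h | h
    · refine (A.valuation_le_one_iff _).mp ?_
      have h1 : A.valuation (c * a.coeff k) = 1 := le_antisymm ((A.valuation_le_one_iff _).mpr hkA)
        (not_lt.mp fun hlt => hk (A.mem_nonunits_iff.mpr hlt))
      rw [map_inv₀, h1, inv_one]
    · exact h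
  have hred := (hasRed_C hu).mul hX
  have e : HahnSeries.C (c * a.coeff k)⁻¹ * (HahnSeries.C c * a) = HahnSeries.C c' * a := by
    rw [← mul_assoc, ← map_mul, mul_inv, mul_comm c⁻¹, mul_assoc, inv_mul_cancel₀ hc0, mul_one]
  rw [e] at hred
  have hQ : RedAt A (q * m) (qbarToC c' • (φ : ℍ → ℂ)) δ₁ _ :=
    ⟨_, seriesToC_smul (ha ▸ hasQSeries_shift φ δ₁) c', hred⟩
  have hne : (HahnSeries.C c' * a).coeff k ∉ A.nonunits := by
    rw [HahnSeries.C_mul_eq_smul, HahnSeries.coeff_smul, smul_eq_mul, inv_mul_cancel₀ hak]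
    exact fun h => by simp [ValuationSubring.mem_nonunits_iff] at h
  obtain ⟨u, hu'⟩ := exists_redAt_T A (q * m) (-j)
  refine ⟨c', _, inv_ne_zero hak, FixedConst.inv fun t ht => ?_, ?_,
    (show δ₁ * ModularGroup.T ^ (-j) = δ by rw [hδ₁, zpow_neg, mul_inv_cancel_right]) ▸ hu' _ _ _ hQ⟩
  · have := fixed_series_at hA hqm hφi hfix hj ha t ht
    have h2 := congrArg (fun f : LaurentSeries ℚb => f.coeff k) this
    simp only [seriesConj_eq_lmap, lmap_coeff] at h2
    exact h2
  · exact fun h => ne_zero_of_hasRed hred hne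
      ((twist u).injective (h.trans (map_zero _).symm))

omit [Fact q.Prime] [NeZero q] [NeZero m] hqm in
/-- A root of a fixed function, with a reduction at infinity up to a fixed constant, is fixed. -/
theorem inertiaFix_of_pow (hq : q.Prime) {n : ℕ} (hn : ¬ q ∣ n) {k : MF M} (hka : AlgMF k)
    (h : InertiaFix A (k ^ n)) {c : ℚb} (hc : FixedConst A c) (hc0 : c ≠ 0)
    {K : LaurentSeries (κ A)} (hK0 : K ≠ 0) (hK : RedAt A M (qbarToC c • (k : ℍ → ℂ)) 1 K) :
    InertiaFix A k := by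
  obtain ⟨a, ha⟩ := hka
  have haQ : HasQSeries M (fun τ => (k : ℍ → ℂ) ((1 : SL(2, ℤ)) • τ)) (seriesToC a) := by
    have := hasQSeries_shift k 1
    rwa [shift_one, ← ha] at this
  obtain ⟨b, hb, rb⟩ := hK
  obtain rfl : b = HahnSeries.C c * a :=
    seriesToC_injective (hb.unique (NeZero.pos M) (seriesToC_smul haQ c))
  refine inertiaFix_iff.mpr fun t ht => ?_
  rw [← ha, lmap_seriesToC (liftAut_spec t)]
  refine congrArg _ ?_
  set b := HahnSeries.C c * a
  have hbn : seriesConj t b ^ n = b ^ n := by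
    have h1 := inertiaFix_iff.mp h t ht
    rw [map_pow, ← ha, map_pow, lmap_seriesToC (liftAut_spec t), seriesToC_eq_lmap,
      seriesToC_eq_lmap, ← map_pow, ← map_pow] at h1
    have h2 := lmap_injective qbarToC_injective h1
    simp only [seriesConj_eq_lmap] at h2 ⊢
    rw [map_mul, lmap_C, mul_pow, mul_pow, h2]
    congr 3
    exact hc t ht
  set s := ∑ i ∈ Finset.range n, seriesConj t b ^ i * b ^ (n - 1 - i)
  have hs : HasRed A s ((n : LaurentSeries (κ A)) * K ^ (n - 1)) := by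
    have hterm : ∀ i ∈ Finset.range n,
        HasRed A (seriesConj t b ^ i * b ^ (n - 1 - i)) (K ^ (n - 1)) := fun i hi => by
      have h1 := ((hasRed_conj_inertia ht rb).pow i).mul (rb.pow (n - 1 - i))
      rwa [← pow_add, Nat.add_sub_cancel' (by have := Finset.mem_range.mp hi; omega)] at h1
    have hh := hasRed_sum (Finset.range n) hterm
    rwa [Finset.sum_const, Finset.card_range, nsmul_eq_mul] at hh
  have hs0 : s ≠ 0 := fun h0 => by
    rw [h0] at hs
    have h1 := hasRed_unique hs (fun i => ⟨A.zero_mem, map_zero _⟩ : HasRed A 0 0)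
    haveI := charP_residue hq hA
    haveI := Fact.mk hq
    rcases mul_eq_zero.mp h1 with h2 | h2
    · have : (n : κ A) = 0 := by
        have := congrArg (fun f : LaurentSeries (κ A) => f.coeff 0) h2
        rwa [← map_natCast (HahnSeries.C : κ A →+* LaurentSeries (κ A)), HahnSeries.C_apply,
          HahnSeries.coeff_single_same, HahnSeries.coeff_zero] at this
      exact hn ((CharP.cast_eq_zero_iff (κ A) q n).mp this)
    · exact hK0 (pow_eq_zero_iff'.mp h2).1
  have key : (seriesConj t b - b) * s = 0 := by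
    rw [mul_comm]
    show (∑ i ∈ Finset.range n, seriesConj t b ^ i * b ^ (n - 1 - i)) * _ = 0
    rw [geom_sum₂_mul, hbn, sub_self]
  have hfix := sub_eq_zero.mp ((mul_eq_zero.mp key).resolve_right hs0)
  simp only [b, seriesConj_eq_lmap, map_mul, lmap_C] at hfix ⊢
  rw [show t.toRingEquiv.toRingHom c = c from hc t ht] at hfix
  exact mul_left_cancel₀ (by simp [hc0]) hfix

end Fermat.Agent.GalRep.Semistable
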