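/-
The square of Frobenius on a function whose `U_q + W` is a power: on every component it is
congruent to a power times the function.
-/
import Fermat.Agent.GalRep.Semistable.Inertia

set_option autoImplicit false

noncomputable section

namespace Fermat.Agent.GalRep.Semistable

open UpperHalfPlane CongruenceSubgroup
open Fermat.Agent.Galois (GQ)
open Fermat.Agent.GalRep.Level
open Fermat.Agent.ModField (conjM conjM_spec conjM_eq)
open scoped MatrixGroups Manifold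

local notation "ℚb" => AlgebraicClosure ℚ
local notation "κ" A:max => IsLocalRing.ResidueField A

theorem conjEq_dvd_iff {q m : ℕ} [NeZero (q * m)] {a : (ZMod (q * m))ˣ} {δ δ' : SL(2, ℤ)}
    (h : ConjEq (q * m) a δ δ') : (q : ℤ) ∣ δ 1 0 ↔ (q : ℤ) ∣ δ' 1 0 := by
  have key : ∀ {a : (ZMod (q * m))ˣ} {δ δ' : SL(2, ℤ)}, ConjEq (q * m) a δ δ' →
      (q : ℤ) ∣ δ 1 0 → (q : ℤ) ∣ δ' 1 0 := by
    intro a δ δ' h hd
    rw [← ZMod.intCast_zmod_eq_zero_iff_dvd] at hd ⊢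
    have := congrArg (ZMod.castHom (dvd_mul_right q m) (ZMod q)) (conjEq_iff.mp h).2.2.1
    rw [map_intCast, map_mul, map_intCast, hd, mul_zero] at this
    exact this
  exact ⟨key h, key h.symm⟩

theorem coe_conjM_pow {M : ℕ} [NeZero M] (s : GQ) (φ : MF M) (k : ℕ) :
    conjM (liftAut s) (φ ^ k) = conjM (liftAut s) φ ^ k := by
  refine conjM_eq ?_
  induction k with
  | zero => rw [pow_zero, pow_zero]; exact Fermat.Agent.ModField.ConjF.one _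
  | succ k ih => rw [pow_succ, pow_succ]; exact ih.mul (conjM_spec _ _)

/-! ## Constants -/

section Cst

variable {M : ℕ} [NeZero M]

/-- An algebraic constant as a function of level `Γ(M)`. -/
def cMF (M : ℕ) (r : ℚb) : MF M := algebraMap ℂ (MF M) (qbarToC r)

theorem coe_cMF_mul (r : ℚb) (φ : MF M) :
    ((cMF M r * φ : MF M) : ℍ → ℂ) = qbarToC r • (φ : ℍ → ℂ) := rfl

theorem algMF_cMF (r : ℚb) : AlgMF (cMF M r) :=
  ⟨HahnSeries.C r, by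
    rw [seriesToC_eq_lmap, lmap_C, cMF, AlgHom.commutes]
    simp [HahnSeries.algebraMap_apply']⟩

theorem cMF_ne_zero {r : ℚb} (hr : r ≠ 0) : cMF M r ≠ 0 := fun h => by
  have := congrArg (serAlg M) h
  rw [cMF, AlgHom.commutes, map_zero] at this
  simp [HahnSeries.algebraMap_apply', hr] at this

theorem conjM_cMF_mul (s : GQ) (r : ℚb) (φ : MF M) :
    conjM (liftAut s) (cMF M r * φ) = cMF M (s r) * conjM (liftAut s) φ := by
  refine conjM_eq (Level.ConjF.mul ?_ (conjM_spec _ _))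
  intro g g' _
  simp only [cMF, AlgHom.commutes]
  ext k
  simp [HahnSeries.algebraMap_apply', HahnSeries.C_apply, HahnSeries.coeff_single,
    apply_ite (liftAut s), liftAut_spec]

theorem inertiaFix_cMF_mul {A : ValuationSubring (AlgebraicClosure ℚ)} {r : ℚb} {φ : MF M}
    (hr : FixedConst A r) (h : InertiaFix A φ) : InertiaFix A (cMF M r * φ) := fun t ht => by
  rw [conjM_cMF_mul, hr t ht, h t ht]

theorem inv0_cMF_mul {N : ℕ} (r : ℚb) {φ : MF M} (h : Inv0 N (φ : ℍ → ℂ)) :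
    Inv0 N ((cMF M r * φ : MF M) : ℍ → ℂ) := fun γ hγ τ => by
  rw [coe_cMF_mul, Pi.smul_apply, Pi.smul_apply, h γ hγ τ]

theorem coe_cMF_mul_pow (r : ℚb) (φ : MF M) (n : ℕ) :
    ((cMF M r * φ : MF M) : ℍ → ℂ) ^ n = qbarToC (r ^ n) • (φ : ℍ → ℂ) ^ n := by
  rw [coe_cMF_mul, smul_pow, map_pow]

theorem Uf_smul (q m : ℕ) [NeZero q] (c : ℂ) (F : ℍ → ℂ) :
    Uf q m (c • F) = c ^ q • Uf q m F := by
  funext τ
  simp [Uf, Finset.prod_apply, Finset.prod_mul_distrib]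

/-- Up to the `n`-th power of a constant, the series at every cusp have nonzero reductions. -/
def HasPowRed (A : ValuationSubring ℚb) (n : ℕ) (φ : MF M) : Prop :=
  ∀ δ : SL(2, ℤ), ∃ (r : ℚb) (Φ : LaurentSeries (κ A)), r ≠ 0 ∧ FixedConst A r ∧ Φ ≠ 0 ∧
    RedAt A M ((cMF M (r ^ n) * φ : MF M) : ℍ → ℂ) δ Φ

end Cst

variable {q m : ℕ} [Fact q.Prime] [NeZero q] [NeZero m]
variable {A : ValuationSubring (AlgebraicClosure ℚ)} [CharP (κ A) q]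

section

variable (hA : A.LiesOverPrime q) (hqm : ¬ q ∣ m) {σ : GQ} (hσ : A.IsFrobeniusAt σ q)
  (hqa : ZMod.castHom (dvd_mul_left m q) (ZMod m) (cycM (q * m) σ : ZMod (q * m)) = (q : ZMod m))
  {n : ℕ} (hn : n ≠ 0)

include hA hqm hσ hqa hn

/-- The congruence on the component of `∞`. -/
theorem exists_congr_gamma0 {φ ψ k k2 : MF (q * m)} (hφi : Inv0 (q * m) (φ : ℍ → ℂ))
    (hψi : Inv0 (q * m) (ψ : ℍ → ℂ)) (hki : Inv0 (q * m) (k : ℍ → ℂ))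
    (hk2i : Inv0 (q * m) (k2 : ℍ → ℂ)) (hφa : AlgMF φ) (hψa : AlgMF ψ) (hka : AlgMF k)
    (hk2a : AlgMF k2) (hk : (k : ℍ → ℂ) ^ n = Uf q m φ * (ψ : ℍ → ℂ))
    (hk2 : (k2 : ℍ → ℂ) ^ n = Uf q m ψ * (φ : ℍ → ℂ))
    (hφr : HasPowRed A n φ) (hψr : HasPowRed A n ψ) (hkf : InertiaFix A k)
    (hk2f : InertiaFix A k2) {δ : SL(2, ℤ)} (hδ : (q : ℤ) ∣ δ 1 0) :
    ∃ (a b : MF (q * m)) (Ψ : LaurentSeries (κ A)), Inv0 (q * m) (a : ℍ → ℂ) ∧
      Inv0 (q * m) (b : ℍ → ℂ) ∧ AlgMF a ∧ AlgMF b ∧ InertiaFix A a ∧ InertiaFix A b ∧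
      Ψ ≠ 0 ∧
      RedAt A (q * m) ((conjM (liftAut σ) (conjM (liftAut σ) φ) : MF (q * m)) * (a : ℍ → ℂ) ^ n)
        δ Ψ ∧
      RedAt A (q * m) ((φ : ℍ → ℂ) * (b : ℍ → ℂ) ^ n) δ Ψ := by
  have hq : q.Prime := Fact.out
  have hdec := hσ.mem_decompositionSubgroup
  set Fr := lmap (frobenius (κ A) q) with hFr
  have hFr0 : ∀ {X : LaurentSeries (κ A)}, X ≠ 0 → Fr X ≠ 0 := fun hX h =>
    hX (lmap_injective (φ := frobenius (κ A) q) (frobenius_inj _ q) (h.trans (map_zero _).symm))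
  obtain ⟨δ', hδ'⟩ := exists_conjEq_symm (cycM (q * m) σ) δ
  obtain ⟨δ'', hδ''⟩ := exists_conjEq_symm (cycM (q * m) σ) δ'
  have hd' := (conjEq_dvd_iff hδ').mpr hδ
  have hd'' := (conjEq_dvd_iff hδ'').mpr hd'
  obtain ⟨r'', X, -, hr'', hX0, hX⟩ := hφr δ''
  obtain ⟨r', Y, -, hr', hY0, hY⟩ := hψr δ'
  obtain ⟨r, Z, -, hr, hZ0, hZ⟩ := hφr δ
  obtain ⟨h1, h2⟩ := exists_redAt_conj_Uf hqm hσ hqa (inv0_cMF_mul _ hφi)
    ((algMF_cMF _).mul hφa) hd'' hδ'' hX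
  obtain ⟨-, h4⟩ := exists_redAt_conj_Uf hqm hσ hqa (inv0_cMF_mul _ hψi)
    ((algMF_cMF _).mul hψa) hd' hδ' hY
  set k1 := cMF (q * m) (r'' ^ q * r') * k with hk1
  set k21 := cMF (q * m) (r' ^ q * r) * k2 with hk21
  have hk1n : (k1 : ℍ → ℂ) ^ n = Uf q m (cMF (q * m) (r'' ^ n) * φ : MF (q * m)) *
      ((cMF (q * m) (r' ^ n) * ψ : MF (q * m)) : ℍ → ℂ) := by
    rw [hk1, coe_cMF_mul_pow, coe_cMF_mul, coe_cMF_mul, Uf_smul, hk, smul_mul_smul_comm]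
    congr 1
    simp only [map_pow, map_mul]; ring
  have hk21n : (k21 : ℍ → ℂ) ^ n = Uf q m (cMF (q * m) (r' ^ n) * ψ : MF (q * m)) *
      ((cMF (q * m) (r ^ n) * φ : MF (q * m)) : ℍ → ℂ) := by
    rw [hk21, coe_cMF_mul_pow, coe_cMF_mul, coe_cMF_mul, Uf_smul, hk2, smul_mul_smul_comm]
    congr 1
    simp only [map_pow, map_mul]; ring
  have hk1a : AlgMF k1 := (algMF_cMF _).mul hka
  obtain ⟨K, -, hKn, hK⟩ := RedAt.root hq hA hk1a hn (hk1n ▸ h2.mul hY)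
    (mul_ne_zero (hFr0 hX0) hY0)
  have hk2n : RedAt A (q * m) ((k21 : ℍ → ℂ) ^ n) δ (Fr Y * Z) := hk21n ▸ h4.mul hZ
  have hσk := hK.conj hσ k1 hδ'
  have hleft := (h1.conj hσ (conjM (liftAut σ) (cMF (q * m) (r'' ^ n) * φ)) hδ').mul hk2n
  have hright := hZ.mul (hσk.pow n)
  refine ⟨cMF (q * m) (σ (σ r'')) * k21, cMF (q * m) r * conjM (liftAut σ) k1,
    Fr (Fr X) * (Fr Y * Z), inv0_cMF_mul _ (inv0_cMF_mul _ hk2i),
    inv0_cMF_mul _ (inv0_conjM (inv0_cMF_mul _ hki) σ), (algMF_cMF _).mul ((algMF_cMF _).mul hk2a),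
    (algMF_cMF _).mul (hk1a.conj σ),
    inertiaFix_cMF_mul ((hr''.apply hdec).apply hdec)
      (inertiaFix_cMF_mul ((hr'.pow q).mul hr) hk2f),
    inertiaFix_cMF_mul hr (InertiaFix.conj hdec hk1a
      (inertiaFix_cMF_mul ((hr''.pow q).mul hr') hkf)), mul_ne_zero (hFr0 (hFr0 hX0)) (mul_ne_zero (hFr0 hY0) hZ0),
    hleft.congr ?_, ?_⟩
  · rw [coe_cMF_mul_pow (σ (σ r'')), conjM_cMF_mul, conjM_cMF_mul, coe_cMF_mul, smul_mul_assoc,
      mul_smul_comm]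
    congr 1
    rw [map_pow σ, map_pow σ]
  · have e : Fr (Fr X) * (Fr Y * Z) = Z * Fr K ^ n := by
      rw [← map_pow, hKn, map_mul]; ring
    rw [e]
    refine hright.congr ?_
    rw [coe_cMF_mul_pow r, coe_cMF_mul, smul_mul_assoc, mul_smul_comm]

/-- The congruence on every component. -/
theorem exists_congr {g : SL(2, ℤ)} (hg : g 1 0 = m ∧ g 1 1 = q) {φ ψ k k2 : MF (q * m)}
    (hφi : Inv0 (q * m) (φ : ℍ → ℂ)) (hψ : (ψ : ℍ → ℂ) = Wf q g φ)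
    (hki : Inv0 (q * m) (k : ℍ → ℂ)) (hk2i : Inv0 (q * m) (k2 : ℍ → ℂ))
    (hφa : AlgMF φ) (hka : AlgMF k) (hk2a : AlgMF k2)
    (hk : (k : ℍ → ℂ) ^ n = Uf q m φ * (ψ : ℍ → ℂ))
    (hk2 : (k2 : ℍ → ℂ) ^ n = Uf q m ψ * (φ : ℍ → ℂ))
    (hφr : HasPowRed A n φ) (hψr : HasPowRed A n ψ) (hkf : InertiaFix A k)
    (hk2f : InertiaFix A k2) (δ : SL(2, ℤ)) :
    ∃ (a b : MF (q * m)) (Ψ : LaurentSeries (κ A)), Inv0 (q * m) (a : ℍ → ℂ) ∧
      Inv0 (q * m) (b : ℍ → ℂ) ∧ AlgMF a ∧ AlgMF b ∧ InertiaFix A a ∧ InertiaFix A b ∧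
      Ψ ≠ 0 ∧
      RedAt A (q * m) ((conjM (liftAut σ) (conjM (liftAut σ) φ) : MF (q * m)) * (a : ℍ → ℂ) ^ n)
        δ Ψ ∧
      RedAt A (q * m) ((φ : ℍ → ℂ) * (b : ℍ → ℂ) ^ n) δ Ψ := by
  have hq : q.Prime := Fact.out
  have hψi : Inv0 (q * m) (ψ : ℍ → ℂ) := hψ ▸ inv0_Wf hg hφi
  have hψW : ψ = WMF hg φ hφi := Subtype.ext hψ
  have hψa : AlgMF ψ := hψW ▸ algMF_WMF hg hφi hφa
  by_cases hδ : (q : ℤ) ∣ δ 1 0
  · exact exists_congr_gamma0 hA hqm hσ hqa hn hφi hψi hki hk2i hφa hψa hka hk2a hk hk2 hφr hψr hkf hk2f hδ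
  -- move to the component of `0`
  have hc0 : (δ 1 0 : ZMod q) ≠ 0 := fun h => hδ ((ZMod.intCast_zmod_eq_zero_iff_dvd _ _).mp h)
  obtain ⟨j, hj⟩ := ZMod.intCast_surjective (-(δ 1 1 : ZMod q) / (δ 1 0 : ZMod q))
  set δ₁ : SL(2, ℤ) := δ * ModularGroup.T ^ j with hδ₁
  have hd₁ : (q : ℤ) ∣ δ₁ 1 1 := by
    rw [← ZMod.intCast_zmod_eq_zero_iff_dvd, hδ₁, Matrix.SpecialLinearGroup.coe_mul,
      ModularGroup.coe_T_zpow]
    simp [Matrix.mul_apply, Fin.sum_univ_two, hj]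
    field_simp
    ring
  obtain ⟨η, hη, hpull⟩ := exists_pull hg.2 hd₁
  have hWψ : (φ : ℍ → ℂ) = Wf q g ψ := by rw [hψ, Wf_Wf hg hφi]
  obtain ⟨a', b', Ψ, ha'i, hb'i, ha'a, hb'a, ha'f, hb'f, hΨ0, hleft, hright⟩ :=
    exists_congr_gamma0 hA hqm hσ hqa hn hψi hφi hk2i hki hψa hφa hk2a hka hk2 hk hψr hφr hk2f hkf hη
  set a : MF (q * m) := WMF hg a' ha'i
  set b : MF (q * m) := WMF hg b' hb'i
  set S := conjM (liftAut σ) (conjM (liftAut σ) φ)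
  have hSi : Inv0 (q * m) (S : ℍ → ℂ) := inv0_conjM (inv0_conjM hφi σ) σ
  have hWa : Wf q g a = a' := by rw [coe_WMF, Wf_Wf hg ha'i]
  have hWb : Wf q g b = b' := by rw [coe_WMF, Wf_Wf hg hb'i]
  have hWS : Wf q g S = (conjM (liftAut σ) (conjM (liftAut σ) ψ) : MF (q * m)) := by
    rw [hψW, conjM_WMF hg σ φ hφi, conjM_WMF hg σ _ (inv0_conjM hφi σ), coe_WMF]
  -- reductions pulled back along `q τ`
  have pull : ∀ (F : MF (q * m)) (P : LaurentSeries (κ A)), AlgMF F →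
      RedAt A (q * m) (Wf q g F) η P →
      ∃ Q, P = expand q (NeZero.ne q) Q ∧ RedAt A (q * m) F δ₁ Q := by
    intro F P hF hP
    obtain ⟨c, hc⟩ := hF.hasQSeries δ₁
    obtain ⟨d, hd, rd⟩ := hP
    obtain rfl : d = expand q (NeZero.ne q) c := seriesToC_injective (by
      rw [seriesToC_eq_lmap (expand _ _ _), lmap_expand]
      refine hd.unique (NeZero.pos _) ((hasQSeries_dq (NeZero.pos _) hc).congr
        (.of_forall fun τ => ?_))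
      show (F : ℍ → ℂ) (δ₁ • dq q τ) = (F : ℍ → ℂ) (g • dq q (η • τ))
      rw [hpull])
    obtain ⟨Q, hQ, rfl⟩ := exists_hasRed_of_expand (NeZero.ne q) rd
    exact ⟨Q, rfl, c, hc, hQ⟩
  have hSa : AlgMF S := (hφa.conj σ).conj σ
  obtain ⟨Q, rfl, hQ⟩ := pull (S * a ^ n) Ψ (hSa.mul ((algMF_WMF hg ha'i ha'a).pow n)) (by
    show RedAt A (q * m) (Wf q g ((S : ℍ → ℂ) * (a : ℍ → ℂ) ^ n)) η Ψ
    rw [Wf_mul, Wf_pow, hWS, hWa]; exact hleft)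
  obtain ⟨Q', hQ', hQ'r⟩ := pull (φ * b ^ n) _ (hφa.mul ((algMF_WMF hg hb'i hb'a).pow n)) (by
    show RedAt A (q * m) (Wf q g ((φ : ℍ → ℂ) * (b : ℍ → ℂ) ^ n)) η _
    rw [Wf_mul, Wf_pow, ← hψ, hWb]; exact hright)
  obtain rfl := expand_inj (NeZero.ne q) hQ'
  obtain ⟨u, hu⟩ := exists_redAt_T A (q * m) (-j)
  have hback : δ₁ * ModularGroup.T ^ (-j) = δ := by rw [hδ₁, zpow_neg, mul_inv_cancel_right]
  have htw : ∀ {X : LaurentSeries (κ A)}, X ≠ 0 → twist u X ≠ 0 := fun hX h =>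
    hX ((twist u).injective (h.trans (map_zero _).symm))
  have hne : ∀ {X : LaurentSeries (κ A)}, expand q (NeZero.ne q) X ≠ 0 → X ≠ 0 := fun hX h =>
    hX (by rw [h, map_zero])
  exact ⟨a, b, twist u Q, by rw [coe_WMF]; exact inv0_Wf hg ha'i,
    by rw [coe_WMF]; exact inv0_Wf hg hb'i, algMF_WMF hg ha'i ha'a, algMF_WMF hg hb'i hb'a,
    ha'f.wmf hg ha'i, hb'f.wmf hg hb'i,
    htw (hne hΨ0), hback ▸ hu _ _ _ hQ, hback ▸ hu _ _ _ hQ'r⟩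

end

end Fermat.Agent.GalRep.Semistable
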