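/-
The norm from `Γ₀(qm)` to `Γ₀(m)` of functions: algebraicity, inertia, roots; orders of the
Atkin-Lehner translate.
-/
import Fermat.Agent.GalRep.Semistable.Cores
import Fermat.Agent.GalRep.Semistable.BadCongr

set_option autoImplicit false
set_option linter.style.haveILetI false
set_option linter.unusedSectionVars false

noncomputable section

namespace Fermat.Agent.GalRep.Semistable

open UpperHalfPlane CongruenceSubgroup
open Fermat.Agent.Galois (GQ)
open Fermat.Agent.GalRep.Level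
open Fermat.Agent.ModField (conjM conjM_spec conjM_eq)
open scoped MatrixGroups

local notation "ℚb" => AlgebraicClosure ℚ
local notation "κ" A:max => IsLocalRing.ResidueField A

/-- The product of a finite family of functions is conjugated factorwise. -/
theorem conjM_prod {M : ℕ} [NeZero M] (σ : ℂ ≃+* ℂ) {ι : Type*} (s : Finset ι) (f : ι → MF M) :
    conjM σ (∏ i ∈ s, f i) = ∏ i ∈ s, conjM σ (f i) := by
  classical
  refine conjM_eq ?_
  induction s using Finset.induction_on with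
  | empty => rw [Finset.prod_empty, Finset.prod_empty]; exact Fermat.Agent.ModField.ConjF.one σ
  | insert a s ha ih =>
    rw [Finset.prod_insert ha, Finset.prod_insert ha]
    exact (conjM_spec σ (f a)).mul ih

variable {q m : ℕ} [Fact q.Prime] [NeZero q] [NeZero m]

/-- The norm to level `Γ₀(m)`. -/
def normM (g : SL(2, ℤ)) (φ : MF (q * m)) : MF (q * m) :=
  ∏ i : Option (Fin q), shift (q * m) (cosR q m g i) φ

omit [Fact q.Prime] in
theorem coe_normM (g : SL(2, ℤ)) (φ : MF (q * m)) :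
    (normM g φ : ℍ → ℂ) = (φ : ℍ → ℂ) * Uf q m (Wf q g φ) := by
  funext τ
  rw [normM, Uf_Wf, Fintype.prod_option, MulMemClass.coe_mul, Pi.mul_apply,
    SubmonoidClass.coe_finsetProd, Finset.prod_apply, Pi.mul_apply, Finset.prod_apply, shift_apply]
  congr 1
  · simp [cosR]

variable {g : SL(2, ℤ)} (hg : g 1 0 = m ∧ g 1 1 = q) (hqm : ¬ q ∣ m)

include hg hqm

/-- Conjugation commutes with the norm. -/
theorem conjM_normM {φ : MF (q * m)} (hφi : Inv0 (q * m) (φ : ℍ → ℂ)) {σ : ℂ ≃+* ℂ}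
    (hσ : conjM σ φ = φ) : conjM σ (normM g φ) = normM g φ := by
  classical
  choose c' hc' using fun i => exists_conjEq (cycC (q * m) σ) (cosR q m g i)
  have hm : ∀ i, c' i ∈ Gamma0 m := fun i => by
    have h1 := ((isLevel_gamma0 m).of_dvd (dvd_mul_left m q)).conj_iff (hc' i)
    exact h1.mp (cosR_mem hg i)
  choose p hp using fun i => exists_cosR hg hqm (hm i)
  have hpinj : Function.Injective p := fun i j hij => by
    refine cosR_inj hg hqm (((isLevel_gamma0 (q * m)).conj_iff ((hc' i).mul (hc' j).inv)).mpr ?_)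
    have := mul_mem (hp i) (inv_mem (hp j))
    rwa [hij, mul_inv_rev, inv_inv, mul_assoc, inv_mul_cancel_left] at this
  have hshift : ∀ i, conjM σ (shift (q * m) (cosR q m g i) φ) = shift (q * m) (cosR q m g (p i)) φ :=
    fun i => by
    have h1 := Fermat.Agent.ModField.ConjF.shift' (conjM_spec σ φ) (hc' i)
    rw [conjM_eq h1, hσ]
    refine Subtype.ext (funext fun τ => ?_)
    rw [shift_apply, shift_apply, ← inv_mul_cancel_right (c' i) (cosR q m g (p i)), mul_smul,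
      hφi _ (hp i)]
  rw [normM, conjM_prod]
  simp only [hshift]
  exact Fintype.prod_bijective p (Finite.injective_iff_bijective.mp hpinj) _ _ fun i => rfl

theorem algMF_normM {φ : MF (q * m)} (hφi : Inv0 (q * m) (φ : ℍ → ℂ)) (ha : AlgMF φ) :
    AlgMF (normM g φ) := by
  obtain ⟨a, ha⟩ := ha
  refine exists_seriesToC_eq fun k => isAlgebraic_of_fixed fun σ hσ => ?_
  have h := conjM_normM hg hqm hφi (σ := σ) (serAlg_injective _ (by
    rw [serAlg_conjM_one, ← ha]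
    ext i
    exact hσ _))
  have h2 := congrArg (fun f => (serAlg (q * m) f).coeff k) h
  simp only [serAlg_conjM_one, lmap_coeff] at h2
  exact h2

theorem inertiaFix_normM {A : ValuationSubring ℚb} {φ : MF (q * m)}
    (hφi : Inv0 (q * m) (φ : ℍ → ℂ)) (hf : InertiaFix A φ) : InertiaFix A (normM g φ) :=
  fun t ht => conjM_normM hg hqm hφi (hf t ht)

omit hg hqm in
/-- A root of an algebraic function is algebraic. -/
theorem algMF_of_pow {M : ℕ} [NeZero M] {k : MF M} {n : ℕ} (hn : n ≠ 0) (h : AlgMF (k ^ n)) :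
    AlgMF k := by
  haveI : NeZero n := ⟨hn⟩
  obtain ⟨a, ha⟩ := h
  by_cases hk : serAlg M k = 0
  · exact ⟨0, by rw [hk, seriesToC_eq_lmap, map_zero]⟩
  refine exists_seriesToC_eq fun i => ?_
  have horb : ∀ σ : ℂ ≃+* ℂ, (∀ y, σ (qbarToC y) = qbarToC y) → ∃ ω : ℂ, ω ^ n = 1 ∧
      σ ((serAlg M k).coeff i) = ω * (serAlg M k).coeff i := by
    intro σ hσ
    obtain ⟨ω, hω, he⟩ := exists_root_unity_of_pow_eq (n := n) (a := lmap σ.toRingHom (serAlg M k))
      hk (by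
        rw [← map_pow, ← map_pow, ← ha]
        ext j
        exact hσ _)
    refine ⟨ω, hω, ?_⟩
    have := congrArg (fun f : LaurentSeries ℂ => f.coeff i) he
    simp only [lmap_coeff, HahnSeries.C_mul_eq_smul, HahnSeries.coeff_smul, smul_eq_mul] at this
    exact this
  have hxn : IsAlgebraic ℚ (((serAlg M k).coeff i) ^ n) := isAlgebraic_of_fixed fun σ hσ => by
    obtain ⟨ω, hω, he⟩ := horb σ hσ
    rw [map_pow, he, mul_pow, hω, one_mul]
  exact isAlgebraic_iff_isIntegral.mpr (IsIntegral.of_pow (Nat.pos_of_ne_zero hn)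
    (isAlgebraic_iff_isIntegral.mp hxn))

variable {A : ValuationSubring ℚb} [CharP (κ A) q] {n : ℕ}

/-- The orders of the Atkin-Lehner translate are multiples of `n` too. -/
theorem hasPowRed_wmf {φ : MF (q * m)} (hφi : Inv0 (q * m) (φ : ℍ → ℂ)) (hφa : AlgMF φ)
    (h : HasPowRed A n φ) : HasPowRed A n (WMF hg φ hφi) := by
  intro δ
  by_cases hδ : (q : ℤ) ∣ δ 1 0
  · obtain ⟨c, hc⟩ := hδ
    let e : SL(2, ℤ) := ⟨!![δ 0 0, (q : ℤ) * δ 0 1; c, δ 1 1], by
      rw [Matrix.det_fin_two_of]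
      linear_combination det_entries δ + δ 0 1 * hc⟩
    have he : ∀ τ : ℍ, dq q (δ • τ) = e • dq q τ :=
      dq_smul (e := e) (by simp [e]) (by simp [e]) (by simp [e, hc]) (by simp [e])
    obtain ⟨r, Φ, hr0, hrf, hΦ, a, ha, ra⟩ := h (g * e)
    refine ⟨r, expand q (NeZero.ne q) Φ, hr0, hrf, fun h0 => hΦ ?_, expand q (NeZero.ne q) a, ?_,
      ra.expand q (NeZero.ne q)⟩
    · exact (expand q (NeZero.ne q)).injective (h0.trans (map_zero _).symm)
    · rw [seriesToC_eq_lmap, lmap_expand]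
      refine (hasQSeries_dq (NeZero.pos _) ha).congr (.of_forall fun τ => ?_)
      rw [coe_cMF_mul, coe_cMF_mul, Pi.smul_apply, Pi.smul_apply, coe_WMF]
      show _ = qbarToC _ • (φ : ℍ → ℂ) (g • dq q (δ • τ))
      rw [he, mul_smul]
  -- the component of `0`
  have hc0 : (δ 1 0 : ZMod q) ≠ 0 := fun h => hδ ((ZMod.intCast_zmod_eq_zero_iff_dvd _ _).mp h)
  obtain ⟨j, hj⟩ := ZMod.intCast_surjective (-(δ 1 1 : ZMod q) / (δ 1 0 : ZMod q))
  set δ₁ : SL(2, ℤ) := δ * ModularGroup.T ^ j with hδ₁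
  have hd₁ : (q : ℤ) ∣ δ₁ 1 1 := by
    rw [← ZMod.intCast_zmod_eq_zero_iff_dvd, hδ₁, Matrix.SpecialLinearGroup.coe_mul,
      ModularGroup.coe_T_zpow]
    simp [Matrix.mul_apply, Fin.sum_univ_two, hj]
    field_simp
    ring
  obtain ⟨η, -, hpull⟩ := exists_pull hg.2 hd₁
  obtain ⟨r, Φ, hr0, hrf, hΦ, b, hb, rb⟩ := h η
  set ψ := cMF (q * m) (r ^ n) * WMF hg φ hφi with hψ
  obtain ⟨c, hc⟩ := ((algMF_cMF _).mul (algMF_WMF hg hφi hφa)).hasQSeries δ₁
  obtain rfl : b = expand q (NeZero.ne q) c := seriesToC_injective (by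
    rw [seriesToC_eq_lmap (expand _ _ _), lmap_expand]
    refine hb.unique (NeZero.pos _) ((hasQSeries_dq (NeZero.pos _) hc).congr
      (.of_forall fun τ => ?_))
    rw [coe_cMF_mul, coe_cMF_mul, Pi.smul_apply, Pi.smul_apply, coe_WMF]
    have h1 : Wf q g φ (g • dq q (η • τ)) = (φ : ℍ → ℂ) (η • τ) :=
      congrFun (Wf_Wf hg hφi) (η • τ)
    rw [← h1, hpull])
  obtain ⟨Q, hQ, rfl⟩ := exists_hasRed_of_expand (NeZero.ne q) rb
  obtain ⟨u, hu⟩ := exists_redAt_T A (q * m) (-j)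
  refine ⟨r, twist u Q, hr0, hrf, fun h0 => hΦ ?_,
    (show δ₁ * ModularGroup.T ^ (-j) = δ by rw [hδ₁, zpow_neg, mul_inv_cancel_right]) ▸
      hu _ _ _ ⟨c, hc, hQ⟩⟩
  rw [(twist u).injective (h0.trans (map_zero _).symm), map_zero]

/-- A root of `φ · U_q W φ` is fixed by inertia when `φ` is. -/
theorem inertiaFix_root (hA : A.LiesOverPrime q) {σ : GQ} (hσ : A.IsFrobeniusAt σ q)
    (hqn : ¬ q ∣ n) {φ k : MF (q * m)} (hφi : Inv0 (q * m) (φ : ℍ → ℂ)) (hφa : AlgMF φ)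
    (hφr : HasPowRed A n φ) (hf : InertiaFix A φ)
    (hk : (k : ℍ → ℂ) ^ n = (φ : ℍ → ℂ) * Uf q m (Wf q g φ)) :
    AlgMF k ∧ InertiaFix A k := by
  have hq : q.Prime := Fact.out
  have hn : n ≠ 0 := fun h => hqn (h ▸ dvd_zero q)
  have hkn : k ^ n = normM g φ := Subtype.ext (by rw [coe_normM, SubmonoidClass.coe_pow, hk])
  have hka : AlgMF k := algMF_of_pow hn (hkn ▸ algMF_normM hg hqm hφi hφa)
  refine ⟨hka, ?_⟩
  set ψ := WMF hg φ hφi
  have hψi : Inv0 (q * m) (ψ : ℍ → ℂ) := by rw [coe_WMF]; exact inv0_Wf hg hφi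
  have hψa : AlgMF ψ := algMF_WMF hg hφi hφa
  obtain ⟨r, X, hr0, hrf, hX0, hX⟩ := hφr 1
  obtain ⟨r', Y, hr'0, hr'f, hY0, hY⟩ := hasPowRed_wmf hg hqm hφi hφa hφr 1
  have hqa := castHom_cycM_frobenius (M := q * m) hq hqm (dvd_mul_left m q) hA hσ
  obtain ⟨-, hU⟩ := exists_redAt_conj_Uf hqm hσ hqa (inv0_cMF_mul _ hψi)
    ((algMF_cMF _).mul hψa) (δ := 1) (δ' := 1) (by simp) (ConjEq.one_one _) hY
  have hpow : (cMF (q * m) (r * r' ^ q) * k : MF (q * m)) ^ n =
      (((cMF (q * m) (r ^ n) * φ : MF (q * m)) : ℍ → ℂ) *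
        Uf q m (cMF (q * m) (r' ^ n) * ψ : MF (q * m))) := by
    rw [coe_cMF_mul_pow, coe_cMF_mul, coe_cMF_mul, Uf_smul, hk, coe_WMF, smul_mul_smul_comm]
    congr 1
    simp only [map_pow, map_mul]
    ring
  have hne : X * lmap (frobenius (κ A) q) Y ≠ 0 := mul_ne_zero hX0 fun h =>
    hY0 (lmap_injective (φ := frobenius (κ A) q) (frobenius_inj _ q) (h.trans (map_zero _).symm))
  obtain ⟨K, hK0, -, hK⟩ := RedAt.root hq hA (δ := 1) ((algMF_cMF (r * r' ^ q)).mul hka) hn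
    (hpow ▸ hX.mul hU) hne
  refine inertiaFix_of_pow hA hq hqn hka (hkn ▸ inertiaFix_normM hg hqm hφi hf)
    (hrf.mul (hr'f.pow q)) (mul_ne_zero hr0 (pow_ne_zero _ hr'0)) hK0 (hK.congr ?_)
  rw [coe_cMF_mul]

end Fermat.Agent.GalRep.Semistable
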