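/-
Representatives: conjugates with the same powers, and characters read off from roots.
-/
import Fermat.Agent.GalRep.Semistable.Inertia
import Fermat.Agent.GalRep.Semistable.Cores
import Fermat.Agent.GalRep.Semistable.Norm

set_option autoImplicit false
set_option linter.style.haveILetI false
set_option linter.unusedSectionVars false

noncomputable section

namespace Fermat.Agent.GalRep.Semistable

open UpperHalfPlane CongruenceSubgroup
open Fermat.Agent.Galois (GQ)
open Fermat.Agent.GalRep.Level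
open Fermat.Agent.ModField (conjM conjM_spec conjM_eq)
open scoped MatrixGroups Manifold

local notation "ℚb" => AlgebraicClosure ℚ
local notation "IMat" => Matrix (Fin 2) (Fin 2) ℤ

theorem IsRepG.kummer {N n : ℕ} [NeZero n] {χ : ParHom N (ZMod n)} {F : ℍ → ℂ}
    (h : IsRepG (Gamma0 N) n χ F) : IsKummerRep N n χ F :=
  ⟨h.holo, h.ne_zero, h.equivariant, h.cusps⟩

theorem repG_of_kummer {N n : ℕ} [NeZero n] {χ : ParHom N (ZMod n)} {F : ℍ → ℂ}
    (h : IsKummerRep N n χ F) : IsRepG (Gamma0 N) n χ F :=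
  ⟨h.holo, h.ne_zero, h.equivariant, h.cusps⟩

theorem parHom_nsmul_self {N n : ℕ} [NeZero n] (χ : ParHom N (ZMod n)) : n • χ = 0 :=
  Subtype.ext (AddMonoidHom.ext fun x => by
    show n • (χ : Additive (Gamma0 N) →+ ZMod n) x = 0
    rw [nsmul_eq_mul, ZMod.natCast_self, zero_mul])

variable {N M' : ℕ} [NeZero N] [NeZero M'] {n : ℕ} [NeZero n]

/-- The series of the power of a representative. -/
theorem serAlg_of_rep_pow {F : ℍ → ℂ} {f : LaurentSeries ℂ} (hf : HasQSeries 1 F f) {φ : MF M'}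
    (hφ : (φ : ℍ → ℂ) = F ^ n) :
    serAlg M' φ = GalRep.expand M' (NeZero.ne M') (f ^ n) := by
  have h := (hf.pow n).refine_width one_pos M' (NeZero.ne M')
  rw [one_mul, ← hφ] at h
  exact (hasQSeries_serHom φ).unique (NeZero.pos M') h

/-- A conjugate of the class has a representative with the conjugate power. -/
theorem exists_conj_rep (hN : N ∣ M') (σ : ℂ ≃+* ℂ) {χ : ParHom N (ZMod n)} {F : ℍ → ℂ}
    (hF : IsRepG (Gamma0 N) n χ F) {φ : MF M'} (hφ : (φ : ℍ → ℂ) = F ^ n) :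
    ∃ F', IsRepG (Gamma0 N) n (autChar σ χ) F' ∧ (conjM σ φ : ℍ → ℂ) = F' ^ n := by
  obtain ⟨f, hf, -⟩ := (IsRepG.kummer hF).exists_series_one
  obtain ⟨F', hF', hf', -⟩ := autChar_spec σ (IsRepG.kummer hF) hf
  refine ⟨F', repG_of_kummer hF', ?_⟩
  let φ' : MF M' := powMF ((isLevel_gamma0 N).of_dvd hN) (repG_of_kummer hF')
  have e : conjM σ φ = φ' := by
    refine serAlg_injective M' ?_
    rw [serAlg_conjM_one, serAlg_of_rep_pow hf hφ,
      serAlg_of_rep_pow (φ := φ') hf' rfl, lmap_expand, map_pow]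
  rw [e]
  rfl

/-- Two classes whose representatives agree up to a power and functions invariant under a
subgroup agree on that subgroup. -/
theorem char_eq_on_of_pow_eq {χH χG : ParHom N (ZMod n)} {H G : ℍ → ℂ}
    (hH : IsRepG (Gamma0 N) n χH H) (hG : IsRepG (Gamma0 N) n χG G) {a b : MF M'} (ha : a ≠ 0)
    (hb : b ≠ 0) {c : ℂ} (hc : c ≠ 0)
    (h : ∀ τ, ((a : ℍ → ℂ) τ * H τ) ^ n = c * ((b : ℍ → ℂ) τ * G τ) ^ n) (γ : Gamma0 N)
    (hγ : ∀ τ, (a : ℍ → ℂ) ((γ : SL(2, ℤ)) • τ) * (b : ℍ → ℂ) τ =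
      (a : ℍ → ℂ) τ * (b : ℍ → ℂ) ((γ : SL(2, ℤ)) • τ)) :
    (χH : Additive (Gamma0 N) →+ ZMod n) (Additive.ofMul γ) =
      (χG : Additive (Gamma0 N) →+ ZMod n) (Additive.ofMul γ) := by
  obtain ⟨c', rfl⟩ := IsAlgClosed.exists_pow_nat_eq c (NeZero.pos n)
  have hne : ∀ {x : MF M'} {F : ℍ → ℂ}, x ≠ 0 → MDifferentiable 𝓘(ℂ) 𝓘(ℂ) F → F ≠ 0 →
      (x : ℍ → ℂ) * F ≠ 0 := fun hx hF hF0 h0 =>
    (Hecke.eq_zero_or_eq_zero_of_holo_mul (Subtype.coe_prop _ : IsModFun _ _).holo hF h0).elim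
      (fun h1 => hx (Subtype.ext h1)) hF0
  have hc' : c' ≠ 0 := fun h0 => hc (by rw [h0, zero_pow (NeZero.ne n)])
  obtain ⟨ω, -, hω⟩ := exists_const_of_pow_eq (NeZero.pos n) (a.2.holo.mul hH.holo)
    ((mdifferentiable_const (c := c')).mul (b.2.holo.mul hG.holo))
    (fun h0 => hne hb hG.holo hG.ne_zero (funext fun τ =>
      (mul_eq_zero.mp (congrFun h0 τ)).resolve_left hc'))
    (fun τ => by
      simp only [Pi.mul_apply, mul_pow] at h ⊢
      rw [h τ])
  simp only [Pi.mul_apply] at hω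
  by_contra hne'
  set eH := ZMod.stdAddChar ((χH : Additive (Gamma0 N) →+ ZMod n) (Additive.ofMul γ))
  set eG := ZMod.stdAddChar ((χG : Additive (Gamma0 N) →+ ZMod n) (Additive.ofMul γ))
  have hee : eH - eG ≠ 0 := sub_ne_zero.mpr fun h0 => hne' (ZMod.injective_stdAddChar h0)
  refine hne (x := shift M' (γ : SL(2, ℤ)) b) (fun h0 => hb (shift_injective _
    (h0.trans (map_zero _).symm))) (a.2.holo.mul hH.holo) (hne ha hH.holo hH.ne_zero)
    (funext fun τ => (mul_eq_zero.mp ?_).resolve_left hee)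
  have h1 := hω ((γ : SL(2, ℤ)) • τ)
  rw [hH.equivariant γ τ, hG.equivariant γ τ] at h1
  show (eH - eG) * ((b : ℍ → ℂ) ((γ : SL(2, ℤ)) • τ) * ((a : ℍ → ℂ) τ * H τ)) = 0
  linear_combination (b : ℍ → ℂ) τ * h1 - (eH * H τ) * hγ τ -
    (b : ℍ → ℂ) ((γ : SL(2, ℤ)) • τ) * eG * hω τ

omit [NeZero N] in
/-- A class vanishing on a subgroup of finite index is killed by the factorial of the index. -/
theorem factorial_nsmul_eq_zero {K : Subgroup SL(2, ℤ)} [K.FiniteIndex] {ξ : ParHom N (ZMod n)}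
    (h : ∀ γ : Gamma0 N, (γ : SL(2, ℤ)) ∈ K →
      (ξ : Additive (Gamma0 N) →+ ZMod n) (Additive.ofMul γ) = 0) :
    K.index.factorial • ξ = 0 := by
  refine Subtype.ext (AddMonoidHom.ext fun x => ?_)
  obtain ⟨γ, rfl⟩ := Additive.ofMul.surjective x
  obtain ⟨j, hj, hjle, hmem⟩ := Subgroup.exists_pow_mem_of_index_ne_zero
    (Subgroup.FiniteIndex.index_ne_zero (H := K)) (γ : SL(2, ℤ))
  have h0 := h (γ ^ j) (by rw [SubmonoidClass.coe_pow]; exact hmem)
  rw [ofMul_pow, map_nsmul] at h0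
  obtain ⟨r, hr⟩ := Nat.dvd_factorial hj hjle
  show K.index.factorial • (ξ : Additive (Gamma0 N) →+ ZMod n) (Additive.ofMul γ) = 0
  rw [hr, mul_comm, mul_smul, h0, smul_zero]

section Norm

variable {q m : ℕ} [Fact q.Prime] [NeZero q] [NeZero m]

theorem posMat_coe_smul (g : SL(2, ℤ)) (h : 0 < (g : IMat).det) (τ : ℍ) :
    posMat (g : IMat) h • τ = g • τ := by
  rw [ModularGroup.sl_moeb]
  congr 1
  apply Units.ext
  ext i j
  simp [coe_posMat]

/-- The power of a corestricted representative is the norm. -/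
theorem coe_pow_transfer_cosR (g : SL(2, ℤ)) {F : ℍ → ℂ} {φ : MF (q * m)}
    (hφ : (φ : ℍ → ℂ) = F ^ n) :
    transferProd (fun i => (cosR q m g i : IMat))
        (fun i => by rw [(cosR q m g i).det_coe]; exact one_pos) F ^ n = (normM g φ : ℍ → ℂ) := by
  funext τ
  rw [normM, SubmonoidClass.coe_finsetProd, Pi.pow_apply, transferProd, Finset.prod_apply,
    Finset.prod_apply, ← Finset.prod_pow]
  refine Finset.prod_congr rfl fun i _ => ?_
  rw [shift_apply, hφ, Pi.pow_apply, posMat_coe_smul]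

end Norm

end Fermat.Agent.GalRep.Semistable
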