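/-
The eigenvalues of Frobenius at a prime exactly dividing the level: algebra on the lattice of an
Eichler-Shimura datum.
-/
import Fermat.Agent.GalRep.Assembly
import Fermat.Agent.Galois.Tame

set_option autoImplicit false
set_option linter.style.haveILetI false

noncomputable section

namespace Fermat.Agent.GalRep.Semistable

open Fermat.Agent.Galois (GQ)
open scoped IsMulCommutative

section Support

variable {C : Type} [CommRing C] [IsNoetherianRing C] {Zp : Type} [CommRing Zp] [IsDomain Zp]
  [Algebra Zp C] [Algebra.IsIntegral Zp C] {R : Type} [CommRing R] [IsDomain R] [Algebra Zp R]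

omit [IsDomain Zp] in
/-- A prime of characteristic zero in the support is an associated prime. -/
theorem exists_killed_by_ker {M : Type} [AddCommGroup M] [Module C M] [Module.Finite C M]
    (ψ : C →ₐ[Zp] R) (hinj : Function.Injective (algebraMap Zp R))
    (hann : ∀ c : C, (∀ x : M, c • x = 0) → ψ c = 0) :
    ∃ x : M, x ≠ 0 ∧ ∀ c : C, ψ c = 0 → c • x = 0 := by
  set P : Ideal C := RingHom.ker ψ with hP
  haveI : P.IsPrime := RingHom.ker_isPrime _
  have hcomap : ∀ Q : Ideal C, Q ≤ P → Q.comap (algebraMap Zp C) = ⊥ := fun Q hQ => by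
    refine eq_bot_iff.2 fun z hz => ?_
    have h : ψ (algebraMap Zp C z) = 0 := hQ hz
    rw [AlgHom.commutes] at h
    exact hinj (h.trans (map_zero _).symm)
  have hmin : P ∈ (Module.annihilator C M).minimalPrimes := by
    have hle : Module.annihilator C M ≤ P := fun c hc =>
      hann c (fun x => Module.mem_annihilator.1 hc x)
    refine ⟨⟨inferInstance, hle⟩, fun Q hQ hQP => ?_⟩
    by_contra hne
    haveI : Q.IsPrime := hQ.1
    have hlt : Q < P := lt_of_le_of_ne hQP fun h => hne (h ▸ le_rfl)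
    have := Ideal.IsIntegral.comap_lt_comap (R := Zp) hlt
    rw [hcomap Q hQP, hcomap P le_rfl] at this
    exact lt_irrefl _ this
  obtain ⟨-, x, hx⟩ := isAssociatedPrime_iff.1
    (Module.associatedPrimes.minimalPrimes_annihilator_subset_associatedPrimes C M hmin)
  refine ⟨x, fun h0 => ?_, fun c hc => ?_⟩
  · have h1 : (1 : C) ∈ P := by
      rw [hx, Submodule.mem_colon_singleton, h0, smul_zero]
      exact zero_mem _
    exact Ideal.IsPrime.ne_top ‹P.IsPrime› ((Ideal.eq_top_iff_one _).2 h1)
  · have h1 : c ∈ P := hc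
    rw [hx, Submodule.mem_colon_singleton, Submodule.mem_bot] at h1
    exact h1

omit [IsNoetherianRing C] in
/-- Elements outside the kernel act injectively on what the kernel kills. -/
theorem eq_zero_of_smul_eq_zero {L : Type} [AddCommGroup L] [Module C L] [Module Zp L]
    [IsScalarTower Zp C L] [Module.IsTorsionFree Zp L] (ψ : C →ₐ[Zp] R) {a : C} (ha : ψ a ≠ 0) {x : L}
    (hx : ∀ c : C, ψ c = 0 → c • x = 0) (hax : a • x = 0) : x = 0 := by
  obtain ⟨f, hf, hfa⟩ := Algebra.IsIntegral.isIntegral (R := Zp) a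
  have hev : Polynomial.aeval (ψ a) f = 0 := by
    rw [Polynomial.aeval_algHom_apply, show Polynomial.aeval a f = 0 from hfa, map_zero]
  have hint : IsIntegral Zp (ψ a) := ⟨f, hf, hev⟩
  set g := minpoly Zp (ψ a) with hg
  have hg0 : g.coeff 0 ≠ 0 := fun h0 => by
    obtain ⟨g', hg'⟩ := Polynomial.X_dvd_iff.2 h0
    have h1 := minpoly.aeval Zp (ψ a)
    rw [← hg, hg', map_mul, Polynomial.aeval_X] at h1
    have h2 : Polynomial.aeval (ψ a) g' = 0 := (mul_eq_zero.1 h1).resolve_left ha
    have hm : g'.Monic := by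
      have := minpoly.monic hint
      rw [← hg, hg'] at this
      exact Polynomial.monic_X.of_mul_monic_left this
    have hd := Polynomial.natDegree_le_natDegree (minpoly.min Zp (ψ a) hm h2)
    rw [← hg, hg', Polynomial.natDegree_X_mul hm.ne_zero] at hd
    omega
  have hker : ψ (Polynomial.aeval a g) = 0 := by
    rw [← Polynomial.aeval_algHom_apply, minpoly.aeval]
  have h3 := hx _ hker
  rw [← g.X_mul_divX_add, map_add, map_mul, Polynomial.aeval_X, Polynomial.aeval_C, add_smul,
    mul_comm, mul_smul, hax, smul_zero, zero_add, algebraMap_smul] at h3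
  exact (smul_eq_zero.1 h3).resolve_left hg0

end Support

section Datum

variable {N p : ℕ} [NeZero N] [Fact p.Prime] (D : EichlerShimuraDatum N p) (S : Finset ℕ)

/-- The relation `g² - u(g) g + cyc(g) = 0`. -/
theorem galois_sq_rel (g : GQ) (x : D.L) :
    D.galois g (D.galois g x) + (cyc p g).val • x =
      uTrace D g (D.galois g x) := by
  have h : D.galois g⁻¹ (D.galois g x) = x := by
    rw [← Module.End.mul_apply, ← map_mul, inv_mul_cancel, map_one, Module.End.one_apply]
  rw [uTrace, LinearMap.add_apply, LinearMap.smul_apply, h]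

theorem commute_galois (g : GQ) (c : heckeClosure D (↑S : Set ℕ)) (x : D.L) :
    D.galois g ((c : Module.End ℤ_[p] D.L) x) = (c : Module.End ℤ_[p] D.L) (D.galois g x) :=
  (galoisLinear D S g).map_smul c x

/-- In a squarezero situation the image of the tame relation is additive. -/
theorem pow_eq_add_mul {E : Type} [Ring E] {u : E} (h : (u - 1) * (u - 1) = 0) :
    ∀ k : ℕ, u ^ k = 1 + (k : E) * (u - 1)
  | 0 => by simp
  | k + 1 => by
    have e : (u - 1) * u = u - 1 := by
      have := h
      rw [mul_sub, mul_one, sub_eq_zero] at this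
      exact this
    rw [pow_succ, pow_eq_add_mul h k, add_mul, one_mul, mul_assoc, e]
    push_cast
    rw [add_mul, one_mul]
    abel

variable {q : ℕ} {A : ValuationSubring (AlgebraicClosure ℚ)}

/-- Frobenius scales the monodromy by `q`. -/
theorem frob_monodromy (hq : q.Prime) (hqp : q ≠ p) (hA : A.LiesOverPrime q) {σ τ : GQ}
    (hσ : A.IsFrobeniusAt σ q) (hτ : τ ∈ A.inertiaSubgroupIn ℚ)
    (hcore : ∀ t ∈ A.inertiaSubgroupIn ℚ, ∀ t' ∈ A.inertiaSubgroupIn ℚ,
      (D.galois t - 1) * (D.galois t' - 1) = 0) :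
    D.galois σ * (D.galois τ - 1) = (q : Module.End ℤ_[p] D.L) * ((D.galois τ - 1) * D.galois σ) := by
  haveI : (A.inertiaSubgroup ℚ).Normal := MonoidHom.normal_ker _
  set w : GQ := σ * τ * σ⁻¹ * (τ ^ q)⁻¹ with hw
  have hdec := hσ.mem_decompositionSubgroup
  have hw1 : w ∈ A.inertiaSubgroupIn ℚ := by
    obtain ⟨t, ht, rfl⟩ := hτ
    set s₀ : A.decompositionSubgroup ℚ := ⟨σ, hdec⟩ with hs₀
    have hN : (A.inertiaSubgroup ℚ).Normal := MonoidHom.normal_ker _
    have hc' : s₀ * t * s₀⁻¹ ∈ A.inertiaSubgroup ℚ := hN.conj_mem t ht s₀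
    have hq' : (t ^ q)⁻¹ ∈ A.inertiaSubgroup ℚ := inv_mem (pow_mem ht q)
    refine ⟨s₀ * t * s₀⁻¹ * (t ^ q)⁻¹, mul_mem hc' hq', ?_⟩
    simp only [hw, hs₀, map_mul, map_inv, map_pow, Subgroup.coe_subtype]
  have hwsq := hcore w hw1 w hw1
  -- `w` acts trivially
  have hone : D.galois w = 1 := by
    rw [← sub_eq_zero]
    refine LinearMap.ext fun x => ?_
    have hmem : (D.galois w - 1) x ∈
        (⨅ k : ℕ, (Ideal.span {(p : ℤ_[p])}) ^ k • (⊤ : Submodule ℤ_[p] D.L)) := by
      refine Submodule.mem_iInf _ |>.mpr fun k => ?_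
      obtain ⟨F, hF, hFk⟩ := D.continuous k
      haveI := hF
      haveI : Normal ℚ (IntermediateField.normalClosure ℚ F (AlgebraicClosure ℚ)) :=
        normalClosure.normal ℚ F (AlgebraicClosure ℚ)
      haveI : IsGalois ℚ (IntermediateField.normalClosure ℚ F (AlgebraicClosure ℚ)) := ⟨⟩
      obtain ⟨j, hj⟩ := Galois.tame_relation hq hA hσ hτ
        (IntermediateField.normalClosure ℚ F (AlgebraicClosure ℚ))
      obtain ⟨y, hy⟩ := hFk (w ^ q ^ j) (fun z hz => hj z (F.le_normalClosure hz)) x
      rw [map_pow, pow_eq_add_mul hwsq, LinearMap.add_apply, Module.End.one_apply,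
        add_sub_cancel_left, Module.End.mul_apply, Module.End.natCast_apply] at hy
      have hu : IsUnit ((q ^ j : ℕ) : ℤ_[p]) := by
        rw [Nat.cast_pow]
        refine IsUnit.pow _ ?_
        rw [PadicInt.isUnit_iff]
        refine le_antisymm (PadicInt.norm_le_one _) (not_lt.1 fun h1 => hqp ?_)
        rw [← Int.cast_natCast, PadicInt.norm_int_lt_one_iff_dvd, Int.natCast_dvd_natCast] at h1
        exact ((Nat.prime_dvd_prime_iff_eq Fact.out hq).1 h1).symm
      obtain ⟨u, hu⟩ := hu
      rw [← Nat.cast_smul_eq_nsmul ℤ_[p], ← hu] at hy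
      have : (D.galois w - 1) x = (p ^ k : ℤ_[p]) • ((↑u⁻¹ : ℤ_[p]) • y) := by
        rw [smul_comm, ← hy, smul_smul, Units.inv_mul, one_smul]
      rw [this]
      exact Submodule.smul_mem_smul (Ideal.pow_mem_pow (Ideal.mem_span_singleton_self _) k)
        Submodule.mem_top
    rw [Ideal.iInf_pow_smul_eq_bot_of_le_jacobson _ (by
      rw [← PadicInt.maximalIdeal_eq_span_p]
      exact IsLocalRing.maximalIdeal_le_jacobson _), Submodule.mem_bot] at hmem
    simpa using hmem
  have hconj : D.galois σ * D.galois τ = D.galois τ ^ q * D.galois σ := by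
    rw [← map_mul, ← map_pow, ← map_mul, show σ * τ = w * (τ ^ q * σ) by rw [hw]; group,
      map_mul, hone, one_mul]
  rw [mul_sub, mul_one, hconj, pow_eq_add_mul (hcore τ hτ τ hτ), add_mul, one_mul,
    add_sub_cancel_left, mul_assoc]

variable {R : Type} [CommRing R] [IsDomain R] [CharZero R] [Algebra ℤ_[p] R]

set_option maxHeartbeats 800000 in
/-- The trace of Frobenius is `± (q + 1)`. -/
theorem sq_uTrace_eq (hdens : FrobeniusPowDensity) (hinj : Function.Injective (algebraMap ℤ_[p] R))
    (ψ : heckeClosure D (↑S : Set ℕ) →ₐ[ℤ_[p]] R) (hq : q.Prime) (hqp : q ≠ p)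
    (hA : A.LiesOverPrime q) {σ : GQ} (hσ : A.IsFrobeniusAt σ q)
    (hcore : ∀ t ∈ A.inertiaSubgroupIn ℚ, ∀ t' ∈ A.inertiaSubgroupIn ℚ,
      (D.galois t - 1) * (D.galois t' - 1) = 0)
    {e : heckeClosure D (↑S : Set ℕ)} (he : ψ e ≠ 0) {k : ℕ} (hk : 0 < k)
    (hfix : ∀ x : D.L, (∀ t ∈ A.inertiaSubgroupIn ℚ, D.galois t x = x) →
      (e : Module.End ℤ_[p] D.L) ((D.galois σ ^ k - (q : Module.End ℤ_[p] D.L) ^ k)
        (D.galois σ (D.galois σ x) - x)) = 0)
    {c : GQ} (hc : cyc p c = -1) (hc2 : c * c = 1)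
    (hsign : ∀ s : ℤ_[p], s = 1 ∨ s = -1 → ∀ P : heckeClosure D (↑S : Set ℕ),
      (∀ x : D.L, D.galois c x = s • x → (P : Module.End ℤ_[p] D.L) x = 0) → ψ P = 0) :
    ψ ⟨uTrace D σ, uTrace_mem D hdens S σ⟩ ^ 2 = ((q + 1 : ℕ) : R) ^ 2 := by
  haveI : Algebra.IsIntegral ℤ_[p] (heckeClosure D (↑S : Set ℕ)) := inferInstance
  -- what the kernel of `ψ` kills
  let InV : D.L → Prop := fun x => ∀ a : heckeClosure D (↑S : Set ℕ), ψ a = 0 → a • x = 0
  have hgal : ∀ g x, InV x → InV (D.galois g x) := fun g x hx a ha => by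
    show (a : Module.End ℤ_[p] D.L) (D.galois g x) = 0
    rw [← commute_galois D S g a x, show (a : Module.End ℤ_[p] D.L) x = 0 from hx a ha, map_zero]
  have hcancel : ∀ {a : heckeClosure D (↑S : Set ℕ)} {x}, InV x → ψ a ≠ 0 → a • x = 0 → x = 0 :=
    fun {a x} hx ha h => eq_zero_of_smul_eq_zero ψ ha hx h
  set u : heckeClosure D (↑S : Set ℕ) := ⟨uTrace D σ, uTrace_mem D hdens S σ⟩ with hu
  have hrel : ∀ x, D.galois σ (D.galois σ x) + (q : ℤ_[p]) • x = u • D.galois σ x := fun x => by
    rw [← cyc_frobenius p hq hqp hA hσ]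
    exact galois_sq_rel D σ x
  have hq1 : ((q : ℕ) : heckeClosure D (↑S : Set ℕ)) ^ 2 ≠ 0 := fun h => by
    have := congrArg ψ h
    rw [map_pow, map_natCast, map_zero, pow_eq_zero_iff two_ne_zero] at this
    exact hq.ne_zero (Nat.cast_injective (this.trans Nat.cast_zero.symm))
  -- from a nonzero vector with `u σ y = q (q+1) y` and `σ² y = q² y`
  have finish : ∀ {y : D.L} (a : ℕ), 0 < a → InV y → y ≠ 0 →
      u • D.galois σ y = (a * (q + 1) : ℕ) • y → D.galois σ (D.galois σ y) = (a ^ 2 : ℕ) • y →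
      ψ u ^ 2 = ((q + 1 : ℕ) : R) ^ 2 := by
    intro y a ha hy hy0 h1 h2
    by_contra hne
    refine hy0 (hcancel hy (a := ((a : ℕ) : heckeClosure D (↑S : Set ℕ)) ^ 2 *
      (u ^ 2 - ((q + 1 : ℕ) : heckeClosure D (↑S : Set ℕ)) ^ 2)) ?_ ?_)
    · rw [map_mul, map_sub, map_pow, map_pow, map_pow, map_natCast, map_natCast]
      exact mul_ne_zero (pow_ne_zero _ (Nat.cast_ne_zero.2 ha.ne')) (sub_ne_zero.2 hne)
    · have h3 : u ^ 2 • D.galois σ (D.galois σ y) = ((a * (q + 1)) * (a * (q + 1)) : ℕ) • y := by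
        rw [sq, mul_smul, show u • D.galois σ (D.galois σ y) = D.galois σ (u • D.galois σ y) from
          (commute_galois D S σ u _).symm, h1, map_nsmul, smul_comm, h1, ← mul_smul]
      rw [h2, smul_comm] at h3
      rw [mul_sub, sub_smul, sub_eq_zero, ← Nat.cast_pow, ← Nat.cast_pow, ← Nat.cast_mul,
        Nat.cast_smul_eq_nsmul, mul_smul, Nat.cast_smul_eq_nsmul, h3]
      congr 1
      ring
  by_cases hram : ∃ τ ∈ A.inertiaSubgroupIn ℚ, ∃ x, InV x ∧ D.galois τ x ≠ x
  · -- monodromy
    obtain ⟨τ, hτ, x, hx, hne⟩ := hram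
    set y := (D.galois τ - 1) x with hy
    have hy0 : y ≠ 0 := fun h => hne (sub_eq_zero.1 (by simpa [hy] using h))
    have hyV : InV y := fun a ha => by
      rw [hy, LinearMap.sub_apply, Module.End.one_apply, smul_sub, hgal τ x hx a ha, hx a ha,
        sub_self]
    have hmon : ∀ z, D.galois σ ((D.galois τ - 1) z) = q • (D.galois τ - 1) (D.galois σ z) :=
      fun z => by
        have := LinearMap.congr_fun (frob_monodromy D hq hqp hA hσ hτ hcore) z
        simpa [Module.End.natCast_apply] using this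
    have hNu : ∀ z, (D.galois τ - 1) (u • z) = u • (D.galois τ - 1) z := fun z => by
      simp only [LinearMap.sub_apply, Module.End.one_apply, smul_sub]
      rw [show D.galois τ (u • z) = u • D.galois τ z from commute_galois D S τ u z]
    -- the relation at `x` and at `y`
    have h1 : (D.galois τ - 1) (D.galois σ (D.galois σ x)) + q • y =
        u • (D.galois τ - 1) (D.galois σ x) := by
      have := congrArg (fun z => (D.galois τ - 1) z) (hrel x)
      rwa [map_add, map_smul, hNu, Nat.cast_smul_eq_nsmul] at this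
    have h2 : D.galois σ y = q • (D.galois τ - 1) (D.galois σ x) := hmon x
    have h3 : D.galois σ (D.galois σ y) = (q * q) • (D.galois τ - 1) (D.galois σ (D.galois σ x)) := by
      rw [h2, map_nsmul, hmon, mul_smul]
    have h4 := hrel y
    rw [Nat.cast_smul_eq_nsmul, h3] at h4
    simp only [← natCast_zsmul, Nat.cast_mul] at h1 h2 h3 h4
    have h6 : (q : ℤ) • (u • (D.galois τ - 1) (D.galois σ x)) = u • D.galois σ y := by
      rw [h2, smul_comm]
    -- `(q - 1) (u σ y) = q (q² - 1) y`
    have h7 : ((q : ℤ) - 1) • (u • D.galois σ y - (q * (q + 1) : ℕ) • y) = 0 := by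
      rw [← natCast_zsmul y]
      push_cast
      linear_combination (norm := module) h4 - ((q : ℤ) * q) • h1 - (q : ℤ) • h6
    have hq2 : ((q : ℤ) - 1) ≠ 0 := by have := hq.two_le; omega
    have hfinal : u • D.galois σ y = (q * (q + 1) : ℕ) • y := by
      rw [← Int.cast_smul_eq_zsmul ℤ_[p]] at h7
      rw [← sub_eq_zero]
      exact (smul_eq_zero.1 h7).resolve_left (Int.cast_ne_zero.2 hq2)
    refine finish q hq.pos hyV hy0 hfinal ?_
    have := hrel y
    rw [hfinal, Nat.cast_smul_eq_nsmul, mul_add, mul_one, add_smul, ← sq] at this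
    exact add_right_cancel this
  · push Not at hram
    obtain h2 | h2 := em (∃ x, InV x ∧ x ≠ 0 ∧ D.galois σ (D.galois σ x) = x)
    · obtain ⟨x, hx, hx0, hσx⟩ := h2
      refine finish 1 one_pos hx hx0 ?_ (by rw [hσx, one_pow, one_smul])
      rw [← hrel, hσx, Nat.cast_smul_eq_nsmul, one_mul, add_smul, one_smul, add_comm]
    · exfalso
      push Not at h2
      have hpow : ∀ x, InV x → (D.galois σ ^ k) x = (q : ℤ_[p]) ^ k • x := by
        intro x hx
        have hcomm : ∀ z, (D.galois σ ^ k - (q : Module.End ℤ_[p] D.L) ^ k)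
            (D.galois σ (D.galois σ z) - z) =
            D.galois σ (D.galois σ ((D.galois σ ^ k - (q : Module.End ℤ_[p] D.L) ^ k) z)) -
              (D.galois σ ^ k - (q : Module.End ℤ_[p] D.L) ^ k) z := fun z => by
          have hc : Commute (D.galois σ) (D.galois σ ^ k - (q : Module.End ℤ_[p] D.L) ^ k) :=
            (Commute.self_pow _ _).sub_right ((Nat.cast_commute q (D.galois σ)).symm.pow_right k)
          rw [map_sub, ← Module.End.mul_apply, ← Module.End.mul_apply, ← hc.eq,
            mul_assoc, ← hc.eq]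
          rfl
        have hz : InV ((D.galois σ ^ k - (q : Module.End ℤ_[p] D.L) ^ k) x) := fun a ha => by
          rw [LinearMap.sub_apply, smul_sub, ← map_pow, hgal (σ ^ k) x hx a ha, ← Nat.cast_pow,
            Module.End.natCast_apply, smul_comm, hx a ha, smul_zero, sub_self]
        set z := (D.galois σ ^ k - (q : Module.End ℤ_[p] D.L) ^ k) x with hzdef
        have hw : InV (D.galois σ (D.galois σ z) - z) := fun a ha => by
          rw [smul_sub, hgal σ _ (hgal σ _ hz) a ha, hz a ha, sub_self]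
        have h0 := hfix x fun t ht => hram t ht x hx
        rw [hcomm] at h0
        have h1 := hcancel hw he h0
        have h3 : z = 0 := by
          by_contra hne
          exact h2 z hz hne (sub_eq_zero.1 h1)
        rw [hzdef, LinearMap.sub_apply, sub_eq_zero] at h3
        rw [h3, ← Nat.cast_pow, Module.End.natCast_apply, ← Nat.cast_pow, Nat.cast_smul_eq_nsmul]
      -- complex conjugation is scalar
      have hs : ∀ s : ℤ_[p], s = 1 ∨ s = -1 → ∃ x, InV x ∧ x ≠ 0 ∧ D.galois c x = s • x := by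
        intro s hs
        let M : Submodule (heckeClosure D (↑S : Set ℕ)) D.L :=
          { carrier := {x | D.galois c x = s • x}
            add_mem' := fun {x y} hx hy => by
              simp only [Set.mem_ofPred_eq] at hx hy ⊢
              rw [map_add, hx, hy, smul_add]
            zero_mem' := by simp
            smul_mem' := fun a x hx => by
              simp only [Set.mem_ofPred_eq] at hx ⊢
              show D.galois c ((a : Module.End ℤ_[p] D.L) x) = s • (a : Module.End ℤ_[p] D.L) x
              rw [commute_galois, hx, map_smul] }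
        haveI : Module.Finite (heckeClosure D (↑S : Set ℕ)) M :=
          Module.Finite.of_fg (IsNoetherian.noetherian M)
        obtain ⟨x, hx0, hx⟩ := exists_killed_by_ker (M := M) ψ hinj fun P hP =>
          hsign s hs P fun x hx => congrArg Subtype.val (hP ⟨x, hx⟩)
        exact ⟨x, fun a ha => congrArg Subtype.val (hx a ha),
          fun h => hx0 (Subtype.ext h), x.2⟩
      set v : heckeClosure D (↑S : Set ℕ) :=
        ⟨uTrace D (σ ^ k * c), uTrace_mem D hdens S _⟩ with hv
      have hv' : ∀ x, InV x → v • x = ((q : ℤ_[p]) ^ k - 1) • D.galois c x := by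
        intro x hx
        have hinv : (q : ℤ_[p]) ^ k • D.galois (σ ^ k)⁻¹ x = x := by
          rw [← map_smul, ← hpow x hx, ← map_pow, ← Module.End.mul_apply, ← map_mul,
            inv_mul_cancel, map_one, Module.End.one_apply]
        have hcx : (q : ℤ_[p]) ^ k • D.galois c (D.galois (σ ^ k)⁻¹ x) = D.galois c x := by
          rw [← map_smul, hinv]
        show uTrace D (σ ^ k * c) x = _
        rw [uTrace, LinearMap.add_apply, LinearMap.smul_apply, map_mul, Module.End.mul_apply,
          map_mul, Units.val_mul, hc, map_pow (cyc p), Units.val_pow_eq_pow_val,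
          cyc_frobenius p hq hqp hA hσ, mul_inv_rev, map_mul, Module.End.mul_apply,
          map_pow D.galois, hpow _ (hgal c x hx), Units.val_neg, Units.val_one, mul_neg, mul_one,
          neg_smul, inv_eq_of_mul_eq_one_right hc2, hcx, sub_smul, one_smul,
          sub_eq_add_neg]
      obtain ⟨xp, hxp, hxp0, hxpc⟩ := hs 1 (Or.inl rfl)
      obtain ⟨xm, hxm, hxm0, hxmc⟩ := hs (-1) (Or.inr rfl)
      have hqk : ∀ (a : ℤ_[p]), ψ v ≠ algebraMap ℤ_[p] R a →
          ∀ x, InV x → v • x = a • x → x = 0 := fun a ha x hx h => by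
        refine hcancel hx (a := v - algebraMap ℤ_[p] _ a) ?_ ?_
        · rw [map_sub, AlgHom.commutes]; exact sub_ne_zero.2 ha
        · rw [sub_smul, h, algebraMap_smul, sub_self]
      have e1 : ψ v = algebraMap ℤ_[p] R ((q : ℤ_[p]) ^ k - 1) := by
        by_contra h
        exact hxp0 (hqk _ h xp hxp (by rw [hv' xp hxp, hxpc, one_smul]))
      have e2 : ψ v = algebraMap ℤ_[p] R (-((q : ℤ_[p]) ^ k - 1)) := by
        by_contra h
        exact hxm0 (hqk _ h xm hxm (by rw [hv' xm hxm, hxmc, neg_smul, one_smul, smul_neg,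
          neg_smul]))
      rw [e1] at e2
      have h0 : (q : ℤ_[p]) ^ k - 1 = 0 := by
        have := hinj e2
        rwa [eq_neg_iff_add_eq_zero, ← two_mul, mul_eq_zero, or_iff_right two_ne_zero] at this
      rw [sub_eq_zero, ← Nat.cast_pow, ← Nat.cast_one, Nat.cast_inj] at h0
      exact absurd h0 (Nat.one_lt_pow hk.ne' hq.one_lt).ne'

end Datum

end Fermat.Agent.GalRep.Semistable
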