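/-
The characteristic polynomial of Frobenius at a prime exactly dividing the level of a newform, from
a relation on the Kummer classes fixed by inertia.
-/
import Fermat.Agent.GalRep.Semistable.Algebra
import Fermat.Agent.GalRep.Semistable.ComplexConj
import Fermat.Agent.GalRep.Unipotent
import Fermat.Agent.Newform.Eigen
import Fermat.Agent.Hecke.IntegralBasis
import Fermat.Prelude.Def_CuspForm_Newforms

set_option autoImplicit false
set_option linter.style.haveILetI false

noncomputable section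

namespace Fermat.Agent.GalRep.Semistable

open Fermat.Agent.Galois (GQ)
open Fermat.Agent.Deform
open IsLocalRing Polynomial CongruenceSubgroup
open scoped IsMulCommutative
open MvPolynomial (rename)

/-- The Kummer classes fixed by inertia at a prime exactly dividing the level: a Hecke operator,
nonzero on the eigen-system, kills `(σ ^ k - q ^ k) (σ ^ 2 - 1)` up to a constant independent of `n`. -/
def FrobeniusFixedRelation (M : ℕ) [NeZero M] (S : Finset ℕ)
    (a : CuspForm.heckeAlgebra M 2 (↑S : Set ℕ) →+* ℂ) : Prop :=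
  ∀ q : ℕ, q.Prime → q ∣ M → ¬ q ^ 2 ∣ M →
    ∀ A : ValuationSubring (AlgebraicClosure ℚ), A.LiesOverPrime q →
    ∀ σ : GQ, A.IsFrobeniusAt σ q →
    ∃ (P : MvPolynomial (GoodPrimeOff M (↑S : Set ℕ)) ℤ) (k C : ℕ),
      a (evFormsOff (↑S : Set ℕ) P) ≠ 0 ∧ 0 < k ∧ 0 < C ∧
      ∀ (n : ℕ) [NeZero n], ¬ q ∣ n → ∀ χ : ParHom M (ZMod n),
        (∀ t ∈ A.inertiaSubgroupIn ℚ, (kummerGalois M n).galois t χ = χ) →
        C • heckePolyHom M (ZMod n) (rename Subtype.val P)
          (((kummerGalois M n).galois σ ^ k)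
              ((kummerGalois M n).galois σ ((kummerGalois M n).galois σ χ) - χ) -
            q ^ k • ((kummerGalois M n).galois σ ((kummerGalois M n).galois σ χ) - χ)) = 0

theorem redPow_latHeckePoly {N p : ℕ} [NeZero N] [Fact p.Prime] (P : HeckePoly N) (v : Lat N p)
    (k : ℕ) : redPow k (latHeckePoly N p P v) = heckePolyHom N (ZMod (p ^ k)) P (redPow k v) := by
  show parMap (PadicInt.toZModPow k).toAddMonoidHom (toPar (latHeckePoly N p P v)) = _
  rw [toPar_latHeckePoly, ← heckePolyHom_natural]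
  rfl

/-- An eigen-system agreeing with the coefficients of a normalised eigenform acts on it. -/
theorem eigen_of_qCoeff {M : ℕ} [NeZero M] {g : CuspForm (Gamma0 M) 2}
    (hg : g.IsNormalizedEigenform) (S : Finset ℕ) (hMS : ∀ q : ℕ, q.Prime → q ∣ M → q ∈ S)
    (a : CuspForm.heckeAlgebra M 2 (↑S : Set ℕ) →+* ℂ)
    (ha : ∀ (ℓ : ℕ) (hℓ : ℓ.Prime) (hℓM : ¬ ℓ ∣ M) (hℓS : ℓ ∉ (↑S : Set ℕ)),
      a (CuspForm.heckeAlgebra.T hℓ hℓM hℓS) = ModularFormClass.qCoeff g ℓ)
    (t : CuspForm.heckeAlgebra M 2 (↑S : Set ℕ)) :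
    (t : Module.End ℂ (CuspForm (Gamma0 M) 2)) g = a t • g := by
  obtain ⟨χ, hχg, hχ, -⟩ := Newform.exists_character_of_eigenform hg (↑S : Set ℕ)
  suffices a t = χ t by rw [this]; exact hχg t
  obtain ⟨t, ht⟩ := t
  induction ht using Algebra.adjoin_induction with
  | mem x hx =>
    rcases hx with ⟨ℓ, hℓ, hℓM, hℓS, rfl⟩ | ⟨q, hqM, hq, hqS, rfl⟩
    · exact (ha ℓ hℓ hℓM hℓS).trans (hχ ℓ hℓ hℓM hℓS).symm
    · exact absurd (hMS q hq hqM) hqS
  | algebraMap r =>
    show a (algebraMap ℤ _ r) = χ (algebraMap ℤ _ r)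
    rw [eq_intCast, map_intCast, map_intCast]
  | add x y hx hy ihx ihy =>
    show a (⟨x, hx⟩ + ⟨y, hy⟩) = χ (⟨x, hx⟩ + ⟨y, hy⟩)
    rw [map_add, map_add, ihx, ihy]
  | mul x y hx hy ihx ihy =>
    show a (⟨x, hx⟩ * ⟨y, hy⟩) = χ (⟨x, hx⟩ * ⟨y, hy⟩)
    rw [map_mul, map_mul, ihx, ihy]

/-- A map from the values of an eigen-system to a ring of characteristic zero is injective. -/
theorem injective_of_range {M : ℕ} [NeZero M] {S : Set ℕ}
    (a : CuspForm.heckeAlgebra M 2 S →+* ℂ) {R : Type} [CommRing R] [IsDomain R] [CharZero R]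
    (iota : a.range →+* R) : Function.Injective iota := by
  haveI := Hecke.moduleFinite_heckeAlgebra M 2 S
  haveI : Algebra.IsIntegral ℤ a.range := ⟨fun x => by
    obtain ⟨t, ht⟩ := x.2
    have : x = a.rangeRestrict t := Subtype.ext ht.symm
    rw [this]
    exact (IsIntegral.of_finite ℤ t).map a.rangeRestrict.toIntAlgHom⟩
  haveI : (RingHom.ker iota).IsPrime := RingHom.ker_isPrime _
  rw [RingHom.injective_iff_ker_eq_bot]
  refine Ideal.eq_bot_of_comap_eq_bot (R := ℤ) (eq_bot_iff.2 fun z hz => ?_)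
  rw [Ideal.mem_comap, RingHom.mem_ker, eq_intCast, map_intCast, Int.cast_eq_zero] at hz
  exact hz

/-- The universal trace of a square. -/
theorem uTrace_sq {N p : ℕ} [NeZero N] [Fact p.Prime] (D : EichlerShimuraDatum N p) (g : GQ) :
    uTrace D (g ^ 2) = uTrace D g ^ 2 - 2 * algebraMap ℤ_[p] _ (cyc p g).val := by
  have h1 : D.galois g * D.galois g⁻¹ = 1 := galois_mul_inv D g
  have h2 : D.galois g⁻¹ * D.galois g = 1 := by rw [← map_mul, inv_mul_cancel, map_one]
  rw [uTrace, uTrace, map_pow, map_pow (cyc p), Units.val_pow_eq_pow_val, ← inv_pow, map_pow,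
    sq, sq, sq, sq, add_mul, mul_add, mul_add, mul_smul_comm, smul_mul_assoc, smul_mul_assoc,
    mul_smul_comm, h1, h2, smul_smul, Algebra.algebraMap_eq_smul_one, two_mul]
  abel

set_option maxHeartbeats 800000 in
/-- The polynomial of Frobenius at a prime exactly dividing the level of a newform. -/
theorem exists_charpoly_semistable {M : ℕ} [NeZero M] (hred : KummerReduction M)
    (hsq : InertiaProdZero M) {g : CuspForm (Gamma0 M) 2} (hg : g.IsNewform)
    (lam : ℕ) [Fact lam.Prime] (S : Finset ℕ)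
    (O' : Type) [CommRing O'] [IsDomain O'] [IsDiscreteValuationRing O']
    [IsAdicComplete (maximalIdeal O') O'] [Finite (ResidueField O')]
    [CharZero O'] (hlamO' : (lam : O') ∈ maximalIdeal O')
    (chig : CuspForm.heckeAlgebra M 2 (↑S : Set ℕ) →+* ℂ)
    (hchig : ∀ (ℓ : ℕ) (hℓ : ℓ.Prime) (hℓM : ¬ ℓ ∣ M) (hℓS : ℓ ∉ (↑S : Set ℕ)),
      chig (CuspForm.heckeAlgebra.T hℓ hℓM hℓS) = ModularFormClass.qCoeff g ℓ)
    (iota : chig.range →+* O')
    (hlamS : lam ∈ S) (hMS : ∀ q : ℕ, q.Prime → q ∣ M → q ∈ S)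
    (hfix : FrobeniusFixedRelation M S chig) :
    ∃ (O'' : Type) (_ : CommRing O'') (_ : IsDomain O'') (_ : IsDiscreteValuationRing O'')
      (_ : IsAdicComplete (maximalIdeal O'') O'') (_ : Finite (ResidueField O''))
      (_ : CharZero O'') (_ : Algebra O' O'') (_ : Module.Finite O' O'')
      (_ : IsLocalHom (algebraMap O' O'')),
      Function.Injective (algebraMap O' O'') ∧
      ∃ ρ : GaloisRepAdic O'',
        (∀ (ℓ : ℕ) (hℓ : ℓ.Prime) (hℓM : ¬ ℓ ∣ M) (hℓS : ℓ ∉ (↑S : Set ℕ)),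
          ∀ A : ValuationSubring (AlgebraicClosure ℚ), A.LiesOverPrime ℓ →
            ∀ σ : GQ, A.IsFrobeniusAt σ ℓ →
              LinearMap.charpoly (ρ.ρ σ) =
                X ^ 2 - C (algebraMap O' O'' ((iota.comp chig.rangeRestrict)
                  (CuspForm.heckeAlgebra.T hℓ hℓM hℓS))) * X + C ((ℓ : O''))) ∧
        (∀ q : ℕ, q.Prime → q ≠ lam → q ∣ M → ¬ q ^ 2 ∣ M →
          ∀ A : ValuationSubring (AlgebraicClosure ℚ), A.LiesOverPrime q →
            ∀ σ : GQ, A.IsFrobeniusAt σ q →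
              LinearMap.charpoly (ρ.ρ σ) = X ^ 2 - C ((q : O'') + 1) * X + C ((q : O'')) ∨
              LinearMap.charpoly (ρ.ρ σ) = X ^ 2 + C ((q : O'') + 1) * X + C ((q : O''))) := by
  classical
  haveI : ∀ k, NeZero (lam ^ k) := fun k => ⟨pow_ne_zero k (Fact.out : lam.Prime).ne_zero⟩
  let K : ∀ k, KummerGalois M (lam ^ k) := fun k => kummerGalois M (lam ^ k)
  have hF : KummerFrobenius M := kummerFrobenius M hred
  let D : EichlerShimuraDatum M lam := eichlerShimuraDatum K (kummerCompat M)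
    (fun k => kummerHeckeComm M (lam ^ k)) hF
  obtain ⟨O'', i1, i2, i3, i4, i5, i6, i7, i8, i9, hinj, ρ, hchar, -⟩ :=
    exists_galoisRepAdic D S hlamS O' hlamO' (iota.comp chig.rangeRestrict)
  refine ⟨O'', i1, i2, i3, i4, i5, i6, i7, i8, i9, hinj, ρ, hchar, ?_⟩
  intro q hq hqlam hqM hq2 A hA σ hσ
  have hp'' : (lam : O'') ∈ maximalIdeal O'' := by
    have := map_nonunit (algebraMap O' O'') _ hlamO'
    rwa [map_natCast] at this
  letI : Algebra ℤ_[lam] O'' := padicAlgebra hp''
  have hinjp : Function.Injective (algebraMap ℤ_[lam] O'') := by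
    rw [RingHom.injective_iff_ker_eq_bot]
    by_contra hne
    obtain ⟨k, hk⟩ := PadicInt.ideal_eq_span_pow_p hne
    have h := RingHom.mem_ker.1 (hk.symm ▸ Ideal.mem_span_singleton_self ((lam : ℤ_[lam]) ^ k))
    rw [map_pow, map_natCast] at h
    exact (Fact.out : lam.Prime).ne_zero (Nat.cast_eq_zero.1 (eq_zero_of_pow_eq_zero h))
  have hI : ∀ x : O'', (∀ k, x ∈ maximalIdeal O'' ^ k) → x = 0 := fun x hx =>
    IsHausdorff.haus (inferInstance : IsHausdorff (maximalIdeal O'') O'') x fun k => by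
      rw [SModEq.zero, smul_eq_mul, Ideal.mul_top]; exact hx k
  set χ : CuspForm.heckeAlgebra M 2 (↑S : Set ℕ) →+* O'' :=
    (algebraMap O' O'').comp (iota.comp chig.rangeRestrict) with hχ
  obtain ⟨ψ, hψ, hψc⟩ := exists_extension (D := D) hp'' hI χ
  obtain ⟨r, hr⟩ := exists_hasMatrix ρ
  have htr := trace_eq_uTrace D S frobeniusPowDensity χ ψ hψ hψc ρ hchar hr
  -- the determinant
  set u : heckeClosure D (↑S : Set ℕ) :=
    ⟨uTrace D σ, uTrace_mem D frobeniusPowDensity S σ⟩ with hu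
  have hsq2 : (⟨uTrace D (σ ^ 2), uTrace_mem D frobeniusPowDensity S _⟩ :
      heckeClosure D (↑S : Set ℕ)) = u ^ 2 - 2 * algebraMap ℤ_[lam] _ (q : ℤ_[lam]) := by
    refine Subtype.ext ?_
    show uTrace D (σ ^ 2) = _
    rw [uTrace_sq, cyc_frobenius lam hq hqlam hA hσ]
    simp [hu]
    rfl
  have hdet : (r σ).det = q := by
    have h1 := htr (σ ^ 2)
    rw [hsq2, map_pow, trace_pow_eq_frobPoly, map_sub, map_pow, map_mul, map_ofNat, AlgHom.commutes,
      map_natCast, htr σ] at h1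
    simp only [frobPoly] at h1
    exact mul_left_cancel₀ two_ne_zero (show (2 : O'') * (r σ).det = 2 * q by
      linear_combination -h1)
  -- the trace
  have hcore : ∀ t ∈ A.inertiaSubgroupIn ℚ, ∀ t' ∈ A.inertiaSubgroupIn ℚ,
      (D.galois t - 1) * (D.galois t' - 1) = 0 :=
    fun t ht t' ht' => galois_prod_zero (p := lam) hred hsq hq hqlam hqM hq2 hA ht ht'
  obtain ⟨P, k, C₀, haP, hk, hC, hrel⟩ := hfix q hq hqM hq2 A hA σ hσ
  have hψP : ∀ F, ψ (heckeClosureHom D (↑S : Set ℕ) (MvPolynomial.map (Int.castRingHom ℤ_[lam]) F)) =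
      χ (evFormsOff (↑S : Set ℕ) F) := fun F => by
    induction F using MvPolynomial.induction_on with
    | C a => simp
    | add x y hx hy => simp only [map_add, hx, hy]
    | mul_X x i hx =>
      simp only [map_mul, hx, MvPolynomial.map_X]
      congr 1
      rw [show heckeClosureHom D (↑S : Set ℕ) (MvPolynomial.X i) = heckeGen D _ i from
        MvPolynomial.aeval_X _ _, hψ, evFormsOff, MvPolynomial.aeval_X]
  have hinjι : Function.Injective iota := injective_of_range chig iota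
  set e : heckeClosure D (↑S : Set ℕ) :=
    heckeClosureHom D (↑S : Set ℕ) (MvPolynomial.map (Int.castRingHom ℤ_[lam]) P) with he
  have he0 : ψ e ≠ 0 := fun h => by
    rw [he, hψP, hχ, RingHom.comp_apply, map_eq_zero_iff _ hinj, RingHom.comp_apply,
      map_eq_zero_iff _ hinjι] at h
    exact haP (congrArg Subtype.val h)
  have heig := eigen_of_qCoeff hg.isNormalizedEigenform S hMS chig hchig
  have hχ0 : ∀ t, chig t = 0 → χ t = 0 := fun t ht => by
    have : chig.rangeRestrict t = 0 := Subtype.ext ht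
    rw [hχ, RingHom.comp_apply, RingHom.comp_apply, this, map_zero, map_zero]
  have key := sq_uTrace_eq D S frobeniusPowDensity hinjp ψ hq hqlam hA hσ hcore he0 hk
    (fun x hx => by
      let xL : Lat M lam := x
      rw [he, coe_heckeClosureHom_map]
      refine nsmul_eq_zero_lat (p := lam) hC fun j => ?_
      have h := hrel (lam ^ j) (fun hdvd => hqlam ((Nat.prime_dvd_prime_iff_eq hq Fact.out).mp
        (hq.dvd_of_dvd_pow hdvd))) (redPow j xL) fun t ht => by
          have := congrArg (fun z : Lat M lam => redPow j z) (hx t ht)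
          exact (redPow_latGalois K (kummerCompat M) t xL j).symm.trans this
      show C₀ • redPow j (latHeckePoly M lam (rename Subtype.val P)
        ((latGalois K (kummerCompat M) σ ^ k - (q : Module.End ℤ_[lam] (Lat M lam)) ^ k)
          (latGalois K (kummerCompat M) σ (latGalois K (kummerCompat M) σ xL) -
            xL))) = 0
      rw [redPow_latHeckePoly, LinearMap.sub_apply, ← map_pow (latGalois K _), ← Nat.cast_pow,
        Module.End.natCast_apply]
      simp only [map_sub, map_nsmul, redPow_latGalois, ← map_pow] at h ⊢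
      exact h)
    (c := conjQ) (cyc_conjQ lam) conjQ_mul_self
    (fun s hs Q hQ => by
      obtain ⟨s', hs', rfl⟩ : ∃ s' : ℤ, (s' = 1 ∨ s' = -1) ∧ (s' : ℤ_[lam]) = s := by
        rcases hs with rfl | rfl
        · exact ⟨1, Or.inl rfl, by simp⟩
        · exact ⟨-1, Or.inr rfl, by simp⟩
      exact sign_support K (kummerCompat M) (fun k => kummerHeckeComm M (lam ^ k)) hF
        (↑S : Set ℕ) hp'' hI χ chig hχ0 hg.ne_zero heig ψ hψ hs' hQ)
  rw [← hu] at key
  obtain ⟨bas, hbas⟩ := hr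
  rw [← LinearMap.charpoly_toMatrix _ bas, hbas, Matrix.charpoly_fin_two, htr σ, ← hu, hdet]
  rcases eq_or_eq_neg_of_sq_eq_sq _ _ key with h | h <;> rw [h]
  · left; push_cast; rfl
  · right; push_cast; rw [map_neg]; ring

end Fermat.Agent.GalRep.Semistable
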