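/-
From reductions of series at a place to the Gauss places of the level field, and functions fixed
by inertia as elements of the descended field.
-/
import Fermat.Agent.GalRep.Semistable.Inertia
import Fermat.Agent.Models.Gamma0.Chart
import Fermat.Agent.Models.DetectResidue

set_option autoImplicit false
set_option linter.style.haveILetI false

noncomputable section

namespace Fermat.Agent.GalRep.Semistable

open UpperHalfPlane CongruenceSubgroup IsLocalRing
open Fermat.Agent.Galois (GQ)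
open Fermat.Agent.GalRep.Level
open Fermat.Agent.ModField
open Fermat.Agent.Models (IsU rs)
open Fermat.Agent.GalRep.Model (SeriesField C_pi_prime)
open scoped MatrixGroups

local notation "ℚb" => AlgebraicClosure ℚ
local notation "κ" A:max => IsLocalRing.ResidueField A

variable {A : ValuationSubring (AlgebraicClosure ℚ)}

/-- The constants sit inside the place, compatibly with the embedding. -/
structure ConstMap (A : ValuationSubring (AlgebraicClosure ℚ)) {O : Type} [CommRing O] {M : ℕ}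
    (E : Emb O M) (π : O) (ψ : O →+* A) : Prop where
  comm : ∀ a, qbarToC (ψ a : ℚb) = E.φ a
  dvd_iff : ∀ a, (ψ a : ℚb) ∈ A.nonunits ↔ π ∣ a

theorem hasRed_zero : HasRed A (0 : LaurentSeries ℚb) 0 := fun _ => ⟨A.zero_mem, map_zero _⟩

theorem hasRed_sub {f g : LaurentSeries ℚb} {F G : LaurentSeries (κ A)} (hf : HasRed A f F)
    (hg : HasRed A g G) : HasRed A (f - g) (F - G) := by
  obtain ⟨a, rfl, rfl⟩ := HasRed.iff_exists.mp hf
  obtain ⟨b, rfl, rfl⟩ := HasRed.iff_exists.mp hg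
  exact HasRed.iff_exists.mpr ⟨a - b, map_sub _ _ _, map_sub _ _ _⟩

section Gauss

variable {O : Type} [CommRing O] [IsDomain O] [IsDiscreteValuationRing O] {M : ℕ} [NeZero M]
  {E : Emb O M} {π : O} {ψ : O →+* A} (hψ : ConstMap A E π ψ)

/-- A power series over the constants as a series over `ℚ̄`. -/
def serQ (ψ : O →+* A) (g : PowerSeries O) : LaurentSeries ℚb :=
  lmap A.subtype (HahnSeries.ofPowerSeries ℤ A (PowerSeries.map ψ g))

/-- Its reduction. -/
def serRed (ψ : O →+* A) (g : PowerSeries O) : LaurentSeries (κ A) :=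
  lmap (residue A) (HahnSeries.ofPowerSeries ℤ A (PowerSeries.map ψ g))

omit [IsDomain O] [IsDiscreteValuationRing O] in
theorem hasRed_serQ (g : PowerSeries O) : HasRed A (serQ ψ g) (serRed ψ g) :=
  HasRed.iff_exists.mpr ⟨_, rfl, rfl⟩

include hψ

omit [IsDomain O] [IsDiscreteValuationRing O] [NeZero M] in
theorem seriesToC_serQ (g : PowerSeries O) : seriesToC (serQ ψ g) = E.gO g := by
  ext k
  rw [seriesToC_eq_lmap, serQ, lmap_coeff, lmap_coeff, Emb.gO, RingHom.comp_apply]
  by_cases hk : ∃ i : ℕ, (i : ℤ) = k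
  · obtain ⟨i, rfl⟩ := hk
    rw [HahnSeries.ofPowerSeries_apply_coeff, HahnSeries.ofPowerSeries_apply_coeff,
      PowerSeries.coeff_map, PowerSeries.coeff_map]
    exact hψ.comm _
  · rw [HahnSeries.ofPowerSeries_apply, HahnSeries.ofPowerSeries_apply,
      HahnSeries.embDomain_of_notMem_range, HahnSeries.embDomain_of_notMem_range, map_zero, map_zero]
    all_goals rintro ⟨i, hi⟩; exact hk ⟨i, hi⟩

omit [IsDomain O] [IsDiscreteValuationRing O] [NeZero M] in
theorem serRed_eq_zero_iff (g : PowerSeries O) : serRed ψ g = 0 ↔ PowerSeries.C π ∣ g := by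
  have key : ∀ i : ℕ, (serRed ψ g).coeff (i : ℤ) = residue A (ψ (PowerSeries.coeff i g)) := fun i => by
    rw [serRed, lmap_coeff, HahnSeries.ofPowerSeries_apply_coeff, PowerSeries.coeff_map]
  have key2 : ∀ i : ℕ, residue A (ψ (PowerSeries.coeff i g)) = 0 ↔ π ∣ PowerSeries.coeff i g :=
    fun i => by rw [residue_eq_zero_iff, ← A.coe_mem_nonunits_iff, hψ.dvd_iff]
  constructor
  · intro h
    have hdvd : ∀ i, π ∣ PowerSeries.coeff i g := fun i =>
      (key2 i).mp (by rw [← key, h, HahnSeries.coeff_zero])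
    choose c hc using hdvd
    exact ⟨PowerSeries.mk c, PowerSeries.ext fun i => by
      rw [PowerSeries.coeff_C_mul, PowerSeries.coeff_mk, ← hc]⟩
  · rintro ⟨c, rfl⟩
    ext k
    by_cases hk : ∃ i : ℕ, (i : ℤ) = k
    · obtain ⟨i, rfl⟩ := hk
      rw [key, HahnSeries.coeff_zero, key2, PowerSeries.coeff_C_mul]
      exact dvd_mul_right _ _
    · rw [serRed, lmap_coeff, HahnSeries.ofPowerSeries_apply, HahnSeries.embDomain_of_notMem_range,
        map_zero, HahnSeries.coeff_zero]
      rintro ⟨i, hi⟩; exact hk ⟨i, hi⟩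

omit [NeZero M] in
/-- A series with a reduction is in the Gauss ring; it is a unit exactly when the reduction is
nonzero. -/
theorem gauss_of_hasRed (hπ : Irreducible π) {y : SeriesField O} {b : LaurentSeries ℚb}
    {Φ : LaurentSeries (κ A)} (hy : E.toC y = seriesToC b) (hb : HasRed A b Φ) :
    y ∈ gaussRing hπ ∧ (y ∈ (gaussRing hπ).nonunits ↔ Φ = 0) := by
  have conv : ∀ {a c : PowerSeries O}, y * algebraMap _ (SeriesField O) c = algebraMap _ _ a →
      Φ * serRed ψ c = serRed ψ a := fun {a c} h => by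
    have h1 := congrArg E.toC h
    rw [map_mul, E.toC_algebraMap, E.toC_algebraMap, hy, ← seriesToC_serQ hψ,
      ← seriesToC_serQ hψ, seriesToC_eq_lmap, seriesToC_eq_lmap, seriesToC_eq_lmap, ← map_mul] at h1
    exact hasRed_unique ((lmap_injective qbarToC_injective h1) ▸ hb.mul (hasRed_serQ c))
      (hasRed_serQ a)
  have hmem : y ∈ gaussRing hπ := by
    rcases (gaussRing hπ).mem_or_inv_mem y with h | h
    · exact h
    by_contra hn
    have hy0 : y ≠ 0 := fun h0 => hn (h0 ▸ zero_mem _)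
    have hnu : y⁻¹ ∈ (gaussRing hπ).nonunits := by
      rw [ValuationSubring.mem_nonunits_iff, map_inv₀,
        inv_lt_one₀ (zero_lt_iff.mpr ((gaussRing hπ).valuation.ne_zero_iff.mpr hy0))]
      exact not_le.mp fun hle => hn (((gaussRing hπ).valuation_le_one_iff y).mp hle)
    obtain ⟨a, c, hc, ha, e⟩ := (mem_nonunits_gaussRing hπ).mp hnu
    have e2 : y * algebraMap _ (SeriesField O) a = algebraMap _ _ c := by
      rw [← e, ← mul_assoc, mul_inv_cancel₀ hy0, one_mul]
    have h3 := conv e2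
    rw [(serRed_eq_zero_iff hψ a).mpr ha, mul_zero, eq_comm, serRed_eq_zero_iff hψ] at h3
    exact hc h3
  refine ⟨hmem, fun hnu => ?_, fun h0 => ?_⟩
  · obtain ⟨a, c, hc, ha, e⟩ := (mem_nonunits_gaussRing hπ).mp hnu
    have h3 := conv e
    rw [(serRed_eq_zero_iff hψ a).mpr ha] at h3
    exact (mul_eq_zero.mp h3).resolve_right fun h => hc ((serRed_eq_zero_iff hψ c).mp h)
  · obtain ⟨a, c, hc, e⟩ := (mem_gaussRing hπ).mp hmem
    have h3 := conv e
    rw [h0, zero_mul, eq_comm, serRed_eq_zero_iff hψ] at h3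
    exact (mem_nonunits_gaussRing hπ).mpr ⟨a, c, hc, h3, e⟩

omit [NeZero M] hψ in
theorem toC_serAt_toFld [NeZero M] (δ : SL(2, ℤ)) (φ : bddMF E) :
    E.toC (serAt E δ (toFld E φ)) = serAlg M (shift M δ (φ : MF M)) := by
  rw [serAt, RingHom.comp_apply, RingEquiv.toRingHom_eq_coe, RingHom.coe_coe, fShift_toFld,
    toC_serF, toLS_toFld]

/-- Two functions with one nonzero reduction at `δ` are units with the same residue there. -/
theorem rs_eq_of_redAt (hπ : Irreducible π) {δ : SL(2, ℤ)} {X Y : bddMF E}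
    {Ψ : LaurentSeries (κ A)} (hX : RedAt A M ((X : MF M) : ℍ → ℂ) δ Ψ)
    (hY : RedAt A M ((Y : MF M) : ℍ → ℂ) δ Ψ) (hΨ : Ψ ≠ 0) :
    IsU (gaussP E hπ δ) (toFld E X) ∧ IsU (gaussP E hπ δ) (toFld E Y) ∧
      rs (gaussP E hπ δ) (toFld E X) = rs (gaussP E hπ δ) (toFld E Y) := by
  have key : ∀ {Z : bddMF E}, RedAt A M ((Z : MF M) : ℍ → ℂ) δ Ψ →
      ∃ b, E.toC (serAt E δ (toFld E Z)) = seriesToC b ∧ HasRed A b Ψ := fun {Z} hZ => by
    obtain ⟨b, hb, rb⟩ := hZ
    exact ⟨b, by rw [toC_serAt_toFld]; exact ((hb.unique (NeZero.pos M) (hasQSeries_shift _ δ))).symm,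
      rb⟩
  obtain ⟨a, ha, ra⟩ := key hX
  obtain ⟨b, hb, rb⟩ := key hY
  have hXg := gauss_of_hasRed hψ hπ ha ra
  have hYg := gauss_of_hasRed hψ hπ hb rb
  have hu : ∀ {Z : bddMF E}, (serAt E δ (toFld E Z) ∈ gaussRing hπ ∧
      (serAt E δ (toFld E Z) ∈ (gaussRing hπ).nonunits ↔ Ψ = 0)) →
      IsU (gaussP E hπ δ) (toFld E Z) := fun {Z} h => by
    refine ⟨(mem_gaussP E hπ δ).mpr h.1, fun h0 => hΨ (h.2.mp ?_)⟩
    exact (mem_nonunits_gaussP E hπ δ).mp ((Models.rs_eq_zero ((mem_gaussP E hπ δ).mpr h.1)).mp h0)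
  refine ⟨hu hXg, hu hYg, (Models.rs_eq_iff (hu hXg).1 (hu hYg).1).mpr ?_⟩
  rw [mem_nonunits_gaussP, map_sub]
  refine (gauss_of_hasRed hψ hπ (b := a - b) ?_ (hasRed_sub ra rb)).2.mpr (sub_self _)
  rw [map_sub, ha, hb, seriesToC_eq_lmap, seriesToC_eq_lmap, seriesToC_eq_lmap, map_sub]

end Gauss

/-! ## Fixed functions in the descended field -/

section Descend

variable {W : Type} [CommRing W] {O : Type} [CommRing O] [IsDomain O] [IsDiscreteValuationRing O]
  [Algebra W O] {q m : ℕ} [NeZero q] [NeZero m] {E : Emb O (q * m)}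

/-- Every constant fixed by inertia is a constant of the base. -/
def HasFixedConsts (A : ValuationSubring (AlgebraicClosure ℚ)) (W : Type) [CommRing W]
    {O : Type} [CommRing O] [Algebra W O] {M : ℕ} (E : Emb O M) : Prop :=
  ∀ c : ℚb, FixedConst A c → qbarToC c ∈ baseK W E

variable (hW : HasFixedConsts A W E)

omit [IsDiscreteValuationRing O] in
include hW in
theorem serAlg_mem_baseK {φ : MF (q * m)} (ha : AlgMF φ) (hf : InertiaFix A φ) :
    serAlg (q * m) φ ∈ kSer (baseK W E) := by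
  obtain ⟨a, ha⟩ := ha
  refine mem_kSer.mpr fun k => ?_
  rw [← ha, seriesToC_eq_lmap, lmap_coeff]
  refine hW _ fun t ht => ?_
  have h := inertiaFix_iff.mp hf t ht
  rw [← ha, lmap_seriesToC (liftAut_spec t)] at h
  have h2 := congrArg (fun f : LaurentSeries ℚb => f.coeff k) (seriesToC_injective h)
  simp only [seriesConj_eq_lmap, lmap_coeff] at h2
  exact h2

omit [IsDiscreteValuationRing O] in
include hW in
theorem mem_bddMF_of_fixed {φ : MF (q * m)} (ha : AlgMF φ) (hf : InertiaFix A φ) :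
    φ ∈ bddMF E := by
  refine bdd_of_kSer E (mem_kSer.mpr fun k => baseK_le W E ?_)
  exact mem_kSer.mp (serAlg_mem_baseK hW ha hf) k

omit [IsDiscreteValuationRing O] in
include hW in
theorem toFld_mem_fld₀ (hqm : Nat.Coprime q m) {φ : MF (q * m)} (hi : Inv0 (q * m) (φ : ℍ → ℂ)) (ha : AlgMF φ)
    (hf : InertiaFix A φ) :
    toFld E ⟨φ, mem_bddMF_of_fixed hW ha hf⟩ ∈ Fld₀ W E q m := by
  refine mem_levelFld.mpr ⟨fun g hg => ?_, ?_⟩
  · rw [fShift_toFld]
    refine congrArg _ (Subtype.ext (Subtype.ext (funext fun τ => ?_)))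
    rw [shift_apply]
    refine hi g (Gamma0_mem.mpr ((ZMod.intCast_zmod_eq_zero_iff_dvd _ _).mpr ?_)) τ
    obtain ⟨h1, h2⟩ := mem_levelG.mp hg
    have hq := (ZMod.intCast_zmod_eq_zero_iff_dvd _ _).mp (Gamma0_mem.mp h1)
    have hm := (ZMod.intCast_zmod_eq_zero_iff_dvd _ _).mp (Gamma_mem.mp h2).2.2.1
    rw [Nat.cast_mul]
    exact IsCoprime.mul_dvd (Nat.isCoprime_iff_coprime.mpr hqm) hq hm
  · rw [toLS_toFld]
    exact serAlg_mem_baseK hW ha hf

end Descend

end Fermat.Agent.GalRep.Semistable
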