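/-
The base at a place: constants, and Frobenius at the place as an automorphism of the constants.
-/
import Fermat.Agent.GalRep.Semistable.Bridge
import Fermat.Agent.Models.Gamma0.FrobConj
import Fermat.Agent.NewVec.LocalBase

set_option autoImplicit false
set_option linter.style.haveILetI false
set_option linter.unusedSectionVars false

noncomputable section

namespace Fermat.Agent.GalRep.Semistable

open IsLocalRing
open Fermat.Agent.Galois (GQ)
open Fermat.Agent.GalRep.Level
open Fermat.Agent.ModField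
open Fermat.Agent.NewVec

local notation "ℚb" => AlgebraicClosure ℚ
local notation "κ" A:max => IsLocalRing.ResidueField A

variable {A : ValuationSubring (AlgebraicClosure ℚ)} {M : ℕ} [NeZero M]

instance instAlgebraWFld : Algebra (wBase A) (Fld (embO A M)) :=
  ((algebraMap (oBase A M) (Fld (embO A M))).comp (algebraMap (wBase A) (oBase A M))).toAlgebra

instance instTowerWFld : IsScalarTower (wBase A) (oBase A M) (Fld (embO A M)) :=
  IsScalarTower.of_algebraMap_eq fun _ => rfl

instance instFaithfulWO : FaithfulSMul (wBase A) (oBase A M) :=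
  (faithfulSMul_iff_algebraMap_injective _ _).mpr fun a b h => by
    have h1 := congrArg (oVal A M) h
    rw [oVal_algebraMap, oVal_algebraMap] at h1
    exact Subtype.ext (Subtype.ext h1)

theorem finite_oBase {q m : ℕ} (hq : q.Prime) (hA : A.LiesOverPrime q) (hMm : M = q * m)
    (hqm : ¬ q ∣ m) : Module.Finite (wBase A) (oBase A M) := by
  have hint : IsIntegral (wBase A) (embO A M).ζ := by
    refine IsIntegral.of_pow (NeZero.pos M) ?_
    have e : (embO A M).ζ ^ M = 1 := oVal_injective A M (by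
      rw [map_pow, map_one, oVal_embO_ζ, (isPrimitiveRoot_zetaQ M).pow_eq_one])
    rw [e]
    exact isIntegral_one
  exact ⟨by
    rw [← Algebra.top_toSubmodule, ← adjoin_eq_top hq hA hMm hqm]
    exact hint.fg_adjoin_singleton⟩

theorem constMap_oBase {π : oBase A M} (hπ : maximalIdeal (oBase A M) = Ideal.span {π}) :
    ConstMap A (embO A M) π (cutHom (A := A) (algebraMap (oFld A M) ℚb)) where
  comm _ := rfl
  dvd_iff a := by
    rw [← Ideal.mem_span_singleton, ← hπ, mem_maximalIdeal_oBase, ← A.mem_nonunits_iff]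
    rfl

theorem hasFixedConsts_oBase : HasFixedConsts A (wBase A) (embO A M) := by
  intro c hc
  have hcI : c ∈ inertiaFld A := (mem_inertiaFld A).mpr hc
  have key : ∀ d (hd : d ∈ inertiaFld A), d ∈ A → qbarToC d ∈ baseK (wBase A) (embO A M) :=
    fun d hd hdA => Subfield.subset_closure ⟨⟨⟨d, hd⟩, hdA⟩, rfl⟩
  rcases A.mem_or_inv_mem c with h | h
  · exact key c hcI h
  · have := inv_mem (key c⁻¹ (inv_mem hcI) h)
    rwa [map_inv₀, inv_inv] at this

theorem mem_inertiaFld_apply {σ : GQ} (hσ : σ ∈ A.decompositionSubgroup ℚ) {x : ℚb}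
    (hx : x ∈ inertiaFld A) : σ x ∈ inertiaFld A :=
  (mem_inertiaFld A).mpr (FixedConst.apply hσ ((mem_inertiaFld A).mp hx))

theorem mem_oFld_apply {σ : GQ} (hσ : σ ∈ A.decompositionSubgroup ℚ) {x : ℚb}
    (hx : x ∈ oFld A M) : σ x ∈ oFld A M := by
  induction hx using IntermediateField.adjoin_induction with
  | mem x hx =>
    rw [Set.mem_singleton_iff] at hx
    subst hx
    obtain ⟨j, -, hj⟩ := (isPrimitiveRoot_zetaQ M).eq_pow_of_pow_eq_one
      (ξ := σ (zetaQ M)) (by rw [← map_pow, (isPrimitiveRoot_zetaQ M).pow_eq_one, map_one])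
    rw [← hj]
    exact pow_mem (IntermediateField.mem_adjoin_simple_self _ _) j
  | algebraMap x =>
    exact IntermediateField.algebraMap_mem _ (⟨σ x, mem_inertiaFld_apply hσ x.2⟩ : inertiaFld A)
  | add x y _ _ hx hy => rw [map_add]; exact add_mem hx hy
  | inv x _ hx => rw [map_inv₀]; exact inv_mem hx
  | mul x y _ _ hx hy => rw [map_mul]; exact mul_mem hx hy

theorem mem_place_apply {σ : GQ} (hσ : σ ∈ A.decompositionSubgroup ℚ) {x : ℚb} (hx : x ∈ A) :
    σ x ∈ A := ((⟨σ, hσ⟩ : A.decompositionSubgroup ℚ) • (⟨x, hx⟩ : A)).2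

theorem liftAut_mem_stabK {σ : GQ} (hσ : σ ∈ A.decompositionSubgroup ℚ) :
    liftAut σ ∈ stabK (embO A M) := by
  rw [mem_stabK]
  intro c
  simp only [mem_embO_K]
  constructor
  · rintro ⟨x, hx, he⟩
    refine ⟨σ⁻¹ x, mem_oFld_apply (inv_mem hσ) hx, (liftAut σ).injective ?_⟩
    rw [liftAut_spec, ← he]
    exact congrArg qbarToC (σ.apply_symm_apply x)
  · rintro ⟨x, hx, rfl⟩
    exact ⟨σ x, mem_oFld_apply hσ hx, (liftAut_spec σ x).symm⟩

/-- Frobenius at the place on the constants of the base. -/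
theorem constFrob_oBase {q : ℕ} (hq : q.Prime) (hA : A.LiesOverPrime q)
    [IsDiscreteValuationRing (wBase A)] {σ : GQ} (hσ : A.IsFrobeniusAt σ q) :
    ConstFrob (wBase A) (⟨liftAut σ, liftAut_mem_stabK hσ.mem_decompositionSubgroup⟩ :
      stabK (embO A M)) q where
  pos := hq.pos
  base a := by
    have hd := hσ.mem_decompositionSubgroup
    let a' : wBase A := ⟨⟨σ ((a : inertiaFld A) : ℚb), mem_inertiaFld_apply hd (a : inertiaFld A).2⟩,
      mem_place_apply hd a.2⟩
    refine ⟨a', liftAut_spec σ _, ?_⟩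
    refine Eq.trans ?_ (map_pow (residue (wBase A)) a q)
    refine Ideal.Quotient.eq.mpr ?_
    refine (mem_maximalIdeal_cut _ _).mpr ?_
    have h1 := hσ.smul_residue_eq (residue A ⟨((a : inertiaFld A) : ℚb), a.2⟩)
    rw [← ResidueField.residue_smul, ← map_pow] at h1
    replace h1 := Ideal.Quotient.eq.mp h1
    exact A.mem_nonunits_iff.mp (A.coe_mem_nonunits_iff.mpr h1)
  base_symm a := by
    have hd := inv_mem hσ.mem_decompositionSubgroup
    let a' : wBase A := ⟨⟨σ⁻¹ ((a : inertiaFld A) : ℚb),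
      mem_inertiaFld_apply hd (a : inertiaFld A).2⟩, mem_place_apply hd a.2⟩
    refine ⟨a', (liftAut_spec σ _).trans (congrArg qbarToC ?_)⟩
    exact σ.apply_symm_apply _
  int o := ⟨⟨⟨σ ((o : oFld A M) : ℚb), mem_oFld_apply hσ.mem_decompositionSubgroup (o : oFld A M).2⟩,
    mem_place_apply hσ.mem_decompositionSubgroup o.2⟩, liftAut_spec σ _⟩
  int_symm o := ⟨⟨⟨σ⁻¹ ((o : oFld A M) : ℚb),
      mem_oFld_apply (inv_mem hσ.mem_decompositionSubgroup) (o : oFld A M).2⟩,
    mem_place_apply (inv_mem hσ.mem_decompositionSubgroup) o.2⟩,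
    (liftAut_spec σ _).trans (congrArg qbarToC (σ.apply_symm_apply _))⟩

end Fermat.Agent.GalRep.Semistable
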