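/-
Functions of a level seen at a multiple of the level.
-/
import Fermat.Agent.GalRep.Semistable.Inertia
import Fermat.Agent.GalRep.Semistable.BadCongr

set_option autoImplicit false
set_option linter.style.haveILetI false
set_option linter.unusedSectionVars false

noncomputable section

namespace Fermat.Agent.GalRep.Semistable

open UpperHalfPlane CongruenceSubgroup
open Fermat.Agent.Galois (GQ)
open Fermat.Agent.GalRep.Level
open Fermat.Agent.ModField (conjM conjM_spec conjM_eq)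
open scoped MatrixGroups

local notation "ℚb" => AlgebraicClosure ℚ
local notation "κ" A:max => IsLocalRing.ResidueField A

variable {M M' : ℕ} [NeZero M] [NeZero M'] (hd : M ∣ M')

/-- A function of level `M` at level `M'`. -/
def liftLvl (φ : MF M) : MF M' :=
  Subalgebra.inclusion (modFuns_anti fun γ hγ => by
    obtain ⟨h1, h2, h3, h4⟩ := Gamma_mem.mp hγ
    have e : ∀ {x y : ℤ}, (x : ZMod M') = y → (x : ZMod M) = y := fun {x y} h => by
      simpa using congrArg (ZMod.castHom hd (ZMod M)) h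
    exact Gamma_mem.mpr ⟨by simpa using e (y := 1) (by simpa using h1),
      by simpa using e (y := 0) (by simpa using h2), by simpa using e (y := 0) (by simpa using h3),
      by simpa using e (y := 1) (by simpa using h4)⟩) φ

theorem coe_liftLvl (φ : MF M) : (liftLvl hd φ : ℍ → ℂ) = φ := rfl

theorem exists_serAlg_liftLvl : ∃ (t : ℕ) (ht : t ≠ 0), M' = M * t ∧
    ∀ φ : MF M, serAlg M' (liftLvl hd φ) = expand t ht (serAlg M φ) := by
  obtain ⟨t, ht⟩ := hd
  have ht0 : t ≠ 0 := fun h => NeZero.ne M' (by rw [ht, h, mul_zero])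
  refine ⟨t, ht0, ht, fun φ => ?_⟩
  have h1 := (hasQSeries_serHom φ).refine_width (NeZero.pos M) t ht0
  rw [← ht] at h1
  exact ((hasQSeries_serHom (liftLvl ⟨t, ht⟩ φ)).unique (NeZero.pos M') h1)

theorem inv0_liftLvl {φ : MF M} (h : Inv0 M (φ : ℍ → ℂ)) : Inv0 M' (liftLvl hd φ : ℍ → ℂ) :=
  fun γ hγ τ => h γ (by
    have := congrArg (ZMod.castHom hd (ZMod M)) (Gamma0_mem.mp hγ)
    exact Gamma0_mem.mpr (by simpa using this)) τ

theorem conjM_liftLvl (σ : ℂ ≃+* ℂ) (φ : MF M) :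
    conjM σ (liftLvl hd φ) = liftLvl hd (conjM σ φ) := by
  obtain ⟨t, ht0, -, hser⟩ := exists_serAlg_liftLvl hd
  refine serAlg_injective M' ?_
  rw [serAlg_conjM_one, hser, hser, serAlg_conjM_one, lmap_expand]

theorem algMF_liftLvl {φ : MF M} (h : AlgMF φ) : AlgMF (liftLvl hd φ) := by
  obtain ⟨t, ht0, -, hser⟩ := exists_serAlg_liftLvl hd
  obtain ⟨a, ha⟩ := h
  exact ⟨expand t ht0 a, by rw [hser, ← ha, seriesToC_eq_lmap, seriesToC_eq_lmap, lmap_expand]⟩

theorem inertiaFix_liftLvl {A : ValuationSubring ℚb} {φ : MF M} (h : InertiaFix A φ) :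
    InertiaFix A (liftLvl hd φ) := fun t ht => by rw [conjM_liftLvl, h t ht]

include hd in
theorem exists_expand_redAt {A : ValuationSubring ℚb} :
    ∃ (t : ℕ) (ht : t ≠ 0), ∀ {F : ℍ → ℂ} {δ : SL(2, ℤ)} {Φ : LaurentSeries (κ A)},
      RedAt A M F δ Φ → RedAt A M' F δ (expand t ht Φ) := by
  obtain ⟨t, ht⟩ := hd
  have ht0 : t ≠ 0 := fun h => NeZero.ne M' (by rw [ht, h, mul_zero])
  refine ⟨t, ht0, fun {F δ Φ} hΦ => ?_⟩
  obtain ⟨a, ha, ra⟩ := hΦ
  refine ⟨expand t ht0 a, ?_, ra.expand t ht0⟩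
  have h1 := ha.refine_width (NeZero.pos M) t ht0
  rw [← ht] at h1
  rw [seriesToC_eq_lmap, lmap_expand]
  exact h1

include hd in
/-- Congruences hold at the larger level. -/
theorem redAt_pair_lift {A : ValuationSubring ℚb} {F G : ℍ → ℂ} {δ : SL(2, ℤ)}
    {Ψ : LaurentSeries (κ A)} (hΨ : Ψ ≠ 0) (hF : RedAt A M F δ Ψ) (hG : RedAt A M G δ Ψ) :
    ∃ Ψ' : LaurentSeries (κ A), Ψ' ≠ 0 ∧ RedAt A M' F δ Ψ' ∧ RedAt A M' G δ Ψ' := by
  obtain ⟨t, ht0, h⟩ := exists_expand_redAt (A := A) hd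
  exact ⟨_, fun h0 => hΨ ((expand t ht0).injective (h0.trans (map_zero _).symm)), h hF, h hG⟩

end Fermat.Agent.GalRep.Semistable
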