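/-
The Frobenius defect on the descended model of a multiple of the level, on functions.
-/
import Fermat.Agent.GalRep.Semistable.Base
import Fermat.Agent.GalRep.Semistable.Lift
import Fermat.Agent.GalRep.Semistable.RepTools
import Fermat.Agent.Models.Gamma0.FrobRoot
import Fermat.Agent.Models.Gamma0.Horizontal

set_option autoImplicit false
set_option linter.style.haveILetI false
set_option linter.unusedSectionVars false

noncomputable section

namespace Fermat.Agent.GalRep.Semistable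

open UpperHalfPlane CongruenceSubgroup IsLocalRing
open Fermat.Agent.Galois (GQ)
open Fermat.Agent.GalRep.Level
open Fermat.Agent.ModField
open Fermat.Agent.NewVec
open Fermat.Agent.Models (SemiPoints HasRootAt IsU rs)
open Fermat.Agent.GalRep.Model (chartRing)
open scoped MatrixGroups Manifold

local notation "ℚb" => AlgebraicClosure ℚ
local notation "κ" A:max => IsLocalRing.ResidueField A

variable {A : ValuationSubring (AlgebraicClosure ℚ)}

/-- Both descended charts over the base at the place have smooth points and nodes. -/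
def ChartsSemi (A : ValuationSubring (AlgebraicClosure ℚ)) (q m : ℕ) [NeZero (q * m)] : Prop :=
  SemiPoints (chartRing (wBase A) (jF₀ (wBase A) (embO A (q * m)) q m)) (q : wBase A) ∧
    SemiPoints (chartRing (wBase A) (jF₀ (wBase A) (embO A (q * m)) q m)⁻¹) (q : wBase A)

theorem liftAut_pow_apply {σ : GQ} : ∀ (k : ℕ) (x : ℚb),
    ((liftAut σ) ^ k : ℂ ≃+* ℂ) (qbarToC x) = qbarToC ((σ ^ k) x)
  | 0, x => rfl
  | k + 1, x => by
    rw [pow_succ, pow_succ]
    show ((liftAut σ) ^ k : ℂ ≃+* ℂ) (liftAut σ (qbarToC x)) = qbarToC ((σ ^ k) (σ x))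
    rw [liftAut_spec, liftAut_pow_apply k]

theorem isUnit_natCast_wBase {q n : ℕ} (hq : q.Prime) (hA : A.LiesOverPrime q) (hqn : ¬ q ∣ n) :
    IsUnit (n : wBase A) := by
  by_contra hu
  have h1 : (n : wBase A) ∈ maximalIdeal (wBase A) := hu
  have h2 := (mem_maximalIdeal_cut _ _).mp h1
  haveI := charP_residue (A := A) hq hA
  refine hqn ((CharP.cast_eq_zero_iff (κ A) q n).mp ?_)
  rw [← map_natCast (residue A), residue_eq_zero_iff, ← A.coe_mem_nonunits_iff,
    A.mem_nonunits_iff]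
  simpa using h2

section Field

variable {M : ℕ} [NeZero M] {O : Type} [CommRing O] [IsDomain O] {E : Emb O M}

theorem exists_conj_toFld {s : stabK E} {τ : ℂ ≃+* ℂ} (hs : s.1 = τ) (z : bddMF E) :
    ∃ z' : bddMF E, fConj E s (toFld E z) = toFld E z' ∧
      (z' : MF M) = conjM τ (z : MF M) :=
  ⟨_, fConj_toFld E _ z, by rw [← hs]; rfl⟩

/-- Clearing denominators in the equation of the defect. -/
theorem clear_denominators {a b c u v u' v' : bddMF E} (hb : toFld E b ≠ 0) (hu : toFld E u ≠ 0)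
    (hv' : toFld E v' ≠ 0) {n e r Q : ℕ}
    (h : (toFld E a / toFld E b) ^ n = toFld E c *
      ((toFld E u' / toFld E v') ^ r / ((toFld E u / toFld E v) ^ r) ^ Q) ^ e) :
    a ^ n * (v' * u ^ Q) ^ (r * e) = c * (b ^ n * (u' * v ^ Q) ^ (r * e)) := by
  refine toFld_injective E ?_
  simp only [map_mul, map_pow]
  have e1 : ((toFld E u' / toFld E v') ^ r / ((toFld E u / toFld E v) ^ r) ^ Q) =
      ((toFld E u' * toFld E v ^ Q) / (toFld E v' * toFld E u ^ Q)) ^ r := by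
    rw [← pow_mul, mul_comm r Q, pow_mul, ← div_pow, div_pow (toFld E u)]
    field_simp
  have hne : (toFld E v' * toFld E u ^ Q) ^ (r * e) ≠ 0 :=
    pow_ne_zero _ (mul_ne_zero hv' (pow_ne_zero _ hu))
  rw [e1, ← pow_mul, div_pow, div_pow, mul_div_assoc', div_eq_div_iff (pow_ne_zero _ hb) hne] at h
  linear_combination h

/-- A ratio in a descended field gives invariant pairs. -/
theorem mul_comm_of_mem_levelFld {q m : ℕ} {K : Subfield ℂ} {a b : bddMF E} (hb : b ≠ 0)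
    (h : toFld E a / toFld E b ∈ levelFld E q m K) {γ : SL(2, ℤ)} (hγ : γ ∈ levelG q m) (z : ℍ) :
    ((a : MF M) : ℍ → ℂ) (γ • z) * ((b : MF M) : ℍ → ℂ) z =
      ((a : MF M) : ℍ → ℂ) z * ((b : MF M) : ℍ → ℂ) (γ • z) := by
  have h1 := (mem_levelFld.mp h).1 _ hγ
  rw [map_div₀, fShift_toFld, fShift_toFld] at h1
  change toFld E (shiftB E γ a) / toFld E (shiftB E γ b) = _ at h1
  rw [div_eq_div_iff
    ((map_ne_zero_iff _ (toFld_injective E)).mpr ((map_ne_zero_iff _ (shiftB E γ).injective).mpr hb))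
    ((map_ne_zero_iff _ (toFld_injective E)).mpr hb), ← map_mul, ← map_mul] at h1
  exact congrFun (congrArg (fun w : bddMF E => ((w : MF M) : ℍ → ℂ)) (toFld_injective E h1)) z

end Field

variable {q m : ℕ} [Fact q.Prime] [NeZero q] [NeZero m]

set_option maxHeartbeats 800000 in
/-- On functions of level `qm`: the defect of a ratio congruent to a power everywhere is a power. -/
theorem exists_defect_root (hA : A.LiesOverPrime q) (hqm : ¬ q ∣ m) (hpts : ChartsSemi A q m)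
    {σ : GQ} (hσ : A.IsFrobeniusAt σ q) :
    ∃ k e : ℕ, 0 < k ∧ 0 < e ∧ ∀ (n : ℕ) [NeZero n], ¬ q ∣ n → ∀ u v : MF (q * m),
      IsPowFun n u → IsPowFun n v → u ≠ 0 → v ≠ 0 →
      Inv0 (q * m) (u : ℍ → ℂ) → AlgMF u → InertiaFix A u →
      Inv0 (q * m) (v : ℍ → ℂ) → AlgMF v → InertiaFix A v →
      (∀ δ : SL(2, ℤ), ∃ (a b : MF (q * m)) (Ψ : LaurentSeries (κ A)),
        Inv0 (q * m) (a : ℍ → ℂ) ∧ Inv0 (q * m) (b : ℍ → ℂ) ∧ AlgMF a ∧ AlgMF b ∧
        InertiaFix A a ∧ InertiaFix A b ∧ Ψ ≠ 0 ∧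
        RedAt A (q * m) ((u : ℍ → ℂ) * (a : ℍ → ℂ) ^ n) δ Ψ ∧
        RedAt A (q * m) ((v : ℍ → ℂ) * (b : ℍ → ℂ) ^ n) δ Ψ) →
      ∃ (a b : MF (q * m)) (c : ℂ), a ≠ 0 ∧ b ≠ 0 ∧ c ≠ 0 ∧
        (∀ γ ∈ levelG q m, ∀ z : ℍ, (a : ℍ → ℂ) (γ • z) * (b : ℍ → ℂ) z =
          (a : ℍ → ℂ) z * (b : ℍ → ℂ) (γ • z)) ∧
        ∀ z : ℍ, (a : ℍ → ℂ) z ^ n *
            ((conjM ((liftAut σ) ^ k) v : ℍ → ℂ) z * (u : ℍ → ℂ) z ^ q ^ k) ^ e =
          c * ((b : ℍ → ℂ) z ^ n *
            ((conjM ((liftAut σ) ^ k) u : ℍ → ℂ) z * (v : ℍ → ℂ) z ^ q ^ k) ^ e) := by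
  classical
  have hq : q.Prime := Fact.out
  obtain ⟨hWdvr, hqW, hWac⟩ := wBase_props A hq hA
  haveI := hWdvr
  haveI := hWac
  obtain ⟨hOdvr, hπmax, hπ⟩ := oBase_dvr (A := A) (M := q * m) hq hA rfl hqm
  haveI := hOdvr
  haveI := finite_oBase (A := A) (M := q * m) hq hA rfl hqm
  set E := embO A (q * m)
  have hψ := constMap_oBase (A := A) (M := q * m) hπmax
  have hW := hasFixedConsts_oBase (A := A) (M := q * m)
  have hco : Nat.Coprime q m := hq.coprime_iff_not_dvd.mpr hqm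
  have hdec := hσ.mem_decompositionSubgroup
  have hqO : (q : oBase A (q * m)) ∈ maximalIdeal (oBase A (q * m)) :=
    natCast_mem_maximal (A := A) (M := q * m) hq hA rfl hqm
  set σE : stabK E := ⟨liftAut σ, liftAut_mem_stabK hdec⟩
  set j₀ := Nat.totient (q * m)
  have hσ₁ := (constFrob_oBase (M := q * m) hq hA hσ).pow j₀
  have hcyc : cycC (q * m) (σE ^ j₀).1 = 1 := by
    rw [SubmonoidClass.coe_pow, map_pow]
    exact ZMod.pow_totient _
  obtain ⟨K, hK, hroot⟩ := exists_frob_root₀ hq hqW hπ hpts.1 hpts.2 hσ₁ hcyc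
    (dvd_mul_right q m) (dvd_mul_left m q)
  obtain ⟨D, hD, hroot⟩ := hroot K dvd_rfl
  refine ⟨j₀ * K, 6 * (q * m) * D,
    Nat.mul_pos (Nat.totient_pos.mpr (NeZero.pos (q * m))) hK,
    Nat.mul_pos (Nat.mul_pos (by norm_num) (NeZero.pos (q * m))) hD, ?_⟩
  intro n _ hqn u v hpu hpv hu0 hv0 hui hua huf hvi hva hvf hcongr
  let bu : bddMF E := ⟨u, mem_bddMF_of_fixed hW hua huf⟩
  let bv : bddMF E := ⟨v, mem_bddMF_of_fixed hW hva hvf⟩
  have hfu : toFld E bu ≠ 0 :=
    (map_ne_zero_iff _ (toFld_injective E)).mpr fun h => hu0 (congrArg Subtype.val h)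
  have hfv : toFld E bv ≠ 0 :=
    (map_ne_zero_iff _ (toFld_injective E)).mpr fun h => hv0 (congrArg Subtype.val h)
  let x : Fld₀ (wBase A) E q m :=
    ⟨toFld E bu / toFld E bv, div_mem (toFld_mem_fld₀ hW hco hui hua huf)
      (toFld_mem_fld₀ hW hco hvi hva hvf)⟩
  have hx : x ≠ 0 := fun h => div_ne_zero hfu hfv (congrArg Subtype.val h)
  obtain ⟨c, h, hc, hh, he⟩ := hroot n (NeZero.pos n) (isUnit_natCast_wBase hq hA hqn)
    (x ^ (6 * (q * m))) (pow_ne_zero _ hx)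
    (fun P hP hP0 hPq => by
      haveI := hP
      exact hasRootAt_horizontal hqO (Or.inl rfl) P hP0 hPq hx (a := bu) (b := bv) hpu hpv rfl)
    (fun P hP hP0 hPq => by
      haveI := hP
      exact hasRootAt_horizontal hqO (Or.inr rfl) P hP0 hPq hx (a := bu) (b := bv) hpu hpv rfl)
    (fun δ => by
      obtain ⟨a, b, Ψ, hai, hbi, haa, hba, haf, hbf, hΨ, hX, hY⟩ := hcongr δ
      let ba : bddMF E := ⟨a, mem_bddMF_of_fixed hW haa haf⟩
      let bb : bddMF E := ⟨b, mem_bddMF_of_fixed hW hba hbf⟩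
      obtain ⟨hUX, hUY, hrs⟩ := rs_eq_of_redAt hψ hπ (δ := δ) (X := bu * ba ^ n) (Y := bv * bb ^ n)
        hX hY hΨ
      have ha0 : toFld E ba ≠ 0 := fun h0 => hUX.ne_zero (by
        rw [map_mul, map_pow, h0, zero_pow (NeZero.ne n), mul_zero])
      let T : Fld₀ (wBase A) E q m := ⟨(toFld E bb / toFld E ba) ^ (6 * (q * m)),
        pow_mem (div_mem (toFld_mem_fld₀ hW hco hbi hba hbf)
          (toFld_mem_fld₀ hW hco hai haa haf)) _⟩
      refine ⟨T, ?_⟩
      have e : (((T ^ n / x ^ (6 * (q * m))) : Fld₀ (wBase A) E q m) : Fld E) =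
          (toFld E (bv * bb ^ n) / toFld E (bu * ba ^ n)) ^ (6 * (q * m)) := by
        show ((toFld E bb / toFld E ba) ^ (6 * (q * m))) ^ n /
          (toFld E bu / toFld E bv) ^ (6 * (q * m)) = _
        rw [← pow_mul, mul_comm _ n, pow_mul, ← div_pow, map_mul, map_mul, map_pow, map_pow]
        congr 1
        rw [div_pow]
        field_simp
      have hU : IsU (gaussP E hπ δ)
          (((T ^ n / x ^ (6 * (q * m))) : Fld₀ (wBase A) E q m) : Fld E) := by
        rw [e]; exact (hUY.div hUX).pow _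
      refine ⟨(isU_comap_iff _ _).mpr hU, ?_⟩
      rw [← Models.rs_one (A := comp hπ δ)]
      refine (rs_comap_eq_iff _ _ hU.1 (by rw [map_one]; exact one_mem _)).mpr ?_
      rw [map_one, Models.rs_one, Subfield.subtype_apply, e, Models.rs_pow (hUY.div hUX).1,
        hUY.rs_div hUX, ← hrs, div_self hUX.2, one_pow])
  have hsk : ((σE ^ j₀) ^ K).1 = (liftAut σ) ^ (j₀ * K) := by
    rw [SubmonoidClass.coe_pow, SubmonoidClass.coe_pow, ← pow_mul]
  obtain ⟨bu', hbu', hbu''⟩ := exists_conj_toFld hsk bu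
  obtain ⟨bv', hbv', hbv''⟩ := exists_conj_toFld hsk bv
  obtain ⟨a, b, hb, hab⟩ := exists_eq_div E (h : Fld E)
  have hbF : toFld E b ≠ 0 := (map_ne_zero_iff _ (toFld_injective E)).mpr hb
  have hfv' : toFld E bv' ≠ 0 := hbv' ▸ (map_ne_zero_iff _ (fConj E _).injective).mpr hfv
  obtain ⟨cW, hcW, hcW'⟩ : ∃ cW : bddMF E, algebraMap (wBase A) (Fld E) c = toFld E cW ∧
      ∀ z : ℍ, ((cW : MF (q * m)) : ℍ → ℂ) z = E.φ (algebraMap (wBase A) (oBase A (q * m)) c) :=
    ⟨cstB E _, by rw [IsScalarTower.algebraMap_apply (wBase A) (oBase A (q * m)) (Fld E),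
      ModField.algebraMap_eq], fun z => rfl⟩
  rw [SubmonoidClass.coe_pow, show (x : Fld E) = toFld E bu / toFld E bv from rfl, map_pow,
    map_div₀, hbu', hbv', hcW, hab,
    ← pow_mul q j₀ K] at he
  have key := clear_denominators hbF hfu hfv' he
  refine ⟨(a : MF (q * m)), (b : MF (q * m)), E.φ (algebraMap (wBase A) (oBase A (q * m)) c),
    fun h0 => hh (Subtype.ext ?_), fun h0 => hb (Subtype.ext h0),
    (map_ne_zero_iff _ E.inj).mpr
      ((map_ne_zero_iff _ (FaithfulSMul.algebraMap_injective _ _)).mpr hc),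
    fun γ hγ z => mul_comm_of_mem_levelFld hb (hab ▸ h.2) hγ z, fun z => ?_⟩
  · show (h : Fld E) = 0
    rw [hab, show a = 0 from Subtype.ext h0, map_zero, zero_div]
  have hkey := congrFun (congrArg (fun w : bddMF E => ((w : MF (q * m)) : ℍ → ℂ)) key) z
  simp only [MulMemClass.coe_mul, SubmonoidClass.coe_pow, Pi.mul_apply, Pi.pow_apply, hbu'',
    hbv'', hcW'] at hkey
  exact hkey

end Fermat.Agent.GalRep.Semistable
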