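/-
Orders along the special fibre of the image of `T_ℓ - (ℓ + 1)`, for `ℓ ≡ 1` modulo the level: they
are multiples of `n`.
-/
import Fermat.Agent.GalRep.Semistable.BadCongr
import Fermat.Agent.GalRep.KummerHecke

set_option autoImplicit false
set_option linter.style.haveILetI false

noncomputable section

namespace Fermat.Agent.GalRep.Semistable

open UpperHalfPlane CongruenceSubgroup
open Fermat.Agent.Galois (GQ)
open Fermat.Agent.GalRep.Level
open Fermat.Agent.ModField (conjM conjM_spec conjM_eq)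
open scoped MatrixGroups Manifold

local notation "ℚb" => AlgebraicClosure ℚ
local notation "κ" A:max => IsLocalRing.ResidueField A
local notation "IMat" => Matrix (Fin 2) (Fin 2) ℤ

variable {N ℓ : ℕ} [NeZero N]

theorem periodic_one {φ : MF N} (hφi : Inv0 N (φ : ℍ → ℂ)) (τ : ℍ) :
    (φ : ℍ → ℂ) ((1 : ℝ) +ᵥ τ) = (φ : ℍ → ℂ) τ := by
  rw [← modular_T_smul]
  exact hφi _ (by rw [Gamma0_mem, ModularGroup.coe_T]; simp) τ

/-- Automorphisms fixing the series of `φ` fix that of `T_ℓ φ · φ^e`. -/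
theorem lmap_serAlg_hecke (hg : GoodIndex N ℓ) {φ φ' : MF N} (hφi : Inv0 N (φ : ℍ → ℂ)) (e : ℕ)
    (hφ' : (φ' : ℍ → ℂ) = heckeProd hg (φ : ℍ → ℂ) * (φ : ℍ → ℂ) ^ e) {σ : ℂ ≃+* ℂ}
    (h : lmap σ.toRingHom (serAlg N φ) = serAlg N φ) :
    lmap σ.toRingHom (serAlg N φ') = serAlg N φ' := by
  haveI : NeZero ℓ := ⟨hg.prime.ne_zero⟩
  have hN := NeZero.pos N
  have hserφ : ∀ ψ : MF N, HasQSeries N (ψ : ℍ → ℂ) (serAlg N ψ) := fun ψ => hasQSeries_serHom ψ
  obtain ⟨s, hs⟩ := exists_hasQSeries_of_periodic (N := 1) φ.2.holo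
    (fun τ => by rw [Nat.cast_one]; exact periodic_one hφi τ) hN (hserφ φ)
  have hs' : expand N (NeZero.ne N) s = serAlg N φ := by
    have := hs.refine_width one_pos N (NeZero.ne N)
    rw [one_mul] at this
    exact this.unique hN (hserφ φ)
  have hσs : lmap σ.toRingHom s = s := (expand N (NeZero.ne N)).injective (by
    rw [← lmap_expand, hs', h])
  have h1 := (hasQSeries_heckeProd hg hs).refine_width hg.prime.pos N (NeZero.ne N)
  rw [mul_comm ℓ N] at h1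
  have h2 := ((hserφ φ).pow e).refine_width hN ℓ (NeZero.ne ℓ)
  have h3 := (hserφ φ').refine_width hN ℓ (NeZero.ne ℓ)
  have heq : expand ℓ (NeZero.ne ℓ) (serAlg N φ') =
      expand N (NeZero.ne N) (heckeSeries ℓ s) * expand ℓ (NeZero.ne ℓ) (serAlg N φ ^ e) :=
    h3.unique (Nat.mul_pos hN hg.prime.pos) (hφ' ▸ h1.mul h2)
  refine (expand ℓ (NeZero.ne ℓ)).injective ?_
  rw [← lmap_expand, heq, map_mul, lmap_expand, lmap_expand, lmap_heckeSeries, hσs, map_pow, h]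

theorem algMF_hecke (hg : GoodIndex N ℓ) {φ φ' : MF N} (hφi : Inv0 N (φ : ℍ → ℂ)) (e : ℕ)
    (hφ' : (φ' : ℍ → ℂ) = heckeProd hg (φ : ℍ → ℂ) * (φ : ℍ → ℂ) ^ e) (ha : AlgMF φ) :
    AlgMF φ' := by
  obtain ⟨a, ha⟩ := ha
  refine exists_seriesToC_eq fun m => isAlgebraic_of_fixed fun σ hσ => ?_
  have h := lmap_serAlg_hecke hg hφi e hφ' (σ := σ) (by
    rw [← ha]
    ext k
    exact hσ _)
  exact congrArg (fun s : LaurentSeries ℂ => s.coeff m) h

theorem inertiaFix_hecke {A : ValuationSubring (AlgebraicClosure ℚ)} (hg : GoodIndex N ℓ)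
    {φ φ' : MF N} (hφi : Inv0 N (φ : ℍ → ℂ)) (e : ℕ)
    (hφ' : (φ' : ℍ → ℂ) = heckeProd hg (φ : ℍ → ℂ) * (φ : ℍ → ℂ) ^ e) (hf : InertiaFix A φ) :
    InertiaFix A φ' :=
  inertiaFix_iff.mpr fun t ht => lmap_serAlg_hecke hg hφi e hφ' (inertiaFix_iff.mp hf t ht)

/-- A translate of `F` by an upper triangular matrix of determinant `ℓ` after a cusp has a nonzero
reduction in width `Nℓ`. -/
theorem exists_red_translate {A : ValuationSubring (AlgebraicClosure ℚ)} (hℓ : ℓ.Prime)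
    {F : ℍ → ℂ} {Φ : LaurentSeries (κ A)} {δ : SL(2, ℤ)} (h : RedAt A N F δ Φ) (hΦ : Φ ≠ 0)
    (j : Option (Fin ℓ)) (hdet : 0 < (heckeRep ℓ j).det) :
    ∃ (f : LaurentSeries ℚb) (Ψ : LaurentSeries (κ A)), Ψ ≠ 0 ∧ HasRed A f Ψ ∧
      HasQSeries (N * ℓ) (fun τ => F (δ • posMat (heckeRep ℓ j) hdet • τ)) (seriesToC f) := by
  haveI : NeZero ℓ := ⟨hℓ.ne_zero⟩
  have hexp : ∀ {X : LaurentSeries (κ A)}, X ≠ 0 → expand ℓ (NeZero.ne ℓ) X ≠ 0 := fun hX h =>
    hX ((expand ℓ (NeZero.ne ℓ)).injective (h.trans (map_zero _).symm))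
  obtain ⟨a, ha, ra⟩ := h
  have hN := NeZero.pos N
  cases j with
  | none =>
    have h1 := (ha.comp_affine hN ℓ 1 hℓ.ne_zero one_pos 0
      (fun τ => posMat (heckeRep ℓ none) hdet • τ)
      (fun τ => by rw [coe_posMat_smul]; simp [heckeRep]) 1 (by simp))
    rw [twist_one, mul_one] at h1
    have h2 := h1.refine_width hN ℓ hℓ.ne_zero
    refine ⟨expand ℓ hℓ.ne_zero (expand ℓ hℓ.ne_zero a), _, hexp (hexp hΦ),
      (ra.expand ℓ hℓ.ne_zero).expand ℓ hℓ.ne_zero, ?_⟩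
    rw [seriesToC_eq_lmap, lmap_expand, lmap_expand]
    exact h2
  | some b =>
    obtain ⟨z, hz⟩ := exists_qbarToC_eq
      (x := Complex.exp (2 * Real.pi * Complex.I * (((b : ℕ) : ℤ) : ℂ) / (ℓ * N : ℕ)))
      ⟨Polynomial.X ^ (ℓ * N) - 1,
        (Polynomial.monic_X_pow_sub_C 1 (mul_ne_zero hℓ.ne_zero (NeZero.ne N))).ne_zero, by
          simp only [Polynomial.aeval_sub, Polynomial.aeval_X_pow, map_one]
          rw [← Complex.exp_nat_mul, sub_eq_zero, Complex.exp_eq_one_iff]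
          refine ⟨(b : ℕ), ?_⟩
          have : ((ℓ * N : ℕ) : ℂ) ≠ 0 :=
            Nat.cast_ne_zero.mpr (mul_ne_zero hℓ.ne_zero (NeZero.ne N))
          field_simp⟩
    have hz0 : z ≠ 0 := fun h => by
      rw [h, map_zero] at hz; exact Complex.exp_ne_zero _ hz.symm
    have hzk : Units.mk0 z hz0 ^ (ℓ * N) = 1 := by
      refine Units.ext (qbarToC_injective ?_)
      rw [Units.val_pow_eq_pow_val, Units.val_mk0, map_pow, hz, Units.val_one, map_one,
        ← Complex.exp_nat_mul, Complex.exp_eq_one_iff]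
      refine ⟨(b : ℕ), ?_⟩
      have : ((ℓ * N : ℕ) : ℂ) ≠ 0 :=
        Nat.cast_ne_zero.mpr (mul_ne_zero hℓ.ne_zero (NeZero.ne N))
      field_simp
    obtain ⟨u, hu⟩ := exists_twist_red (A := A) (mul_ne_zero hℓ.ne_zero (NeZero.ne N)) hzk
    refine ⟨twist (Units.mk0 z hz0) a, twist u Φ,
      fun h => hΦ ((twist u).injective (h.trans (map_zero _).symm)), hu a Φ ra, ?_⟩
    have h1 := ha.comp_affine hN 1 ℓ one_ne_zero hℓ.pos (b : ℕ)
      (fun τ => posMat (heckeRep ℓ (some b)) hdet • τ)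
      (fun τ => by rw [coe_posMat_smul]; simp [heckeRep])
      (Units.map ((qbarToC : ℚb →+* ℂ) : ℚb →* ℂ) (Units.mk0 z hz0)) (by simp [hz])
    rw [expand_one] at h1
    rw [seriesToC_eq_lmap, lmap_twist]
    exact h1

/-- The orders of `T_ℓ φ · φ^{(ℓ+1)(n-1)}` are multiples of `n`. -/
theorem hasPowRed_hecke {q m : ℕ} [Fact q.Prime] [NeZero q] [NeZero m]
    {A : ValuationSubring (AlgebraicClosure ℚ)} (hA : A.LiesOverPrime q) (hqm : ¬ q ∣ m)
    (hℓ1 : (ℓ : ZMod (q * m)) = 1) (hg : GoodIndex (q * m) ℓ) {n : ℕ} (hn : 0 < n)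
    {φ φ' : MF (q * m)} (hφi : Inv0 (q * m) (φ : ℍ → ℂ)) (hφa : AlgMF φ) (hf : InertiaFix A φ)
    (hφ0 : φ ≠ 0)
    (hφ' : (φ' : ℍ → ℂ) = heckeProd hg (φ : ℍ → ℂ) * (φ : ℍ → ℂ) ^ ((ℓ + 1) * (n - 1))) :
    HasPowRed A n φ' := by
  classical
  haveI : NeZero ℓ := ⟨hg.prime.ne_zero⟩
  intro δ
  obtain ⟨c, Φ, hc0, hcf, hΦ0, hΦ⟩ := exists_fixed_scalar hA hqm hφi hφa hf hφ0 δ
  set G : ℍ → ℂ := qbarToC c • (φ : ℍ → ℂ) with hG
  have hGi : Inv0 (q * m) G := fun γ hγ τ => by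
    rw [hG, Pi.smul_apply, Pi.smul_apply, hφi γ hγ τ]
  -- every translate
  have key : ∀ i : Option (Fin ℓ), ∃ (f : LaurentSeries ℚb) (Ψ : LaurentSeries (κ A)),
      Ψ ≠ 0 ∧ HasRed A f Ψ ∧ HasQSeries (q * m * ℓ)
        (fun τ => G (posMat (heckeRep ℓ i) (det_heckeRep_pos hg i) • δ • τ)) (seriesToC f) := by
    intro i
    obtain ⟨j, X, hX⟩ := exists_eq_mul_heckeRep hg.prime (heckeRep ℓ i * (δ : IMat))
      ⟨1, by rw [Matrix.det_mul, det_heckeRep, δ.det_coe, mul_one]⟩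
    have hXd : X.det = 1 := by
      have := congrArg Matrix.det hX
      rw [Matrix.det_mul, Matrix.det_mul, det_heckeRep, det_heckeRep, δ.det_coe, mul_one] at this
      exact mul_right_cancel₀ (Int.natCast_ne_zero.mpr hg.prime.ne_zero)
        (this.symm.trans (one_mul _).symm)
    let Xs : SL(2, ℤ) := ⟨X, hXd⟩
    let k : ℤ := match j with
      | none => 0
      | some b => -((b : ℕ) : ℤ)
    obtain ⟨u, hu⟩ := exists_redAt_T A (q * m) k
    have hmem : Xs * (δ * ModularGroup.T ^ k)⁻¹ ∈ Gamma0 (q * m) := by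
      refine mem_gamma0_of_conj _ _ ?_
      rw [← ZMod.intCast_zmod_eq_zero_iff_dvd]
      have e0 := congrArg (fun Z : IMat => ((Z 1 0 : ℤ) : ZMod (q * m))) hX
      have e1 := congrArg (fun Z : IMat => ((Z 1 1 : ℤ) : ZMod (q * m))) hX
      have hl : ((heckeRep ℓ i 1 1 : ℤ) : ZMod (q * m)) = 1 := by
        cases i <;> simp [heckeRep, hℓ1]
      simp only [Matrix.mul_apply, Fin.sum_univ_two, heckeRep_one_zero, zero_mul, zero_add,
        Int.cast_mul, hl, one_mul] at e0 e1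
      rw [Matrix.SpecialLinearGroup.coe_mul, ModularGroup.coe_T_zpow]
      cases j with
      | none =>
        simp [heckeRep, hℓ1] at e0 e1
        simp [Xs, k, Matrix.mul_apply, Fin.sum_univ_two, ← e0, ← e1]
        rw [e0, e1]; ring
      | some b =>
        simp [heckeRep, hℓ1] at e0 e1
        simp [Xs, k, Matrix.mul_apply, Fin.sum_univ_two, e0, e1]
        ring
    have hj : 0 < (heckeRep ℓ j).det := det_heckeRep_pos hg j
    obtain ⟨f, Ψ, hΨ0, hr, hs⟩ := exists_red_translate hg.prime (hu _ _ _ hΦ)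
      (fun h => hΦ0 ((twist u).injective (h.trans (map_zero _).symm))) j hj
    refine ⟨f, Ψ, hΨ0, hr, hs.congr (.of_forall fun τ => ?_)⟩
    show G _ = G _
    rw [posMat_smul_eq (det_heckeRep_pos hg i) hj δ Xs hX τ,
      show Xs • posMat (heckeRep ℓ j) hj • τ = (Xs * (δ * ModularGroup.T ^ k)⁻¹) •
        ((δ * ModularGroup.T ^ k) • posMat (heckeRep ℓ j) hj • τ) by
        rw [← mul_smul, inv_mul_cancel_right], hGi _ hmem]
  choose f Ψ hΨ0 hred hser using key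
  -- the product
  obtain ⟨a, ha, ra⟩ := hΦ
  have hp : HasRed A (∏ i, f i) (∏ i, Ψ i) := HasRed.prod Finset.univ fun i _ => hred i
  have hφ'a : AlgMF φ' := algMF_hecke hg hφi _ hφ' hφa
  obtain ⟨b, hb⟩ := hφ'a.exists_series δ
  set r := c ^ (ℓ + 1)
  have hs := (HasQSeries.prod Finset.univ fun i _ => hser i).mul
    ((ha.pow ((ℓ + 1) * (n - 1))).refine_width (NeZero.pos (q * m)) ℓ hg.prime.ne_zero)
  have hfun : ∀ τ, (∏ i, fun τ => G (posMat (heckeRep ℓ i) (det_heckeRep_pos hg i) • δ • τ)) τ *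
      G (δ • τ) ^ ((ℓ + 1) * (n - 1)) = ((cMF (q * m) (r ^ n) * φ' : MF (q * m)) : ℍ → ℂ) (δ • τ) := by
    intro τ
    rw [coe_cMF_mul, hφ', Pi.smul_apply, Pi.mul_apply, Pi.pow_apply, heckeProd]
    simp only [Finset.prod_apply, hG, Pi.smul_apply, smul_eq_mul, Finset.prod_mul_distrib,
      Finset.prod_const, Finset.card_univ, Fintype.card_option, Fintype.card_fin, mul_pow, r,
      map_pow, ← pow_mul]
    have e : (ℓ + 1) * n = ℓ + 1 + (ℓ + 1) * (n - 1) := by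
      obtain ⟨k, rfl⟩ := Nat.exists_eq_add_of_le hn
      rw [show 1 + k - 1 = k by omega]
      ring
    rw [e, pow_add]
    ring
  have hs' := hs.congr (.of_forall hfun)
  have hall := (seriesToC_smul (hb ▸ hasQSeries_shift φ' δ) (r ^ n)).refine_width
    (NeZero.pos (q * m)) ℓ hg.prime.ne_zero
  have hu2 := hs'.unique (Nat.mul_pos (NeZero.pos (q * m)) hg.prime.pos) hall
  have hu3 : (∏ i, f i) * expand ℓ hg.prime.ne_zero (a ^ ((ℓ + 1) * (n - 1))) =
      expand ℓ hg.prime.ne_zero (HahnSeries.C (r ^ n) * b) := by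
    refine seriesToC_injective ?_
    simp only [seriesToC_eq_lmap, map_mul, map_prod, lmap_expand, map_pow] at hu2 ⊢
    exact hu2
  have hr2 := hu3 ▸ hp.mul ((ra.pow ((ℓ + 1) * (n - 1))).expand ℓ hg.prime.ne_zero)
  obtain ⟨Z, hZ, hZe⟩ := exists_hasRed_of_expand hg.prime.ne_zero hr2
  refine ⟨r, Z, pow_ne_zero _ hc0, hcf.pow _, fun h => ?_,
    HahnSeries.C (r ^ n) * b, seriesToC_smul (hb ▸ hasQSeries_shift φ' δ) (r ^ n), hZ⟩
  rw [h, map_zero, mul_eq_zero] at hZe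
  rcases hZe with h1 | h1
  · exact (Finset.prod_ne_zero_iff.mpr fun i _ => hΨ0 i) h1
  · exact pow_ne_zero _ hΦ0 ((expand ℓ hg.prime.ne_zero).injective (h1.trans (map_zero _).symm))

end Fermat.Agent.GalRep.Semistable
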