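/-
The classes `T_ℓ χ - (ℓ + 1) χ` for inertia-fixed `χ` with vanishing corestrictions: representatives
whose powers are congruent to their second Frobenius conjugates up to powers.
-/
import Fermat.Agent.GalRep.Semistable.Killer
import Fermat.Agent.GalRep.Semistable.Vertical
import Fermat.Agent.GalRep.Semistable.RepTools

set_option autoImplicit false
set_option linter.style.haveILetI false
set_option linter.unusedSectionVars false

noncomputable section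

namespace Fermat.Agent.GalRep.Semistable

open UpperHalfPlane CongruenceSubgroup
open Fermat.Agent.Galois (GQ)
open Fermat.Agent.GalRep.Level
open Fermat.Agent.ModField (conjM conjM_spec conjM_eq)
open scoped MatrixGroups Manifold

local notation "ℚb" => AlgebraicClosure ℚ
local notation "κ" A:max => IsLocalRing.ResidueField A
local notation "IMat" => Matrix (Fin 2) (Fin 2) ℤ

variable {A : ValuationSubring (AlgebraicClosure ℚ)}

/-- An inertia-fixed class has a representative whose power is algebraic and fixed. -/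
theorem exists_fixed_rep {N n : ℕ} [NeZero N] [NeZero n] {χ : ParHom N (ZMod n)}
    (hfix : ∀ t ∈ A.inertiaSubgroupIn ℚ, (kummerGalois N n).galois t χ = χ) :
    ∃ (F : ℍ → ℂ) (φ : MF N), IsRepG (Gamma0 N) n χ F ∧ (φ : ℍ → ℂ) = F ^ n ∧ φ ≠ 0 ∧
      Inv0 N (φ : ℍ → ℂ) ∧ AlgMF φ ∧ InertiaFix A φ := by
  obtain ⟨F, hF⟩ := exists_isNormal_normalSeries χ
  have hR := repG_of_kummer hF.rep
  refine ⟨F, powMF (isLevel_gamma0 N) hR, hR, rfl, fun h => hF.rep.ne_zero ?_,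
    fun γ hγ τ => hR.isModFun_pow.invariant γ hγ τ, ?_, inertiaFix_iff.mpr fun t ht => ?_⟩
  · have h1 := congrArg (fun x : MF N => (x : ℍ → ℂ)) h
    funext τ
    exact (pow_eq_zero_iff (NeZero.ne n)).mp (congrFun h1 τ)
  · refine exists_seriesToC_eq fun k => ?_
    rw [serAlg_of_rep_pow hF.series rfl]
    refine isAlgebraic_of_fixed fun σ hσ => ?_
    have h1 : lmap σ.toRingHom (normalSeries χ) = normalSeries χ := by
      ext i
      obtain ⟨y, hy⟩ := exists_qbarToC_eq (isAlgebraic_normalSeries χ i)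
      rw [lmap_coeff, ← hy]
      exact hσ y
    have h2 := congrArg (fun f : LaurentSeries ℂ =>
      (GalRep.expand N (NeZero.ne N) (f ^ n)).coeff k) h1
    simp only [← map_pow, ← lmap_expand, lmap_coeff] at h2
    exact h2
  · rw [serAlg_of_rep_pow hF.series rfl, lmap_expand, map_pow, lmap_normalSeries,
      ← (kummerGalois N n).galois_eq, hfix t ht]

variable {q m : ℕ} [Fact q.Prime] [NeZero q] [NeZero m]

theorem coe_pow_eq_normM {g : SL(2, ℤ)} (hg : g 1 0 = m ∧ g 1 1 = q) (hqm : ¬ q ∣ m) {n : ℕ}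
    [NeZero n] {χ : ParHom (q * m) (ZMod n)} {F : ℍ → ℂ} (hF : IsRepG (Gamma0 (q * m)) n χ F)
    (h0 : corR hg hqm χ = 0) {φ : MF (q * m)} (hφ : (φ : ℍ → ℂ) = F ^ n) :
    ∃ k : MF (q * m), Inv0 (q * m) (k : ℍ → ℂ) ∧
      (k : ℍ → ℂ) ^ n = (φ : ℍ → ℂ) * Uf q m (Wf q g φ) := by
  have hK := corR_rep hg hqm hF
  rw [h0] at hK
  have hle : Gamma0 (q * m) ≤ Gamma0 m := fun γ hγ => Gamma0_mem.mpr <| by
    simpa using congrArg (ZMod.castHom (dvd_mul_left m q) (ZMod m)) (Gamma0_mem.mp hγ)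
  refine ⟨⟨_, modFuns_anti ((Gamma_le_Gamma0 (q * m)).trans hle) hK.isModFun⟩,
    fun γ hγ τ => hK.isModFun.invariant γ (hle hγ) τ, ?_⟩
  show transferProd (fun i => (cosR q m g i : IMat))
    (fun i => by rw [(cosR q m g i).det_coe]; exact one_pos) F ^ n = _
  rw [coe_pow_transfer_cosR g hφ, coe_normM]

set_option maxHeartbeats 800000 in
/-- The congruences for the class `T_ℓ χ - (ℓ + 1) χ`. -/
theorem exists_fixed_congr {g : SL(2, ℤ)} (hg : g 1 0 = m ∧ g 1 1 = q) (hqm : ¬ q ∣ m)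
    (hA : A.LiesOverPrime q) [CharP (κ A) q] {σ : GQ} (hσ : A.IsFrobeniusAt σ q) {ℓ : ℕ}
    (hℓm : GoodIndex m ℓ) (hℓ : GoodIndex (q * m) ℓ) (hℓ1 : (ℓ : ZMod (q * m)) = 1) {n : ℕ}
    [NeZero n] (hqn : ¬ q ∣ n) {χ : ParHom (q * m) (ZMod n)}
    (hfix : ∀ t ∈ A.inertiaSubgroupIn ℚ, (kummerGalois (q * m) n).galois t χ = χ)
    (hc : corR hg hqm χ = 0) (hc' : corR hg hqm (alR hg χ) = 0) :
    ∃ (F : ℍ → ℂ) (φ : MF (q * m)),
      IsRepG (Gamma0 (q * m)) n (heckeHom hℓ χ - (ℓ + 1) • χ) F ∧ (φ : ℍ → ℂ) = F ^ n ∧ φ ≠ 0 ∧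
      Inv0 (q * m) (φ : ℍ → ℂ) ∧ AlgMF φ ∧ InertiaFix A φ ∧
      ∀ δ : SL(2, ℤ), ∃ (a b : MF (q * m)) (Ψ : LaurentSeries (κ A)),
        Inv0 (q * m) (a : ℍ → ℂ) ∧ Inv0 (q * m) (b : ℍ → ℂ) ∧ AlgMF a ∧ AlgMF b ∧
        InertiaFix A a ∧ InertiaFix A b ∧ Ψ ≠ 0 ∧
        RedAt A (q * m) ((conjM (liftAut σ) (conjM (liftAut σ) φ) : MF (q * m)) *
          (a : ℍ → ℂ) ^ n) δ Ψ ∧
        RedAt A (q * m) ((φ : ℍ → ℂ) * (b : ℍ → ℂ) ^ n) δ Ψ := by
  have hn := NeZero.pos n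
  obtain ⟨F₀, φ₀, hF₀, hφ₀, hφ₀0, hφ₀i, hφ₀a, hφ₀f⟩ := exists_fixed_rep hfix
  set e := (ℓ + 1) * (n - 1)
  set χ₂ := heckeHom hℓ χ - (ℓ + 1) • χ with hχ₂
  have hchar : heckeHom hℓ χ + e • χ = χ₂ := by
    have h1 : (e + (ℓ + 1)) • χ = 0 := by
      rw [show e + (ℓ + 1) = (ℓ + 1) * n by
        obtain ⟨k, rfl⟩ := Nat.exists_eq_add_of_le hn
        simp only [e, show 1 + k - 1 = k by omega]
        ring, mul_smul, parHom_nsmul_self, smul_zero]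
    rw [add_smul] at h1
    rw [hχ₂, sub_eq_add_neg, eq_neg_of_add_eq_zero_left h1]
  have hH : IsRepG (Gamma0 (q * m)) n (heckeHom hℓ χ) (heckeProd hℓ F₀) :=
    repG_of_kummer (heckeProd_rep hℓ (IsRepG.kummer hF₀) (isHeckeTransfer_heckeHom hℓ χ))
  set F := heckeProd hℓ F₀ * F₀ ^ e
  have hF : IsRepG (Gamma0 (q * m)) n χ₂ F := hchar ▸ hH.mul (hF₀.pow e)
  set φ := powMF (isLevel_gamma0 (q * m)) hF
  have hφ : (φ : ℍ → ℂ) = F ^ n := rfl
  have hφ' : (φ : ℍ → ℂ) = heckeProd hℓ (φ₀ : ℍ → ℂ) * (φ₀ : ℍ → ℂ) ^ e := by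
    rw [hφ, hφ₀, mul_pow, ← pow_mul, ← pow_mul, mul_comm e n]
    congr 1
    funext τ
    simp only [heckeProd, Pi.pow_apply, Finset.prod_apply, Finset.prod_pow]
  have hφ0 : φ ≠ 0 := fun h => hF.ne_zero (funext fun τ =>
    (pow_eq_zero_iff (NeZero.ne n)).mp (congrFun (congrArg (fun x : MF (q * m) => (x : ℍ → ℂ)) h) τ))
  have hφi : Inv0 (q * m) (φ : ℍ → ℂ) := fun γ hγ τ => hF.isModFun_pow.invariant γ hγ τ
  have hφa : AlgMF φ := algMF_hecke hℓ hφ₀i e hφ' hφ₀a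
  have hφf : InertiaFix A φ := inertiaFix_hecke hℓ hφ₀i e hφ' hφ₀f
  have hφr : HasPowRed A n φ := hasPowRed_hecke hA hqm hℓ1 hℓ hn hφ₀i hφ₀a hφ₀f hφ₀0 hφ'
  refine ⟨F, φ, hF, hφ, hφ0, hφi, hφa, hφf, ?_⟩
  -- the Atkin-Lehner translate
  set ψ := WMF hg φ hφi
  have hψi : Inv0 (q * m) (ψ : ℍ → ℂ) := by rw [coe_WMF]; exact inv0_Wf hg hφi
  have hψa : AlgMF ψ := algMF_WMF hg hφi hφa
  have hψf : InertiaFix A ψ := hφf.wmf hg hφi
  have hψr : HasPowRed A n ψ := hasPowRed_wmf hg hqm hφi hφa hφr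
  have hψp : (ψ : ℍ → ℂ) = Wf q g F ^ n := by rw [coe_WMF, hφ, Wf_pow]
  -- both corestrictions vanish
  have h2 : corR hg hqm χ₂ = 0 := by
    rw [hχ₂, ← corL_apply hqm hg, map_sub, map_nsmul, corL_apply, corL_apply, hc,
      corR_heckeHom hqm hg hℓm hℓ, hc, map_zero, smul_zero, sub_zero]
  have h2' : corR hg hqm (alR hg χ₂) = 0 := by
    rw [hχ₂, ← alL_apply hg, map_sub, map_nsmul, alL_apply, alL_apply, alR_heckeHom hg hℓ,
      ← corL_apply hqm hg, map_sub, map_nsmul, corL_apply, corL_apply, hc',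
      corR_heckeHom hqm hg hℓm hℓ, hc', map_zero, smul_zero, sub_zero]
  obtain ⟨k2, hk2i, hk2⟩ := coe_pow_eq_normM hg hqm hF h2 hφ
  obtain ⟨hk2a, hk2f⟩ := inertiaFix_root hg hqm hA hσ hqn hφi hφa hφr hφf hk2
  obtain ⟨k, hki, hk⟩ := coe_pow_eq_normM hg hqm (alR_rep hg hF) h2' hψp
  obtain ⟨hka, hkf⟩ := inertiaFix_root hg hqm hA hσ hqn hψi hψa hψr hψf hk
  have hqa := castHom_cycM_frobenius (M := q * m) Fact.out hqm (dvd_mul_left m q) hA hσ
  refine exists_congr hA hqm hσ hqa (NeZero.ne n) hg hφi (coe_WMF hg φ hφi) hki hk2i hφa hka hk2a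
    ?_ ?_ hφr hψr hkf hk2f
  · rw [hk, mul_comm]
    congr 1
    rw [coe_WMF, Wf_Wf hg hφi]
  · rw [hk2, mul_comm, coe_WMF]

end Fermat.Agent.GalRep.Semistable
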