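/-
The relation on inertia-fixed classes at a prime exactly dividing the level, from the descended
models.
-/
import Fermat.Agent.GalRep.Semistable.FixedClass
import Fermat.Agent.GalRep.Semistable.Defect
import Fermat.Agent.GalRep.Semistable.Charpoly

set_option autoImplicit false
set_option linter.style.haveILetI false
set_option linter.unusedSectionVars false

noncomputable section

namespace Fermat.Agent.GalRep.Semistable

open UpperHalfPlane CongruenceSubgroup IsLocalRing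
open Fermat.Agent.Galois (GQ)
open Fermat.Agent.GalRep.Level
open Fermat.Agent.ModField (conjM levelG gamma_le_levelG IsPowFun isPowFun_of_rep)
open MvPolynomial (rename X C)
open scoped MatrixGroups Manifold IsMulCommutative

local notation "ℚb" => AlgebraicClosure ℚ
local notation "κ" A:max => IsLocalRing.ResidueField A

variable {A : ValuationSubring (AlgebraicClosure ℚ)}

/-- A multiple of the level prime to `q` over which both descended charts are semistable. -/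
def HasSemiModel (A : ValuationSubring (AlgebraicClosure ℚ)) (q m₀ : ℕ) : Prop :=
  ∃ (m : ℕ) (_ : NeZero (q * m)), m₀ ∣ m ∧ ¬ q ∣ m ∧ ChartsSemi A q m

section Bound

variable {q m₀ m : ℕ} [Fact q.Prime] [NeZero q] [NeZero m₀] [NeZero m]

set_option maxHeartbeats 800000 in
/-- The Frobenius defect kills classes congruent to their second conjugates, up to a constant. -/
theorem exists_defect_bound (hA : A.LiesOverPrime q) (hm₀ : m₀ ∣ m) (hqm : ¬ q ∣ m)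
    (hpts : ChartsSemi A q m) {σ : GQ} (hσ : A.IsFrobeniusAt σ q) :
    ∃ k C : ℕ, 0 < k ∧ 0 < C ∧ ∀ (n : ℕ) [NeZero n], ¬ q ∣ n →
      ∀ (χ : ParHom (q * m₀) (ZMod n)) (F : ℍ → ℂ) (φ : MF (q * m₀)),
        IsRepG (Gamma0 (q * m₀)) n χ F → (φ : ℍ → ℂ) = F ^ n → φ ≠ 0 →
        Inv0 (q * m₀) (φ : ℍ → ℂ) → AlgMF φ → InertiaFix A φ →
        (∀ δ : SL(2, ℤ), ∃ (a b : MF (q * m₀)) (Ψ : LaurentSeries (κ A)),
          Inv0 (q * m₀) (a : ℍ → ℂ) ∧ Inv0 (q * m₀) (b : ℍ → ℂ) ∧ AlgMF a ∧ AlgMF b ∧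
          InertiaFix A a ∧ InertiaFix A b ∧ Ψ ≠ 0 ∧
          RedAt A (q * m₀) ((conjM (liftAut σ) (conjM (liftAut σ) φ) : MF (q * m₀)) *
            (a : ℍ → ℂ) ^ n) δ Ψ ∧
          RedAt A (q * m₀) ((φ : ℍ → ℂ) * (b : ℍ → ℂ) ^ n) δ Ψ) →
        C • ((kummerGalois (q * m₀) n).galois (σ ^ k)
              ((kummerGalois (q * m₀) n).galois σ ((kummerGalois (q * m₀) n).galois σ χ) - χ) -
            q ^ k • ((kummerGalois (q * m₀) n).galois σ ((kummerGalois (q * m₀) n).galois σ χ) - χ))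
          = 0 := by
  obtain ⟨k, e, hk, he, hmain⟩ := exists_defect_root hA hqm hpts hσ
  have hd : q * m₀ ∣ q * m := Nat.mul_dvd_mul_left q hm₀
  haveI : (levelG q m).FiniteIndex :=
    Subgroup.finiteIndex_of_le (gamma_le_levelG (M := q * m) (dvd_mul_right q m) (dvd_mul_left m q))
  refine ⟨k, (levelG q m).index.factorial * e, hk, Nat.mul_pos (Nat.factorial_pos _) he, ?_⟩
  intro n _ hqn χ F φ hF hφ hφ0 hφi hφa hφf hcongr
  have hdec := hσ.mem_decompositionSubgroup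
  set φ' : MF (q * m) := liftLvl hd φ
  set S₀ : MF (q * m₀) := conjM (liftAut σ) (conjM (liftAut σ) φ)
  set S : MF (q * m) := liftLvl hd S₀
  have hS₀a : AlgMF S₀ := (hφa.conj σ).conj σ
  obtain ⟨F1, hF1, hF1p⟩ := exists_conj_rep hd (liftAut σ) hF (φ := φ') hφ
  obtain ⟨F2, hF2, hF2p⟩ := exists_conj_rep hd (liftAut σ) hF1 hF1p
  have hS : (S : ℍ → ℂ) = F2 ^ n := by rw [← hF2p, conjM_liftLvl, conjM_liftLvl]
  set τ : ℂ ≃+* ℂ := (liftAut σ) ^ k
  obtain ⟨Fk, hFk, hFkp⟩ := exists_conj_rep hd τ hF (φ := φ') hφ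
  obtain ⟨Fk2, hFk2, hFk2p⟩ := exists_conj_rep hd τ hF2 hS
  have hne : ∀ {H : ℍ → ℂ} {ψ : MF (q * m)}, H ≠ 0 → (ψ : ℍ → ℂ) = H ^ n → ψ ≠ 0 := fun hH hψ h =>
    hH (funext fun z => (pow_eq_zero_iff (NeZero.ne n)).mp (by
      have := congrFun (congrArg (fun x : MF (q * m) => (x : ℍ → ℂ)) h) z
      rwa [hψ] at this))
  obtain ⟨a, b, c, ha, hb, hc, hinv, heq⟩ := hmain n hqn S φ'
    (isPowFun_of_rep hF2 ((isLevel_gamma0 _).of_dvd hd) hS)
    (isPowFun_of_rep hF ((isLevel_gamma0 _).of_dvd hd) hφ) (hne hF2.ne_zero hS) (hne hF.ne_zero hφ)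
    (inv0_liftLvl hd (inv0_conjM (inv0_conjM hφi σ) σ)) (algMF_liftLvl hd hS₀a)
    (inertiaFix_liftLvl hd (InertiaFix.conj hdec (hφa.conj σ) (InertiaFix.conj hdec hφa hφf)))
    (inv0_liftLvl hd hφi) (algMF_liftLvl hd hφa) (inertiaFix_liftLvl hd hφf)
    (fun δ => by
      obtain ⟨a, b, Ψ, hai, hbi, haa, hba, haf, hbf, hΨ, hX, hY⟩ := hcongr δ
      obtain ⟨Ψ', hΨ', hX', hY'⟩ := redAt_pair_lift hd hΨ hX hY
      exact ⟨liftLvl hd a, liftLvl hd b, Ψ', inv0_liftLvl hd hai, inv0_liftLvl hd hbi,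
        algMF_liftLvl hd haa, algMF_liftLvl hd hba, inertiaFix_liftLvl hd haf,
        inertiaFix_liftLvl hd hbf, hΨ', hX', hY'⟩)
  have hφ' : (φ' : ℍ → ℂ) = F ^ n := hφ
  have hfun : ∀ z, ((a : ℍ → ℂ) z * ((Fk * F2 ^ q ^ k) ^ e) z) ^ n =
      c * ((b : ℍ → ℂ) z * ((Fk2 * F ^ q ^ k) ^ e) z) ^ n := fun z => by
    have h1 := heq z
    rw [hFkp, hFk2p, hS, hφ'] at h1
    simp only [Pi.mul_apply, Pi.pow_apply] at h1 ⊢
    simp only [mul_pow, ← pow_mul] at h1 ⊢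
    simp only [mul_comm e n, mul_comm (q ^ k) n, mul_assoc, mul_comm (q ^ k * e) n] at h1 ⊢
    exact h1
  set gS := autChar (liftAut σ) (autChar (liftAut σ) χ)
  have hH := (hFk.mul (hF2.pow (q ^ k))).pow e
  have hG := (hFk2.mul (hF.pow (q ^ k))).pow e
  set θ := (kummerGalois (q * m₀) n).galois σ ((kummerGalois (q * m₀) n).galois σ χ) - χ
  have hξ : e • ((kummerGalois (q * m₀) n).galois (σ ^ k) θ - q ^ k • θ) =
      e • (autChar τ gS + q ^ k • χ) - e • (autChar τ χ + q ^ k • gS) := by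
    have hg1 : ∀ ζ, (kummerGalois (q * m₀) n).galois σ ζ = autChar (liftAut σ) ζ := fun ζ =>
      (kummerGalois (q * m₀) n).galois_eq σ ζ
    have hgk : ∀ ζ, (kummerGalois (q * m₀) n).galois (σ ^ k) ζ = autChar τ ζ := fun ζ => by
      rw [(kummerGalois (q * m₀) n).galois_eq]
      exact autChar_eq_of_agree (fun y => by
        rw [liftAut_spec]; exact (liftAut_pow_apply k y).symm) ζ
    simp only [θ]
    rw [map_sub, hgk, hgk, hg1, hg1, ← smul_sub]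
    congr 1
    rw [smul_sub]
    abel
  rw [mul_smul]
  refine factorial_nsmul_eq_zero (K := levelG q m) fun γ hγ => ?_
  have h2 := char_eq_on_of_pow_eq hH hG ha hb hc hfun γ (hinv _ hγ)
  have e2 : ∀ x y : ParHom (q * m₀) (ZMod n),
      ((x - y : ParHom (q * m₀) (ZMod n)) : Additive (Gamma0 (q * m₀)) →+ ZMod n)
          (Additive.ofMul γ) =
        (x : Additive (Gamma0 (q * m₀)) →+ ZMod n) (Additive.ofMul γ) -
          (y : Additive (Gamma0 (q * m₀)) →+ ZMod n) (Additive.ofMul γ) := fun _ _ => rfl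
  rw [hξ, e2]
  exact sub_eq_zero.mpr h2.symm

end Bound

/-! ## Galois and the Hecke operators -/

theorem galois_heckePolyHom {N n : ℕ} [NeZero N] [NeZero n] (s : GQ) (P : HeckePoly N)
    (χ : ParHom N (ZMod n)) :
    (kummerGalois N n).galois s (heckePolyHom N (ZMod n) P χ) =
      heckePolyHom N (ZMod n) P ((kummerGalois N n).galois s χ) := by
  induction P using MvPolynomial.induction_on generalizing χ with
  | C a => simp
  | add P Q hP hQ => simp only [map_add, LinearMap.add_apply, hP, hQ]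
  | mul_X P i hP =>
    rw [map_mul, Module.End.mul_apply, Module.End.mul_apply, hP, heckePolyHom_X]
    refine congrArg (fun x => heckePolyHom N (ZMod n) P x) ?_
    rw [(kummerGalois N n).galois_eq, (kummerGalois N n).galois_eq]
    exact autChar_transfer (goodIndex i) (liftAut s) χ

theorem heckePoly_sub_const {N n : ℕ} [NeZero N] [NeZero n] {ℓ : ℕ} (hℓ : GoodIndex N ℓ)
    (R : HeckePoly N) (C₀ : ℕ) (χ : ParHom N (ZMod n)) :
    heckeHom hℓ (C₀ • heckePolyHom N (ZMod n) R χ) - (ℓ + 1) • (C₀ • heckePolyHom N (ZMod n) R χ) =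
      C₀ • heckePolyHom N (ZMod n)
        ((X (⟨⟨ℓ, hℓ.prime⟩, hℓ.not_dvd⟩ : GoodPrime N) - C ((ℓ : ℤ) + 1)) * R) χ := by
  generalize hy : heckePolyHom N (ZMod n) R χ = y
  rw [map_mul, Module.End.mul_apply, hy, map_sub, LinearMap.sub_apply, heckePolyHom_X,
    ← MvPolynomial.algebraMap_eq, AlgHom.commutes, Module.algebraMap_end_apply, map_nsmul,
    smul_sub, smul_comm (ℓ + 1) C₀]
  congr 2
  rw [← natCast_zsmul]
  push_cast
  rfl

/-- The defect commutes past operators commuting with Galois. -/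
theorem defect_comm {V : Type*} [AddCommGroup V] {s sk T : Module.End ℤ V}
    (hs : ∀ z, s (T z) = T (s z)) (hsk : ∀ z, sk (T z) = T (sk z)) {C₁ C₀ Q : ℕ} {v : V}
    (h : C₁ • (sk (s (s (C₀ • T v)) - C₀ • T v) - Q • (s (s (C₀ • T v)) - C₀ • T v)) = 0) :
    (C₁ * C₀) • T (sk (s (s v) - v) - Q • (s (s v) - v)) = 0 := by
  rw [mul_smul]
  simp only [map_sub, map_nsmul, hs, hsk, smul_sub, smul_comm Q C₀] at h ⊢
  exact h

/-- A Hecke eigenvalue of a cusp form is not `ℓ + 1`. -/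
theorem eigen_ne_succ {M : ℕ} [NeZero M] {g : CuspForm (Gamma0 M) 2} (hg : g ≠ 0) {S : Set ℕ}
    {a : CuspForm.heckeAlgebra M 2 S →+* ℂ}
    (heig : ∀ t : CuspForm.heckeAlgebra M 2 S,
      (t : Module.End ℂ (CuspForm (Gamma0 M) 2)) g = a t • g)
    (i : GoodPrimeOff M S) :
    a (evFormsOff S (X i - C (((i.1 : Nat.Primes) : ℕ) + 1 : ℤ))) ≠ 0 := by
  intro h
  rw [evFormsOff, map_sub, MvPolynomial.aeval_X, MvPolynomial.aeval_C, map_sub, sub_eq_zero] at h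
  refine hg (NewVec.eq_zero_of_heckeT (goodIndex i.1) ?_)
  have h1 := heig (CuspForm.heckeAlgebra.T i.1.1.2 i.1.2 i.2)
  rw [h, CuspForm.heckeAlgebra.coe_T, eq_intCast, map_intCast] at h1
  refine h1.trans ?_
  rw [← Nat.cast_smul_eq_nsmul ℂ]
  push_cast
  rfl

set_option maxHeartbeats 800000 in
/-- The relation on inertia-fixed classes, from semistable models at multiples of the level. -/
theorem frobeniusFixedRelation_of_models {M : ℕ} [NeZero M] {g : CuspForm (Gamma0 M) 2}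
    (hg : g.IsNewform) (S : Finset ℕ) (hMS : ∀ q : ℕ, q.Prime → q ∣ M → q ∈ S)
    (a : CuspForm.heckeAlgebra M 2 (↑S : Set ℕ) →+* ℂ)
    (ha : ∀ (ℓ : ℕ) (hℓ : ℓ.Prime) (hℓM : ¬ ℓ ∣ M) (hℓS : ℓ ∉ (↑S : Set ℕ)),
      a (CuspForm.heckeAlgebra.T hℓ hℓM hℓS) = ModularFormClass.qCoeff g ℓ)
    (hmodels : ∀ (q : ℕ) (A : ValuationSubring (AlgebraicClosure ℚ)) (m₀ : ℕ), q.Prime →
      A.LiesOverPrime q → M = q * m₀ → ¬ q ∣ m₀ → HasSemiModel A q m₀) :
    FrobeniusFixedRelation M S a := by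
  intro q hq hqM hq2 A hA σ hσ
  obtain ⟨m₀, rfl⟩ := hqM
  have hqm₀ : ¬ q ∣ m₀ := fun h => hq2 (by rw [sq]; exact Nat.mul_dvd_mul_left q h)
  haveI : Fact q.Prime := ⟨hq⟩
  haveI : NeZero q := ⟨hq.ne_zero⟩
  haveI : NeZero m₀ := ⟨fun h => NeZero.ne (q * m₀) (by rw [h, mul_zero])⟩
  haveI := charP_residue (A := A) hq hA
  obtain ⟨m, _, hm₀m, hqm, hpts⟩ := hmodels q A m₀ hq hA rfl hqm₀
  haveI : NeZero m := ⟨fun h => NeZero.ne (q * m) (by rw [h, mul_zero])⟩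
  -- the matrix
  obtain ⟨g₀, hg₀⟩ : ∃ g₀ : SL(2, ℤ), g₀ 1 0 = m₀ ∧ g₀ 1 1 = q := by
    obtain ⟨u, v, huv⟩ := (hq.coprime_iff_not_dvd.mpr hqm₀).isCoprime
    exact ⟨⟨!![u, -v; (m₀ : ℤ), (q : ℤ)], by
      rw [Matrix.det_fin_two_of]; linear_combination huv⟩, by simp, by simp⟩
  obtain ⟨P₀, C₀, haP₀, hC₀, hkill⟩ := exists_cores_killer hqm₀ hg₀ hg S a ha
  -- the auxiliary prime
  obtain ⟨ℓ, hℓgt, hℓp, hℓmod⟩ := Nat.forall_exists_prime_gt_and_modEq (max (S.sup id) (q * m₀))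
    (NeZero.ne (q * m₀)) (Nat.coprime_one_left (q * m₀))
  have hℓS : ℓ ∉ (↑S : Set ℕ) := fun h =>
    absurd (Finset.le_sup (f := id) (Finset.mem_coe.mp h)) (not_le.mpr (lt_of_le_of_lt (le_max_left _ _) hℓgt))
  have hℓM : ¬ ℓ ∣ q * m₀ := fun h =>
    absurd (Nat.le_of_dvd (NeZero.pos (q * m₀)) h) (not_le.mpr (lt_of_le_of_lt (le_max_right _ _) hℓgt))
  have hℓ : GoodIndex (q * m₀) ℓ := ⟨hℓp, hℓM⟩
  have hℓm : GoodIndex m₀ ℓ := ⟨hℓp, fun h => hℓM (h.mul_left q)⟩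
  have hℓ1 : (ℓ : ZMod (q * m₀)) = 1 := by
    rw [← Nat.cast_one, ZMod.natCast_eq_natCast_iff]
    exact hℓmod
  let i₀ : GoodPrimeOff (q * m₀) (↑S : Set ℕ) := ⟨⟨⟨ℓ, hℓp⟩, hℓM⟩, hℓS⟩
  obtain ⟨k, C₁, hk, hC₁, hbound⟩ := exists_defect_bound hA hm₀m hqm hpts hσ
  refine ⟨P₀ * (X i₀ - C ((ℓ : ℤ) + 1)), k, C₁ * C₀, ?_, hk, Nat.mul_pos hC₁ hC₀, ?_⟩
  · rw [map_mul, map_mul]
    exact mul_ne_zero haP₀ (eigen_ne_succ hg.ne_zero
      (eigen_of_qCoeff hg.isNormalizedEigenform S hMS a ha) i₀)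
  intro n _ hqn χ hfix
  set K := kummerGalois (q * m₀) n
  set R : HeckePoly (q * m₀) := rename Subtype.val P₀
  set χ₁ := C₀ • heckePolyHom (q * m₀) (ZMod n) R χ with hχ₁
  have hfix₁ : ∀ t ∈ A.inertiaSubgroupIn ℚ, K.galois t χ₁ = χ₁ := fun t ht => by
    rw [hχ₁, map_nsmul, galois_heckePolyHom, hfix t ht]
  obtain ⟨F, φ, hF, hφ, hφ0, hφi, hφa, hφf, hcongr⟩ := exists_fixed_congr hg₀ hqm₀ hA hσ hℓm hℓ hℓ1
    hqn hfix₁ (hkill n χ).1 (hkill n χ).2
  have h0 := hbound n hqn _ F φ hF hφ hφ0 hφi hφa hφf hcongr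
  -- the class
  set P : HeckePoly (q * m₀) := rename Subtype.val (P₀ * (X i₀ - C ((ℓ : ℤ) + 1)))
  have hχ₂ : heckeHom hℓ χ₁ - (ℓ + 1) • χ₁ = C₀ • heckePolyHom (q * m₀) (ZMod n) P χ := by
    have e : P = (X (⟨⟨ℓ, hℓp⟩, hℓM⟩ : GoodPrime (q * m₀)) - C ((ℓ : ℤ) + 1)) * R := by
      simp only [P, R, map_mul, map_sub, MvPolynomial.rename_X, MvPolynomial.rename_C, i₀]
      ring
    rw [e]
    exact heckePoly_sub_const hℓ R C₀ χ
  rw [hχ₂] at h0
  rw [← map_pow]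
  exact defect_comm (fun z => galois_heckePolyHom σ P z)
    (fun z => galois_heckePolyHom (σ ^ k) P z) h0

end Fermat.Agent.GalRep.Semistable
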