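/-
For two elements of inertia at a prime exactly dividing the level, `(σ - 1) (τ - 1)` kills the
Kummer classes up to a constant, from semistable models and totally ramified bases.
-/
import Fermat.Agent.GalRep.Unipotent
import Fermat.Agent.GalRep.Semistable.FrobFixed
import Fermat.Agent.Models.Gamma0.InertiaRoot

set_option autoImplicit false
set_option linter.style.haveILetI false
set_option linter.unusedSectionVars false

noncomputable section

namespace Fermat.Agent.GalRep.Semistable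

open UpperHalfPlane CongruenceSubgroup IsLocalRing
open Fermat.Agent.Galois (GQ)
open Fermat.Agent.GalRep.Level
open Fermat.Agent.NewVec
open Fermat.Agent.ModField
open Fermat.Agent.Models (TotRam)
open scoped MatrixGroups Manifold

local notation "ℚb" => AlgebraicClosure ℚ

/-- Totally ramified bases over the base at the place, containing any given number field, on which
inertia acts. -/
def HasRamBase (A : ValuationSubring (AlgebraicClosure ℚ)) (q m : ℕ) [NeZero (q * m)] : Prop :=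
  ∀ L₀ : IntermediateField ℚ ℚb, FiniteDimensional ℚ L₀ →
    ∃ (O' : Type) (_ : CommRing O') (_ : IsDomain O') (_ : IsDiscreteValuationRing O')
      (E' : Emb O' (q * m)) (_ : Algebra (wBase A) O')
      (_ : Algebra (Fld₀ (wBase A) (embO A (q * m)) q m) (Fld₀ O' E' q m))
      (_ : Algebra (wBase A) (Fld₀ O' E' q m))
      (_ : IsScalarTower (wBase A) (Fld₀ (wBase A) (embO A (q * m)) q m) (Fld₀ O' E' q m))
      (_ : IsScalarTower (wBase A) O' (Fld₀ O' E' q m))
      (X : TotRam (wBase A) O' (Fld₀ (wBase A) (embO A (q * m)) q m) (Fld₀ O' E' q m))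
      (e' k : ℕ) (ζ : O'),
      (∀ x : Fld₀ (wBase A) (embO A (q * m)) q m,
        toLS E' ((algebraMap (Fld₀ (wBase A) (embO A (q * m)) q m) (Fld₀ O' E' q m) x :
          Fld₀ O' E' q m) : Fld E') = toLS (embO A (q * m)) (x : Fld (embO A (q * m)))) ∧
      X.π = (q : wBase A) ∧ X.e = e' * q ^ k ∧ IsPrimitiveRoot ζ e' ∧ IsUnit (e' : O') ∧
      (q : O') ∈ maximalIdeal O' ∧ (∀ x ∈ L₀, qbarToC x ∈ baseK O' E') ∧
      ∀ σ ∈ A.inertiaSubgroupIn ℚ, InertAct (wBase A) (embO A (q * m)) E' X.ϖ (liftAut σ)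

/-- A representative whose power has series over a number field. -/
theorem exists_rep_numberField {N n : ℕ} [NeZero N] [NeZero n] (χ : ParHom N (ZMod n)) :
    ∃ (F : ℍ → ℂ) (φ : MF N) (L₀ : IntermediateField ℚ ℚb), FiniteDimensional ℚ L₀ ∧
      IsRepG (Gamma0 N) n χ F ∧ (φ : ℍ → ℂ) = F ^ n ∧ Inv0 N (φ : ℍ → ℂ) ∧
      ∀ i : ℤ, ∃ x ∈ L₀, qbarToC x = (serAlg N φ).coeff i := by
  obtain ⟨L₀, hfd, hL₀⟩ := exists_finite_level (N := N) (n := n)
  obtain ⟨F, hF⟩ := exists_isNormal_normalSeries χ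
  have hR := repG_of_kummer hF.rep
  refine ⟨F, powMF (isLevel_gamma0 N) hR, L₀, hfd, hR, rfl,
    fun γ hγ τ => hR.isModFun_pow.invariant γ hγ τ, fun i => ?_⟩
  set c := (serAlg N (powMF (isLevel_gamma0 N) hR)).coeff i
  have hc : IsAlgebraic ℚ c := by
    refine isAlgebraic_of_fixed fun σ hσ => ?_
    have h1 : lmap σ.toRingHom (normalSeries χ) = normalSeries χ := by
      ext j
      obtain ⟨y, hy⟩ := exists_qbarToC_eq (isAlgebraic_normalSeries χ j)
      rw [lmap_coeff, ← hy]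
      exact hσ y
    have h2 := congrArg (fun f : LaurentSeries ℂ =>
      (GalRep.expand N (NeZero.ne N) (f ^ n)).coeff i) h1
    simp only [← map_pow, ← lmap_expand, lmap_coeff] at h2
    simp only [c]
    rw [serAlg_of_rep_pow hF.series rfl]
    exact h2
  obtain ⟨y, hy⟩ := exists_qbarToC_eq hc
  refine ⟨y, ?_, hy⟩
  rw [← InfiniteGalois.fixedField_fixingSubgroup L₀]
  intro s
  obtain ⟨s, hs⟩ := s
  refine qbarToC.injective ?_
  show qbarToC (s y) = qbarToC y
  rw [← liftAut_spec, hy]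
  show liftAut s c = c
  have h1 : lmap (liftAut s).toRingHom (normalSeries χ) = normalSeries χ := by
    rw [lmap_normalSeries, hL₀ s ((IntermediateField.mem_fixingSubgroup_iff L₀ s).mp hs) χ]
  have h2 := congrArg (fun f : LaurentSeries ℂ =>
    (GalRep.expand N (NeZero.ne N) (f ^ n)).coeff i) h1
  simp only [← map_pow, ← lmap_expand, lmap_coeff] at h2
  simp only [c]
  rw [serAlg_of_rep_pow hF.series rfl]
  exact h2

variable {A : ValuationSubring (AlgebraicClosure ℚ)} {q m₀ m : ℕ} [Fact q.Prime] [NeZero q]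
  [NeZero m₀] [NeZero m]

set_option maxHeartbeats 800000 in
/-- The double difference kills all classes, up to a constant. -/
theorem exists_inertia_bound (hA : A.LiesOverPrime q) (hm₀ : m₀ ∣ m) (hqm : ¬ q ∣ m)
    (hpts : ChartsSemi A q m) (hbase : HasRamBase A q m) {σ τ : GQ}
    (hσ : σ ∈ A.inertiaSubgroupIn ℚ) (hτ : τ ∈ A.inertiaSubgroupIn ℚ) :
    ∃ D : ℕ, 0 < D ∧ ∀ (n : ℕ) [NeZero n], ¬ q ∣ n → ∀ χ : ParHom (q * m₀) (ZMod n),
      D • ((kummerGalois (q * m₀) n).galois σ ((kummerGalois (q * m₀) n).galois τ χ - χ)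
        - ((kummerGalois (q * m₀) n).galois τ χ - χ)) = 0 := by
  have hq : q.Prime := Fact.out
  have hd : q * m₀ ∣ q * m := Nat.mul_dvd_mul_left q hm₀
  obtain ⟨hWdvr, hqW, hWac⟩ := wBase_props A hq hA
  haveI := hWdvr
  haveI := (oBase_dvr (A := A) (M := q * m) hq hA rfl hqm).1
  haveI := finite_oBase (A := A) (M := q * m) hq hA rfl hqm
  haveI : (levelG q m).FiniteIndex :=
    Subgroup.finiteIndex_of_le (gamma_le_levelG (M := q * m) (dvd_mul_right q m) (dvd_mul_left m q))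
  refine ⟨(levelG q m).index.factorial * (6 * (q * m)),
    Nat.mul_pos (Nat.factorial_pos _) (Nat.mul_pos (by norm_num) (NeZero.pos (q * m))), ?_⟩
  intro n _ hqn χ
  obtain ⟨F, φ, L₀, hL₀, hF, hφ, hφi, hcoef⟩ := exists_rep_numberField χ
  obtain ⟨O', _, _, _, E', _, _, _, _, _, X, e', k, ζ, hcompat, hπ, heQ, hζ, he', hqO, hL, hact⟩ :=
    hbase L₀ hL₀
  set φ' : MF (q * m) := liftLvl hd φ
  have hφ' : (φ' : ℍ → ℂ) = F ^ n := hφ
  have hser : serAlg (q * m) φ' ∈ kSer (baseK O' E') := by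
    obtain ⟨t, ht0, -, hser⟩ := exists_serAlg_liftLvl hd
    rw [hser]
    have h1 : serAlg (q * m₀) φ ∈ kSer (baseK O' E') := mem_kSer.mpr fun i => by
      obtain ⟨x, hx, he⟩ := hcoef i
      exact he ▸ hL x hx
    obtain ⟨g, hg⟩ := h1
    exact ⟨GalRep.expand t ht0 g, by rw [← hg, lmap_expand]⟩
  let bφ : bddMF E' := ⟨φ', bdd_of_kSer E' (kSer_mono (baseK_le O' E') hser)⟩
  have hφ0 : φ' ≠ 0 := fun h => hF.ne_zero (funext fun z => (pow_eq_zero_iff (NeZero.ne n)).mp (by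
    have := congrFun (congrArg (fun x : MF (q * m) => (x : ℍ → ℂ)) h) z
    rwa [hφ'] at this))
  have hbφ : toFld E' bφ ∈ Fld₀ O' E' q m := by
    refine mem_levelFld.mpr ⟨fun g hg => ?_, by rw [toLS_toFld]; exact hser⟩
    rw [fShift_toFld]
    refine congrArg _ (Subtype.ext (Subtype.ext (funext fun z => ?_)))
    rw [shift_apply]
    refine inv0_liftLvl hd hφi g (Gamma0_mem.mpr ((ZMod.intCast_zmod_eq_zero_iff_dvd _ _).mpr ?_)) z
    obtain ⟨h1, h2⟩ := mem_levelG.mp hg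
    have h1' := (ZMod.intCast_zmod_eq_zero_iff_dvd _ _).mp (Gamma0_mem.mp h1)
    have h2' := (ZMod.intCast_zmod_eq_zero_iff_dvd _ _).mp (Gamma_mem.mp h2).2.2.1
    rw [Nat.cast_mul]
    exact IsCoprime.mul_dvd
      (Nat.isCoprime_iff_coprime.mpr (hq.coprime_iff_not_dvd.mpr hqm)) h1' h2'
  set f : Fld₀ O' E' q m := ⟨toFld E' bφ, hbφ⟩
  have hfb : toFld E' bφ ≠ 0 :=
    (map_ne_zero_iff _ (toFld_injective E')).mpr fun h => hφ0 (congrArg Subtype.val h)
  obtain ⟨ν, hν⟩ : ∃ ν : O', (n : O') * ν = 1 := by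
    obtain ⟨a, b, hab⟩ := (hq.coprime_iff_not_dvd.mpr hqn).isCoprime
    have h1 := congrArg (Int.cast : ℤ → O') hab
    push_cast at h1
    refine isUnit_iff_exists_inv.mp (isUnit_of_mul_isUnit_right (x := (b : O')) ?_)
    by_contra hu
    have h2 := Ideal.add_mem _ ((maximalIdeal O').mul_mem_left (a : O') hqO)
      ((IsLocalRing.mem_maximalIdeal _).mpr hu)
    rw [h1] at h2
    exact (maximalIdeal.isMaximal O').ne_top ((Ideal.eq_top_iff_one _).mpr h2)
  obtain ⟨c, h, hc, hh, he⟩ := exists_double_root hcompat X hπ (dvd_mul_right q m)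
    (dvd_mul_left m q) hqO hpts.1 hpts.2 heQ hζ he' (NeZero.pos n)
    (Nat.Coprime.pow_left k (hq.coprime_iff_not_dvd.mpr hqn)) hν (hact σ hσ) (hact τ hτ)
    (f := f) (fun h0 => hfb (congrArg Subtype.val h0)) (a := bφ) (b := 1)
    (isPowFun_of_rep hF ((isLevel_gamma0 _).of_dvd hd) hφ')
    ⟨1, mdifferentiable_const, by rw [one_pow]; rfl, fun δ => ⟨_, hasQSeries_serHom (1 : MF (q * m))⟩⟩
    (by rw [map_one, div_one])
  obtain ⟨bτ, hbτ, hbτ'⟩ := exists_conj_toFld (s := ⟨liftAut τ, (hact τ hτ).stab⟩) rfl bφ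
  obtain ⟨bσ, hbσ, hbσ'⟩ := exists_conj_toFld (s := ⟨liftAut σ, (hact σ hσ).stab⟩) rfl bφ
  obtain ⟨bστ, hbστ, hbστ'⟩ := exists_conj_toFld (s := ⟨liftAut σ, (hact σ hσ).stab⟩) rfl bτ
  rw [show (f : Fld E') = toFld E' bφ from rfl, hbτ, hbσ, hbστ] at he
  obtain ⟨a, b, hb, hab⟩ := exists_eq_div E' (h : Fld E')
  have hbF : toFld E' b ≠ 0 := (map_ne_zero_iff _ (toFld_injective E')).mpr hb
  have hσ0 : toFld E' bσ ≠ 0 := hbσ ▸ (map_ne_zero_iff _ (fConj E' _).injective).mpr hfb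
  have hτ0 : toFld E' bτ ≠ 0 := hbτ ▸ (map_ne_zero_iff _ (fConj E' _).injective).mpr hfb
  rw [hab, algebraMap_eq, div_div_div_eq, div_pow, div_pow, mul_div_assoc',
    div_eq_div_iff (pow_ne_zero _ hbF) (pow_ne_zero _ (mul_ne_zero hσ0 hτ0))] at he
  have key : a ^ n * (bσ * bτ) ^ (6 * (q * m)) =
      cstB E' c * (bστ * bφ) ^ (6 * (q * m)) * b ^ n := toFld_injective E' (by
    simp only [map_mul, map_pow]
    exact he)
  -- representatives
  obtain ⟨Fτ, hFτ, hFτp⟩ := exists_conj_rep hd (liftAut τ) hF (φ := φ') hφ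
  obtain ⟨Fσ, hFσ, hFσp⟩ := exists_conj_rep hd (liftAut σ) hF (φ := φ') hφ
  obtain ⟨Fστ, hFστ, hFστp⟩ := exists_conj_rep hd (liftAut σ) hFτ (φ := conjM (liftAut τ) φ') hFτp
  rw [hbτ'] at hbστ'
  have hH := (hFσ.mul hFτ).pow (6 * (q * m))
  have hG := (hFστ.mul hF).pow (6 * (q * m))
  have hfun : ∀ z, (((a : MF (q * m)) : ℍ → ℂ) z * ((Fσ * Fτ) ^ (6 * (q * m))) z) ^ n =
      E'.φ c * (((b : MF (q * m)) : ℍ → ℂ) z * ((Fστ * F) ^ (6 * (q * m))) z) ^ n := fun z => by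
    have h1 := congrFun (congrArg (fun w : bddMF E' => ((w : MF (q * m)) : ℍ → ℂ)) key) z
    simp only [MulMemClass.coe_mul, SubmonoidClass.coe_pow, Pi.mul_apply, Pi.pow_apply, hbσ',
      hbτ', hbστ', show (bφ : MF (q * m)) = φ' from rfl, hFσp, hFτp, hFστp, hφ'] at h1
    simp only [Pi.mul_apply, Pi.pow_apply]
    rw [show ((cstB E' c : MF (q * m)) : ℍ → ℂ) z = E'.φ c from rfl] at h1
    simp only [mul_pow, ← pow_mul, mul_comm n (6 * (q * m))] at h1 ⊢
    linear_combination h1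
  have ha0 : (a : MF (q * m)) ≠ 0 := fun h0 => hh (Subtype.ext (by
    rw [hab, show a = 0 from Subtype.ext h0, map_zero, zero_div]; rfl))
  have hb0 : (b : MF (q * m)) ≠ 0 := fun h0 => hb (Subtype.ext h0)
  rw [mul_smul]
  refine factorial_nsmul_eq_zero (K := levelG q m) fun γ hγ => ?_
  have h2 := char_eq_on_of_pow_eq hH hG ha0 hb0 ((map_ne_zero_iff _ E'.inj).mpr hc) hfun γ
    fun z => mul_comm_of_mem_levelFld hb (hab ▸ h.2) hγ z
  have hgal : ∀ (s : GQ) ζ, (kummerGalois (q * m₀) n).galois s ζ = autChar (liftAut s) ζ :=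
    fun s ζ => (kummerGalois (q * m₀) n).galois_eq s ζ
  have e1 : (6 * (q * m)) • ((kummerGalois (q * m₀) n).galois σ
        ((kummerGalois (q * m₀) n).galois τ χ - χ) -
      ((kummerGalois (q * m₀) n).galois τ χ - χ)) =
      (6 * (q * m)) • (autChar (liftAut σ) (autChar (liftAut τ) χ) + χ) -
        (6 * (q * m)) • (autChar (liftAut σ) χ + autChar (liftAut τ) χ) := by
    rw [map_sub, hgal, hgal, hgal, ← smul_sub]
    congr 1
    abel
  have e2 : ∀ x y : ParHom (q * m₀) (ZMod n),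
      ((x - y : ParHom (q * m₀) (ZMod n)) : Additive (Gamma0 (q * m₀)) →+ ZMod n)
          (Additive.ofMul γ) =
        (x : Additive (Gamma0 (q * m₀)) →+ ZMod n) (Additive.ofMul γ) -
          (y : Additive (Gamma0 (q * m₀)) →+ ZMod n) (Additive.ofMul γ) := fun _ _ => rfl
  rw [e1, e2]
  exact sub_eq_zero.mpr h2.symm

/-- The input on inertia, from semistable models and totally ramified bases. -/
theorem inertiaProdZero_of_models (N : ℕ) [NeZero N]
    (hmodels : ∀ (q : ℕ) (A : ValuationSubring (AlgebraicClosure ℚ)) (m₀ : ℕ), q.Prime →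
      A.LiesOverPrime q → N = q * m₀ → ¬ q ∣ m₀ → HasSemiModel A q m₀)
    (hbase : ∀ (q : ℕ) (A : ValuationSubring (AlgebraicClosure ℚ)) (m : ℕ) [NeZero (q * m)],
      q.Prime → A.LiesOverPrime q → ¬ q ∣ m → HasRamBase A q m) :
    InertiaProdZero N := by
  intro q hq hqN hq2 A hA σ hσ τ hτ
  obtain ⟨m₀, rfl⟩ := hqN
  have hqm₀ : ¬ q ∣ m₀ := fun h => hq2 (by rw [sq]; exact Nat.mul_dvd_mul_left q h)
  haveI : Fact q.Prime := ⟨hq⟩
  haveI : NeZero q := ⟨hq.ne_zero⟩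
  haveI : NeZero m₀ := ⟨fun h => NeZero.ne (q * m₀) (by rw [h, mul_zero])⟩
  obtain ⟨m, _, hm₀m, hqm, hpts⟩ := hmodels q A m₀ hq hA rfl hqm₀
  haveI : NeZero m := ⟨fun h => NeZero.ne (q * m) (by rw [h, mul_zero])⟩
  exact exists_inertia_bound hA hm₀m hqm hpts (hbase q A m hq hA hqm) hσ hτ

end Fermat.Agent.GalRep.Semistable
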