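/-
Semistable models at a multiple of the level, from the finite charts and the charts at the cusps.
-/
import Fermat.Agent.GalRep.Semistable.FrobFixed
import Fermat.Agent.Models.Gamma0.Interior
import Fermat.Agent.Models.Gamma0.InteriorTwo
import Fermat.Agent.Models.Gamma0.CuspSemi

set_option autoImplicit false
set_option linter.style.haveILetI false
set_option linter.unusedSectionVars false

noncomputable section

namespace Fermat.Agent.GalRep.Semistable

open IsLocalRing
open Fermat.Agent.NewVec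
open Fermat.Agent.ModField
open Fermat.Agent.Models (SemiPoints)
open Fermat.Agent.GalRep.Model (chartRing)

/-- The descended charts are semistable at a multiple of the level. -/
theorem hasSemiModel {q : ℕ} (hq : q.Prime) {A : ValuationSubring (AlgebraicClosure ℚ)}
    (hA : A.LiesOverPrime q) {m₀ : ℕ} (hm₀ : 0 < m₀) (hqm₀ : ¬ q ∣ m₀) :
    HasSemiModel A q m₀ := by
  haveI : Fact q.Prime := ⟨hq⟩
  obtain ⟨hWdvr, hqW, hWac⟩ := wBase_props A hq hA
  haveI := hWdvr
  haveI := hWac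
  haveI : NeZero q := ⟨hq.ne_zero⟩
  have hcusp : ∀ (m : ℕ) [NeZero (q * m)], ¬ q ∣ m → 3 ≤ m →
      SemiPoints (chartRing (wBase A) (jF₀ (wBase A) (embO A (q * m)) q m)) (q : wBase A) →
      SemiPoints (chartRing (wBase A) (jF₀ (wBase A) (embO A (q * m)) q m)⁻¹) (q : wBase A) := by
    intro m _ hqm hm3 hfin
    haveI : NeZero m := ⟨by omega⟩
    haveI := (oBase_dvr (A := A) (M := q * m) hq hA rfl hqm).1
    haveI := finite_oBase (A := A) (M := q * m) hq hA rfl hqm
    exact semiPoints_infinite hqW (adjoin_eq_top hq hA rfl hqm) (exists_wBase_pow hq hA rfl hqm) rfl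
      hqm hm3 hfin
  rcases hq.eq_two_or_odd' with rfl | hodd
  · have hm₀odd : Odd m₀ := Nat.odd_iff.mpr (Nat.two_dvd_ne_zero.mp hqm₀)
    have h2 : ¬ 2 ∣ 3 * m₀ := fun h =>
      (Nat.prime_two.dvd_mul.mp h).elim (by norm_num) hqm₀
    haveI : NeZero (2 * (3 * m₀)) := ⟨by positivity⟩
    have h := semiPoints_finite_two (embO A (2 * (3 * m₀))) (m := 3 * m₀)
      (by simpa using hqW) (adjoin_eq_top hq hA rfl h2) (exists_wBase_pow hq hA rfl h2)
      ((by decide : Odd 3).mul hm₀odd) (dvd_mul_right 3 m₀) rfl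
    have hfin : SemiPoints (chartRing (wBase A) (jF₀ (wBase A) (embO A (2 * (3 * m₀))) 2 (3 * m₀)))
        ((2 : ℕ) : wBase A) := by simpa using h
    exact ⟨3 * m₀, inferInstance, dvd_mul_left _ _, h2, hfin,
      hcusp _ h2 (Nat.le_mul_of_pos_right 3 hm₀) hfin⟩
  obtain ⟨p₀, hp₀, hp₀q, hp₀odd⟩ : ∃ p₀ : ℕ, p₀.Prime ∧ p₀ ≠ q ∧ Odd p₀ := by
    by_cases h : q = 3
    · exact ⟨5, by norm_num, by omega, by decide⟩
    · exact ⟨3, Nat.prime_three, fun e => h e.symm, by decide⟩
  have hq2 : ¬ q ∣ 2 := fun h => by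
    have := (Nat.prime_dvd_prime_iff_eq hq Nat.prime_two).mp h
    rw [this] at hodd
    exact absurd hodd (by decide)
  obtain ⟨a, u, hu, hau⟩ := Nat.exists_eq_two_pow_mul_odd (n := m₀) hm₀.ne'
  obtain ⟨j, hj⟩ := hp₀odd.mul hu
  have hpu : 3 ≤ p₀ * u := by
    have h3 : 3 ≤ p₀ := by
      rcases hp₀.eq_two_or_odd' with rfl | -
      · exact absurd hp₀odd (by decide)
      · have := hp₀.two_le
        obtain ⟨r, hr⟩ := hp₀odd
        omega
    exact h3.trans (Nat.le_mul_of_pos_right p₀ hu.pos)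
  set m := 2 ^ (a + 2) * (p₀ * u) with hm
  have hm₀m : m₀ ∣ m := ⟨4 * p₀, by rw [hm, hau, pow_add]; ring⟩
  have hqm : ¬ q ∣ m := by
    intro h
    rcases hq.dvd_mul.mp h with h1 | h1
    · exact hq2 (hq.dvd_of_dvd_pow h1)
    rcases hq.dvd_mul.mp h1 with h2 | h2
    · exact hp₀q ((Nat.prime_dvd_prime_iff_eq hq hp₀).mp h2).symm
    · exact hqm₀ (hau ▸ h2.mul_left _)
  have hm3 : 3 ≤ m := hpu.trans (Nat.le_mul_of_pos_left _ (by positivity))
  haveI : NeZero (q * m) := ⟨Nat.mul_ne_zero hq.ne_zero (by omega)⟩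
  obtain ⟨k, hk⟩ := hodd
  suffices hfin : SemiPoints (chartRing (wBase A) (jF₀ (wBase A) (embO A (q * m)) q m))
      (q : wBase A) from ⟨m, inferInstance, hm₀m, hqm, hfin, hcusp m hqm hm3 hfin⟩
  exact semiPoints_finite (E := embO A (q * m)) hqW (adjoin_eq_top hq hA rfl hqm)
    (exists_wBase_pow hq hA rfl hqm) rfl hqm ((dvd_pow_self 2 (by omega)).mul_right _) hk
    (Nat.succ_pos (a + 1)) (j := j) (by omega) (by rw [hm, hj])

end Fermat.Agent.GalRep.Semistable
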